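import Fermat.Agent.Mink.Minkowski
import Fermat.Agent.ECRed.OrdQbar
import Fermat.Agent.GalRep.Cyclo

set_option autoImplicit false
set_option maxHeartbeats 400000

/-!
# Decomposition and inertia groups at finite levels
-/

namespace Fermat.Agent.TWGal

open Fermat.Agent.DefRing Fermat.Agent.GalRep Fermat.Agent.Frob NumberField IsLocalRing
open scoped Pointwise

local notation "Qbar" => AlgebraicClosure ℚ

instance isGalois_Qbar' : IsGalois ℚ Qbar := isGalois_Qbar

/-- Frobenius powers on finite subsets of algebraic extensions of `𝔽_q` -/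
lemma exists_frob_pow {κ : Type*} [Field κ] {q : ℕ} [Fact q.Prime] [Algebra (ZMod q) κ]
    [Algebra.IsAlgebraic (ZMod q) κ] (σ : κ ≃ₐ[ZMod q] κ) (s : Set κ) (hs : s.Finite) :
    ∃ k : ℕ, ∀ x ∈ s, σ x = x ^ (q ^ k) := by
  haveI : Finite s := hs
  let F := IntermediateField.adjoin (ZMod q) s
  haveI : FiniteDimensional (ZMod q) F :=
    IntermediateField.finiteDimensional_adjoin (fun x _ => Algebra.IsIntegral.isIntegral x)
  haveI : Finite F := Module.finite_of_finite (ZMod q)
  obtain ⟨k, hk⟩ := (FiniteField.bijective_frobeniusAlgEquivOfAlgebraic_pow (ZMod q) F).2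
    (AlgEquiv.restrictNormal σ F)
  refine ⟨k, fun x hx => ?_⟩
  have h1 := AlgEquiv.restrictNormal_commutes σ F
    ⟨x, IntermediateField.subset_adjoin (ZMod q) s hx⟩
  have h2 : ∀ (n : ℕ) (y : F), ((FiniteField.frobeniusAlgEquivOfAlgebraic (ZMod q) F ^ n) y) =
      y ^ (q ^ n) := by
    intro n
    induction n with
    | zero => intro y; simp
    | succ n ih =>
      intro y
      rw [pow_succ, AlgEquiv.mul_apply, ih, FiniteField.coe_frobeniusAlgEquivOfAlgebraic,
        ZMod.card, ← pow_mul, pow_succ' q n]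
  rw [← hk] at h1
  simp only at h1
  rw [h2] at h1
  exact h1.symm

variable {A : ValuationSubring Qbar} {q : ℕ}

/-- residues of integral elements -/
lemma isIntegral_residue [Fact q.Prime] [Algebra (ZMod q) (ResidueField A)] {b : Qbar}
    (hb : IsIntegral ℤ b) (hbA : b ∈ A) : IsIntegral (ZMod q) (residue A ⟨b, hbA⟩) := by
  have h1 : IsIntegral ℤ (⟨b, hbA⟩ : A) := by
    obtain ⟨f, hf, hfb⟩ := hb
    refine ⟨f, hf, Subtype.val_injective ?_⟩
    rw [← Polynomial.aeval_def] at hfb ⊢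
    have h2 := Polynomial.map_aeval_eq_aeval_map (R := ℤ) (S := A) (T := ℤ) (U := Qbar)
      (φ := RingHom.id ℤ) (ψ := A.subtype) (by ext; simp) f ⟨b, hbA⟩
    rw [Polynomial.map_id] at h2
    exact h2.trans hfb
  obtain ⟨f, hf, hfb⟩ := h1
  refine ⟨f.map (Int.castRingHom (ZMod q)), hf.map _, ?_⟩
  rw [Polynomial.eval₂_map]
  have h3 : (algebraMap (ZMod q) (ResidueField A)).comp (Int.castRingHom (ZMod q)) =
      (residue A).comp (algebraMap ℤ A) := Subsingleton.elim _ _
  rw [h3, ← Polynomial.hom_eval₂, hfb, map_zero]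

/-- the residue field is algebraic over the prime field -/
lemma isAlgebraic_residueField (hq : q.Prime) (hA : A.LiesOverPrime q) [Fact q.Prime]
    [Algebra (ZMod q) (ResidueField A)] : Algebra.IsAlgebraic (ZMod q) (ResidueField A) := by
  constructor
  intro x
  obtain ⟨x, rfl⟩ := residue_surjective x
  have halg : IsAlgebraic ℤ (x : Qbar) := by
    have : IsAlgebraic ℚ (x : Qbar) :=
      (Algebra.IsIntegral.isIntegral (R := ℚ) (x : Qbar)).isAlgebraic
    exact (IsFractionRing.isAlgebraic_iff ℤ ℚ Qbar).mpr this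
  obtain ⟨b, s, hb, hs, hv, hbs⟩ := exists_isIntegral_mul_eq A hq hA x.2 halg
  have hbA := mem_of_isIntegral A hb
  have hsA := mem_of_isIntegral A hs
  have h1 := (isIntegral_residue (q := q) hb hbA).isAlgebraic
  have h2 := (isIntegral_residue (q := q) hs hsA).isAlgebraic
  have hs0 : residue A ⟨s, hsA⟩ ≠ 0 := by
    rw [Ne, residue_eq_zero_iff]
    intro h
    have := (A.valuation_lt_one_iff ⟨s, hsA⟩).mp h
    exact this.ne hv
  have h3 : residue A x = residue A ⟨b, hbA⟩ * (residue A ⟨s, hsA⟩)⁻¹ := by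
    rw [eq_mul_inv_iff_mul_eq₀ hs0, ← map_mul]
    congr 1
    exact Subtype.ext hbs
  rw [h3]
  exact h1.mul h2.inv

lemma mem_decomp_iff {g : GQ} : g ∈ A.decompositionSubgroup ℚ ↔ g • A = A := Iff.rfl

lemma valuation_decomp {g : GQ} (hg : g ∈ A.decompositionSubgroup ℚ) (z : Qbar) :
    A.valuation (g z) < 1 ↔ A.valuation z < 1 := by
  have h := FrobDens.valuation_smul_lt_one_iff A g z
  rwa [mem_decomp_iff.mp hg] at h

lemma inertia_le_decomp {σ : GQ} (hσ : σ ∈ A.inertiaSubgroupIn ℚ) :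
    σ ∈ A.decompositionSubgroup ℚ := by
  obtain ⟨⟨σ', hσ'⟩, -, rfl⟩ := hσ
  exact hσ'

/-- The action of a decomposition element on integral elements of a number field is a Frobenius
power modulo the place. -/
lemma exists_frob_pow_decomp (hq : q.Prime) (hA : A.LiesOverPrime q) {g : GQ}
    (hg : g ∈ A.decompositionSubgroup ℚ) (K : IntermediateField ℚ Qbar) [FiniteDimensional ℚ K] :
    ∃ k : ℕ, ∀ b ∈ K, IsIntegral ℤ b → A.valuation (g b - b ^ (q ^ k)) < 1 := by
  haveI : Fact q.Prime := ⟨hq⟩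
  haveI : CharP (ResidueField A) q := FrobDens.charP_residueField A hq hA
  letI : Algebra (ZMod q) (ResidueField A) := ZMod.algebra _ q
  haveI := isAlgebraic_residueField hq hA
  haveI : NumberField K := ⟨⟩
  let f : 𝓞 K →+* ResidueField A := FrobDens.redEmb A K.val
  have hker : RingHom.ker f ≠ ⊥ := by
    intro h
    have h1 : (q : 𝓞 K) ∈ RingHom.ker f := by
      rw [RingHom.mem_ker, map_natCast, CharP.cast_eq_zero]
    rw [h, Ideal.mem_bot] at h1
    exact hq.ne_zero (by exact_mod_cast h1)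
  have hfin : (Set.range f).Finite := by
    haveI : Finite (𝓞 K ⧸ RingHom.ker f) := Ideal.finiteQuotientOfFreeOfNeBot _ hker
    haveI : Finite f.range := Finite.of_equiv _ (RingHom.quotientKerEquivRange f).toEquiv
    have := Set.toFinite (f.range : Set (ResidueField A))
    rwa [RingHom.coe_range] at this
  let σ : ResidueField A ≃ₐ[ZMod q] ResidueField A :=
    AlgEquiv.ofRingEquiv (f := MulSemiringAction.toRingEquiv (A.decompositionSubgroup ℚ)
      (ResidueField A) ⟨g, hg⟩) (fun a => by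
        have h1 : ((MulSemiringAction.toRingEquiv (A.decompositionSubgroup ℚ)
          (ResidueField A) ⟨g, hg⟩ : ResidueField A ≃+* ResidueField A) :
            ResidueField A →+* ResidueField A).comp (algebraMap (ZMod q) (ResidueField A)) =
            algebraMap (ZMod q) (ResidueField A) := Subsingleton.elim _ _
        exact RingHom.congr_fun h1 a)
  obtain ⟨k, hk⟩ := exists_frob_pow σ (Set.range f) hfin
  refine ⟨k, fun b hbK hb => ?_⟩
  have hbi : IsIntegral ℤ (⟨b, hbK⟩ : K) :=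
    (isIntegral_algHom_iff (IsScalarTower.toAlgHom ℤ K Qbar) (algebraMap K Qbar).injective).mp hb
  have h1 := hk _ ⟨⟨⟨b, hbK⟩, hbi⟩, rfl⟩
  have hbA := mem_of_isIntegral A hb
  have h2 : f ⟨⟨b, hbK⟩, hbi⟩ = residue A ⟨b, hbA⟩ := rfl
  rw [h2, ← map_pow] at h1
  have h3 : σ (residue A ⟨b, hbA⟩) =
      residue A ((⟨g, hg⟩ : A.decompositionSubgroup ℚ) • (⟨b, hbA⟩ : A)) := rfl
  rw [h3] at h1
  exact (FrobDens.residue_eq_iff A _ _).mp h1

/-- stable finite extensions -/
lemma exists_stable (K : IntermediateField ℚ Qbar) [FiniteDimensional ℚ K] :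
    ∃ N : IntermediateField ℚ Qbar, FiniteDimensional ℚ N ∧ K ≤ N ∧
      ∀ g : GQ, ∀ x ∈ N, g x ∈ N := by
  haveI : Normal ℚ Qbar := inferInstance
  have h1 : Normal ℚ (IntermediateField.normalClosure ℚ K Qbar) := normalClosure.normal ℚ K Qbar
  refine ⟨IntermediateField.normalClosure ℚ K Qbar, inferInstance,
    IntermediateField.le_normalClosure K, fun g x hx => ?_⟩
  have h2 := AlgEquiv.restrictNormal_commutes g (IntermediateField.normalClosure ℚ K Qbar) ⟨x, hx⟩
  have h3 : g x = algebraMap _ Qbar (AlgEquiv.restrictNormal g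
    (IntermediateField.normalClosure ℚ K Qbar) ⟨x, hx⟩) := h2.symm
  rw [h3]
  exact (AlgEquiv.restrictNormal g (IntermediateField.normalClosure ℚ K Qbar) ⟨x, hx⟩).2

/-- lifting to the inertia group -/
lemma exists_inertia_of_integral (hq : q.Prime) (hA : A.LiesOverPrime q)
    (K : IntermediateField ℚ Qbar) [FiniteDimensional ℚ K] (hK : ∀ g : GQ, ∀ x ∈ K, g x ∈ K)
    (g : GQ) (hg : ∀ b ∈ K, IsIntegral ℤ b → A.valuation (g b - b) < 1) :
    ∃ σ ∈ A.inertiaSubgroupIn ℚ, ∀ x ∈ K, σ x = g x := by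
  have hopen : IsOpen (K.fixingSubgroup : Set GQ) := K.fixingSubgroup_isOpen
  haveI hnormal : K.fixingSubgroup.Normal := by
    refine ⟨fun n hn k => ?_⟩
    rw [IntermediateField.mem_fixingSubgroup_iff] at hn ⊢
    intro x hx
    rw [AlgEquiv.mul_apply, AlgEquiv.mul_apply, hn _ (hK _ x hx), ← AlgEquiv.mul_apply,
      mul_inv_cancel, AlgEquiv.one_apply]
  obtain ⟨h, hh, hσ⟩ := Mink.exists_mul_mem_inertia A hq hA K.fixingSubgroup hopen g (by
    intro b hb
    rw [mem_center_iff]
    refine hg (b : Qbar) ?_ b.2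
    have h1 : (b : Qbar) ∈ IntermediateField.fixedField K.fixingSubgroup := by
      rw [IntermediateField.mem_fixedField_iff]
      intro f hf
      exact congrArg Subtype.val (hb f hf)
    rwa [InfiniteGalois.fixedField_fixingSubgroup] at h1)
  refine ⟨h * g, hσ, fun x hx => ?_⟩
  rw [AlgEquiv.mul_apply]
  exact (IntermediateField.mem_fixingSubgroup_iff K h).mp hh _ (hK g x hx)

/-- **Decomposition groups are generated by Frobenius and inertia**, at finite levels -/
theorem exists_frob_mul_inertia (hq : q.Prime) (hA : A.LiesOverPrime q) {φ : GQ}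
    (hφ : A.IsFrobeniusAt φ q) {g : GQ} (hg : g ∈ A.decompositionSubgroup ℚ)
    (K₀ : IntermediateField ℚ Qbar) [FiniteDimensional ℚ K₀] :
    ∃ k : ℕ, ∃ σ ∈ A.inertiaSubgroupIn ℚ, ∀ x ∈ K₀, (φ ^ k * σ) x = g x := by
  obtain ⟨K, hKf, hK₀, hK⟩ := exists_stable K₀
  obtain ⟨k, hk⟩ := exists_frob_pow_decomp hq hA hg K
  have hφd := hφ.mem_decompositionSubgroup
  have hφk : ∀ b : Qbar, IsIntegral ℤ b → A.valuation ((φ ^ k) b - b ^ (q ^ k)) < 1 := by
    intro b hb
    clear hk
    induction k with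
    | zero => simp
    | succ n ih =>
      have h1 : (φ ^ (n + 1)) b - b ^ q ^ (n + 1) =
          φ ((φ ^ n) b - b ^ q ^ n) + (φ (b ^ q ^ n) - (b ^ q ^ n) ^ q) := by
        rw [pow_succ', AlgEquiv.mul_apply, map_sub, pow_succ, pow_mul]
        ring
      rw [h1]
      refine lt_of_le_of_lt (A.valuation.map_add _ _) (max_lt ?_ ?_)
      · exact (valuation_decomp hφd _).mpr ih
      · exact (FrobDens.isFrobeniusAt_iff.mp hφ).2 _ (pow_mem (mem_of_isIntegral A hb) _)
  have hφkd : φ ^ k ∈ A.decompositionSubgroup ℚ := pow_mem hφd k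
  obtain ⟨σ, hσ, h⟩ := exists_inertia_of_integral hq hA K hK ((φ ^ k)⁻¹ * g) (fun b hb hbi => by
    rw [← valuation_decomp hφkd, map_sub]
    have e1 : (φ ^ k) (((φ ^ k)⁻¹ * g) b) = g b := by
      rw [← AlgEquiv.mul_apply, mul_inv_cancel_left]
    rw [e1]
    have e2 : g b - (φ ^ k) b = (g b - b ^ q ^ k) - ((φ ^ k) b - b ^ q ^ k) := by ring
    rw [e2]
    exact lt_of_le_of_lt (A.valuation.map_sub _ _) (max_lt (hk b hb hbi) (hφk b hbi)))
  refine ⟨k, σ, hσ, fun x hx => ?_⟩
  rw [AlgEquiv.mul_apply, h x (hK₀ hx), ← AlgEquiv.mul_apply, mul_inv_cancel_left]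

end Fermat.Agent.TWGal
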