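import Mathlib

set_option autoImplicit false
set_option maxHeartbeats 400000

/-!
# From traces to two dimensional representations (odd case)

`G` acts on a module through a ring `M`, the elements `t g = ρ g + χ g ρ g⁻¹` come from a commutative
ring `A` acting faithfully, and `c` is an involution with `χ c = -1`.
-/

namespace Fermat.Agent.TWGal

/-- the data -/
structure PData (G A M : Type*) [Group G] [CommRing A] [Ring M] where
  φ : A →+* M
  inj : Function.Injective φ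
  ρ : G →* M
  comm : ∀ (a : A) (g : G), φ a * ρ g = ρ g * φ a
  χ : G →* A
  t : G → A
  ht : ∀ g, φ (t g) = ρ g + φ (χ g) * ρ g⁻¹
  c : G
  hc : c * c = 1
  hχ : χ c = -1
  i2 : A
  hi2 : i2 * 2 = 1

namespace PData

variable {G A M : Type*} [Group G] [CommRing A] [Ring M] (P : PData G A M)

lemma rho_inv (g : G) : P.ρ g * P.ρ g⁻¹ = 1 := by rw [← map_mul, mul_inv_cancel, map_one]

lemma inv_rho (g : G) : P.ρ g⁻¹ * P.ρ g = 1 := by rw [← map_mul, inv_mul_cancel, map_one]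

lemma chi_inv (g : G) : P.χ g * P.χ g⁻¹ = 1 := by rw [← map_mul, mul_inv_cancel, map_one]

lemma comm' (a : A) (x : M) (g : G) : P.φ a * (P.ρ g * x) = P.ρ g * (P.φ a * x) := by
  rw [← mul_assoc, P.comm, mul_assoc]

/-- the pseudo-character relation -/
lemma t_mul (g h : G) : P.t g * P.t h = P.t (g * h) + P.χ h * P.t (g * h⁻¹) := by
  apply P.inj
  have e1 : P.φ (P.t g * P.t h) = P.ρ g * P.φ (P.t h) + P.φ (P.χ g) * (P.φ (P.t h) * P.ρ g⁻¹) := by
    rw [map_mul, P.ht g, add_mul, ← P.comm, mul_assoc, ← P.comm]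
  rw [e1, map_add, map_mul, P.ht h, P.ht (g * h), P.ht (g * h⁻¹)]
  simp only [mul_inv_rev, inv_inv, map_mul]
  have e2 : P.φ (P.χ h) * (P.φ (P.χ g) * P.φ (P.χ h⁻¹)) = P.φ (P.χ g) := by
    rw [← map_mul, ← map_mul]
    congr 1
    linear_combination P.χ g * P.chi_inv h
  have e3 : ∀ x : M, P.φ (P.χ h) * (P.φ (P.χ g) * (P.φ (P.χ h⁻¹) * x)) = P.φ (P.χ g) * x := by
    intro x
    rw [← mul_assoc, ← mul_assoc, mul_assoc (P.φ (P.χ h)), e2]
  simp only [mul_add, add_mul, mul_assoc, e3, P.comm' (P.χ h)]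
  abel

lemma t_one : P.t 1 = 2 := by
  apply P.inj
  rw [P.ht, map_one P.χ, map_one P.φ, inv_one, map_one P.ρ, one_mul, map_ofNat,
    one_add_one_eq_two]

lemma inv_c : P.c⁻¹ = P.c := inv_eq_of_mul_eq_one_right P.hc

lemma t_c : P.t P.c = 0 := by
  apply P.inj
  rw [P.ht, P.hχ, P.inv_c, map_neg, map_one, neg_one_mul, add_neg_cancel, map_zero]

lemma t_inv (g : G) : P.t g⁻¹ = P.χ g⁻¹ * P.t g := by
  apply P.inj
  rw [P.ht, map_mul, P.ht, inv_inv, mul_add, ← mul_assoc, ← map_mul P.φ, mul_comm (P.χ g⁻¹),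
    P.chi_inv, map_one, one_mul]
  abel

lemma t_comm (g h : G) : P.t (g * h) = P.t (h * g) := by
  have h1 := P.t_mul g h
  have h2 := P.t_mul h g
  have h3 : P.t (h * g⁻¹) = P.χ (h * g⁻¹) * P.t (g * h⁻¹) := by
    have := P.t_inv (g * h⁻¹)
    rw [mul_inv_rev, inv_inv] at this
    exact this
  rw [h3, map_mul] at h2
  have h4 := P.chi_inv g
  linear_combination h2 - h1 + P.χ h * P.t (g * h⁻¹) * h4

/-- upper left entry -/
def a (g : G) : A := P.i2 * (P.t g + P.t (g * P.c))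

/-- lower right entry -/
def d (g : G) : A := P.i2 * (P.t g - P.t (g * P.c))

/-- product of the off-diagonal entries -/
def x (g h : G) : A := P.a (g * h) - P.a g * P.a h

lemma a_add_d (g : G) : P.a g + P.d g = P.t g := by
  rw [a, d]
  linear_combination P.t g * P.hi2

lemma x_eq (g h : G) : P.x g h = P.d (h * g) - P.d h * P.d g := by
  have h1 := P.t_mul g (h * P.c)
  have h2 := P.t_mul (g * P.c) h
  have h3 : P.χ (h * P.c) * P.t (g * (h * P.c)⁻¹) = -(P.χ h * P.t (g * P.c * h⁻¹)) := by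
    rw [map_mul, P.hχ, mul_inv_rev, P.inv_c, ← mul_assoc]
    ring
  rw [h3, ← mul_assoc] at h1
  have h4 := P.t_comm g h
  have h5 : P.t (g * P.c * h) = P.t (h * g * P.c) := by
    rw [P.t_comm (g * P.c) h, mul_assoc]
  rw [h5] at h2
  rw [x, a, a, a, d, d, d]
  have hi := P.hi2
  linear_combination P.i2 * h4 - P.i2 * P.i2 * 2 * (h1 + h2) +
    (P.i2 * (P.t (g * h * P.c) + P.t (h * g * P.c))) * (-hi)

/-- idempotent -/
def E : M := P.φ P.i2 * (1 + P.ρ P.c)

/-- idempotent -/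
def F : M := P.φ P.i2 * (1 - P.ρ P.c)

lemma phi_i2 : P.φ P.i2 + P.φ P.i2 = 1 := by
  rw [← map_add, ← mul_two, P.hi2, map_one]

lemma E_add_F : P.E + P.F = 1 := by
  rw [E, F, ← mul_add]
  have : (1 + P.ρ P.c + (1 - P.ρ P.c)) = 1 + 1 := by abel
  rw [this, mul_add, mul_one, P.phi_i2]

lemma rc : P.ρ P.c * P.ρ P.c = 1 := by rw [← map_mul, P.hc, map_one]

lemma rc_E : P.ρ P.c * P.E = P.E := by
  rw [E, ← mul_assoc, ← P.comm, mul_assoc, mul_add, mul_one, P.rc, add_comm (P.ρ P.c)]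

lemma E_rc : P.E * P.ρ P.c = P.E := by
  rw [E, mul_assoc, add_mul, one_mul, P.rc, add_comm (P.ρ P.c)]

lemma rc_F : P.ρ P.c * P.F = -P.F := by
  rw [F, ← mul_assoc, ← P.comm, mul_assoc, mul_sub, mul_one, P.rc, ← mul_neg]
  congr 1
  abel

lemma F_rc : P.F * P.ρ P.c = -P.F := by
  rw [F, mul_assoc, sub_mul, one_mul, P.rc, ← mul_neg]
  congr 1
  abel

lemma E_comm (b : A) : P.φ b * P.E = P.E * P.φ b := by
  rw [E, ← mul_assoc, ← map_mul, mul_comm b, map_mul, mul_assoc, mul_assoc]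
  congr 1
  rw [mul_add, add_mul, mul_one, one_mul, P.comm]

lemma F_comm (b : A) : P.φ b * P.F = P.F * P.φ b := by
  rw [F, ← mul_assoc, ← map_mul, mul_comm b, map_mul, mul_assoc, mul_assoc]
  congr 1
  rw [mul_sub, sub_mul, mul_one, one_mul, P.comm]

lemma E_E : P.E * P.E = P.E := by
  nth_rewrite 1 [E]
  rw [mul_assoc, add_mul, one_mul, P.rc_E, mul_add, ← add_mul, P.phi_i2, one_mul]

lemma F_F : P.F * P.F = P.F := by
  nth_rewrite 1 [F]
  rw [mul_assoc, sub_mul, one_mul, P.rc_F, sub_neg_eq_add, mul_add, ← add_mul, P.phi_i2, one_mul]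

lemma one_sub_E : P.F = 1 - P.E := by rw [← P.E_add_F]; abel

lemma E_rho_E (g : G) : P.E * P.ρ g * P.E = P.φ (P.a g) * P.E := by
  have h1 : P.φ (P.t g) * P.E = P.E * P.ρ g * P.E + P.φ (P.χ g) * (P.E * P.ρ g⁻¹ * P.E) := by
    have e : P.φ (P.t g) * P.E = P.E * P.φ (P.t g) * P.E := by
      rw [← P.E_comm, mul_assoc, P.E_E]
    rw [e, P.ht, mul_add, add_mul]
    congr 1
    rw [← mul_assoc, ← P.E_comm]
    simp only [mul_assoc]
  have h2 : P.φ (P.t (g * P.c)) * P.E =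
      P.E * P.ρ g * P.E - P.φ (P.χ g) * (P.E * P.ρ g⁻¹ * P.E) := by
    have e : P.φ (P.t (g * P.c)) * P.E = P.E * P.φ (P.t (g * P.c)) * P.E := by
      rw [← P.E_comm, mul_assoc, P.E_E]
    rw [e, P.ht, mul_add, add_mul, map_mul P.χ, P.hχ, mul_inv_rev, map_mul P.ρ, map_mul P.ρ,
      P.inv_c, mul_neg_one, map_neg, sub_eq_add_neg]
    congr 1
    · rw [mul_assoc, mul_assoc (P.ρ g), P.rc_E, mul_assoc]
    · rw [neg_mul, mul_neg, neg_mul]
      congr 1
      rw [← mul_assoc, ← P.E_comm]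
      have : P.φ (P.χ g) * P.E * (P.ρ P.c * P.ρ g⁻¹) = P.φ (P.χ g) * (P.E * P.ρ P.c * P.ρ g⁻¹) := by
        simp only [mul_assoc]
      rw [this, P.E_rc]
      simp only [mul_assoc]
  have h3 : P.φ (P.a g) * P.E = P.φ P.i2 * (P.φ (P.t g) * P.E + P.φ (P.t (g * P.c)) * P.E) := by
    rw [a, map_mul, map_add, mul_assoc, add_mul]
  rw [h3, h1, h2]
  have : P.E * P.ρ g * P.E + P.φ (P.χ g) * (P.E * P.ρ g⁻¹ * P.E) +
      (P.E * P.ρ g * P.E - P.φ (P.χ g) * (P.E * P.ρ g⁻¹ * P.E)) =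
      P.E * P.ρ g * P.E + P.E * P.ρ g * P.E := by abel
  rw [this, mul_add, ← add_mul, P.phi_i2, one_mul]

lemma F_rho_F (g : G) : P.F * P.ρ g * P.F = P.φ (P.d g) * P.F := by
  have h1 : P.φ (P.t g) * P.F = P.F * P.ρ g * P.F + P.φ (P.χ g) * (P.F * P.ρ g⁻¹ * P.F) := by
    have e : P.φ (P.t g) * P.F = P.F * P.φ (P.t g) * P.F := by
      rw [← P.F_comm, mul_assoc, P.F_F]
    rw [e, P.ht, mul_add, add_mul]
    congr 1
    rw [← mul_assoc, ← P.F_comm]
    simp only [mul_assoc]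
  have h2 : P.φ (P.t (g * P.c)) * P.F =
      -(P.F * P.ρ g * P.F) + P.φ (P.χ g) * (P.F * P.ρ g⁻¹ * P.F) := by
    have e : P.φ (P.t (g * P.c)) * P.F = P.F * P.φ (P.t (g * P.c)) * P.F := by
      rw [← P.F_comm, mul_assoc, P.F_F]
    rw [e, P.ht, mul_add, add_mul, map_mul P.χ, P.hχ, mul_inv_rev, map_mul P.ρ, map_mul P.ρ,
      P.inv_c, mul_neg_one, map_neg]
    congr 1
    · rw [mul_assoc, mul_assoc (P.ρ g), P.rc_F, mul_neg, mul_neg, mul_assoc]
    · rw [neg_mul, mul_neg, neg_mul, ← mul_assoc, ← P.F_comm]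
      have : P.φ (P.χ g) * P.F * (P.ρ P.c * P.ρ g⁻¹) = P.φ (P.χ g) * (P.F * P.ρ P.c * P.ρ g⁻¹) := by
        simp only [mul_assoc]
      rw [this, P.F_rc, neg_mul, mul_neg, neg_mul, neg_neg]
      simp only [mul_assoc]
  have h3 : P.φ (P.d g) * P.F = P.φ P.i2 * (P.φ (P.t g) * P.F - P.φ (P.t (g * P.c)) * P.F) := by
    rw [d, map_mul, map_sub, mul_assoc, sub_mul]
  rw [h3, h1, h2]
  have : P.F * P.ρ g * P.F + P.φ (P.χ g) * (P.F * P.ρ g⁻¹ * P.F) -
      (-(P.F * P.ρ g * P.F) + P.φ (P.χ g) * (P.F * P.ρ g⁻¹ * P.F)) =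
      P.F * P.ρ g * P.F + P.F * P.ρ g * P.F := by abel
  rw [this, mul_add, ← add_mul, P.phi_i2, one_mul]

lemma EFE (g h : G) : P.E * P.ρ g * P.F * P.ρ h * P.E = P.φ (P.x g h) * P.E := by
  rw [P.one_sub_E, mul_sub, mul_one, sub_mul, sub_mul]
  have e1 : P.E * P.ρ g * P.ρ h * P.E = P.φ (P.a (g * h)) * P.E := by
    rw [← P.E_rho_E, map_mul]
    simp only [mul_assoc]
  have e2 : P.E * P.ρ g * P.E * P.ρ h * P.E = P.φ (P.a g * P.a h) * P.E := by
    rw [P.E_rho_E, map_mul, mul_assoc, mul_assoc, ← mul_assoc P.E, P.E_rho_E, mul_assoc]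
  rw [e1, e2, x, map_sub, sub_mul]

lemma FEF (g h : G) : P.F * P.ρ h * P.E * P.ρ g * P.F = P.φ (P.x g h) * P.F := by
  have hE : P.E = 1 - P.F := by rw [P.one_sub_E]; abel
  rw [hE, mul_sub, mul_one, sub_mul, sub_mul]
  have e1 : P.F * P.ρ h * P.ρ g * P.F = P.φ (P.d (h * g)) * P.F := by
    rw [← P.F_rho_F, map_mul]
    simp only [mul_assoc]
  have e2 : P.F * P.ρ h * P.F * P.ρ g * P.F = P.φ (P.d h * P.d g) * P.F := by
    rw [P.F_rho_F, map_mul, mul_assoc, mul_assoc, ← mul_assoc P.F, P.F_rho_F, mul_assoc]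
  rw [e1, e2, x_eq, map_sub, sub_mul]

lemma ext_EF {b b' : A} (h1 : P.φ b * P.E = P.φ b' * P.E) (h2 : P.φ b * P.F = P.φ b' * P.F) :
    b = b' := by
  apply P.inj
  have := congrArg₂ (· + ·) h1 h2
  simp only [← mul_add, P.E_add_F, mul_one] at this
  exact this

lemma x_mul_x (g h u v : G) : P.x g h * P.x u v = P.x g v * P.x u h := by
  apply P.ext_EF
  · have l1 : P.φ (P.x g h * P.x u v) * P.E =
        P.E * P.ρ g * P.F * P.ρ h * P.E * P.ρ u * P.F * P.ρ v * P.E := by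
      rw [P.EFE, map_mul, mul_assoc, ← P.EFE u v]
      simp only [mul_assoc]
    have l2 : P.E * P.ρ g * P.F * P.ρ h * P.E * P.ρ u * P.F * P.ρ v * P.E =
        P.E * P.ρ g * (P.F * P.ρ h * P.E * P.ρ u * P.F) * P.ρ v * P.E := by
      simp only [mul_assoc]
    have l3 : P.E * P.ρ g * (P.φ (P.x u h) * P.F) * P.ρ v * P.E =
        P.φ (P.x u h) * (P.E * P.ρ g * P.F * P.ρ v * P.E) := by
      have : P.E * P.ρ g * (P.φ (P.x u h) * P.F) = P.φ (P.x u h) * (P.E * P.ρ g * P.F) := by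
        rw [← mul_assoc, mul_assoc P.E, ← P.comm, ← mul_assoc P.E, ← P.E_comm]
        simp only [mul_assoc]
      rw [this]
      simp only [mul_assoc]
    rw [l1, l2, P.FEF, l3, P.EFE, ← mul_assoc, ← map_mul, mul_comm (P.x u h)]
  · have l1 : P.φ (P.x g h * P.x u v) * P.F =
        P.F * P.ρ h * P.E * P.ρ g * P.F * P.ρ v * P.E * P.ρ u * P.F := by
      rw [P.FEF, map_mul, mul_assoc, ← P.FEF u v]
      simp only [mul_assoc]
    have l2 : P.F * P.ρ h * P.E * P.ρ g * P.F * P.ρ v * P.E * P.ρ u * P.F =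
        P.F * P.ρ h * (P.E * P.ρ g * P.F * P.ρ v * P.E) * P.ρ u * P.F := by
      simp only [mul_assoc]
    have l3 : P.F * P.ρ h * (P.φ (P.x g v) * P.E) * P.ρ u * P.F =
        P.φ (P.x g v) * (P.F * P.ρ h * P.E * P.ρ u * P.F) := by
      have : P.F * P.ρ h * (P.φ (P.x g v) * P.E) = P.φ (P.x g v) * (P.F * P.ρ h * P.E) := by
        rw [← mul_assoc, mul_assoc P.F, ← P.comm, ← mul_assoc P.F, ← P.F_comm]
        simp only [mul_assoc]
      rw [this]
      simp only [mul_assoc]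
    rw [l1, l2, P.EFE, l3, P.FEF, ← mul_assoc, ← map_mul]

lemma x_mul_left (g h v : G) : P.x (g * h) v = P.a g * P.x h v + P.x g v * P.d h := by
  apply P.ext_EF
  · have l1 : P.E * P.ρ (g * h) * P.F * P.ρ v * P.E =
        P.E * P.ρ g * P.E * (P.E * P.ρ h * P.F * P.ρ v * P.E) +
        P.E * P.ρ g * (P.F * P.ρ h * P.F) * P.ρ v * P.E := by
      rw [map_mul]
      have : P.E * (P.ρ g * P.ρ h) * P.F * P.ρ v * P.E =
          P.E * P.ρ g * (P.E + P.F) * P.ρ h * P.F * P.ρ v * P.E := by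
        rw [P.E_add_F, mul_one]; simp only [mul_assoc]
      rw [this]
      have e2 : P.E * P.ρ g * P.E * (P.E * P.ρ h * P.F * P.ρ v * P.E) =
          P.E * P.ρ g * (P.E * P.E) * P.ρ h * P.F * P.ρ v * P.E := by simp only [mul_assoc]
      rw [e2, P.E_E]
      simp only [mul_add, add_mul, mul_assoc]
    rw [← P.EFE, l1, P.E_rho_E, P.F_rho_F, P.EFE]
    have l2 : P.E * P.ρ g * (P.φ (P.d h) * P.F) * P.ρ v * P.E =
        P.φ (P.d h) * (P.E * P.ρ g * P.F * P.ρ v * P.E) := by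
      have : P.E * P.ρ g * (P.φ (P.d h) * P.F) = P.φ (P.d h) * (P.E * P.ρ g * P.F) := by
        rw [← mul_assoc, mul_assoc P.E, ← P.comm, ← mul_assoc P.E, ← P.E_comm]
        simp only [mul_assoc]
      rw [this]
      simp only [mul_assoc]
    rw [l2, P.EFE, map_add, map_mul, map_mul, add_mul]
    congr 1
    · rw [mul_assoc, ← mul_assoc P.E, ← P.E_comm, mul_assoc, P.E_E, mul_assoc]
    · rw [← mul_assoc, ← map_mul, ← map_mul, mul_comm (P.d h)]
  · have l1 : P.F * P.ρ v * P.E * P.ρ (g * h) * P.F =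
        P.F * P.ρ v * (P.E * P.ρ g * P.E) * P.ρ h * P.F +
        P.F * P.ρ v * P.E * P.ρ g * P.F * (P.F * P.ρ h * P.F) := by
      rw [map_mul]
      have : P.F * P.ρ v * P.E * (P.ρ g * P.ρ h) * P.F =
          P.F * P.ρ v * P.E * P.ρ g * (P.E + P.F) * P.ρ h * P.F := by
        rw [P.E_add_F, mul_one]; simp only [mul_assoc]
      rw [this]
      have e2 : P.F * P.ρ v * P.E * P.ρ g * P.F * (P.F * P.ρ h * P.F) =
          P.F * P.ρ v * P.E * P.ρ g * (P.F * P.F) * P.ρ h * P.F := by simp only [mul_assoc]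
      rw [e2, P.F_F]
      simp only [mul_add, add_mul, mul_assoc]
    rw [← P.FEF, l1, P.E_rho_E, P.F_rho_F, P.FEF]
    have l2 : P.F * P.ρ v * (P.φ (P.a g) * P.E) * P.ρ h * P.F =
        P.φ (P.a g) * (P.F * P.ρ v * P.E * P.ρ h * P.F) := by
      have : P.F * P.ρ v * (P.φ (P.a g) * P.E) = P.φ (P.a g) * (P.F * P.ρ v * P.E) := by
        rw [← mul_assoc, mul_assoc P.F, ← P.comm, ← mul_assoc P.F, ← P.F_comm]
        simp only [mul_assoc]
      rw [this]
      simp only [mul_assoc]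
    rw [l2, P.FEF, map_add, map_mul, map_mul, add_mul]
    congr 1
    · rw [mul_assoc]
    · rw [mul_assoc, ← mul_assoc P.F, ← P.F_comm, mul_assoc, P.F_F, mul_assoc]

lemma x_mul_right (g h v : G) : P.x g (h * v) = P.x g h * P.a v + P.d h * P.x g v := by
  apply P.ext_EF
  · have l1 : P.E * P.ρ g * P.F * P.ρ (h * v) * P.E =
        P.E * P.ρ g * P.F * P.ρ h * P.E * (P.E * P.ρ v * P.E) +
        P.E * P.ρ g * (P.F * P.ρ h * P.F) * P.ρ v * P.E := by
      rw [map_mul]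
      have : P.E * P.ρ g * P.F * (P.ρ h * P.ρ v) * P.E =
          P.E * P.ρ g * P.F * P.ρ h * (P.E + P.F) * P.ρ v * P.E := by
        rw [P.E_add_F, mul_one]; simp only [mul_assoc]
      rw [this]
      have e2 : P.E * P.ρ g * P.F * P.ρ h * P.E * (P.E * P.ρ v * P.E) =
          P.E * P.ρ g * P.F * P.ρ h * (P.E * P.E) * P.ρ v * P.E := by simp only [mul_assoc]
      rw [e2, P.E_E]
      simp only [mul_add, add_mul, mul_assoc]
    rw [← P.EFE, l1, P.E_rho_E, P.F_rho_F, P.EFE]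
    have l2 : P.E * P.ρ g * (P.φ (P.d h) * P.F) * P.ρ v * P.E =
        P.φ (P.d h) * (P.E * P.ρ g * P.F * P.ρ v * P.E) := by
      have : P.E * P.ρ g * (P.φ (P.d h) * P.F) = P.φ (P.d h) * (P.E * P.ρ g * P.F) := by
        rw [← mul_assoc, mul_assoc P.E, ← P.comm, ← mul_assoc P.E, ← P.E_comm]
        simp only [mul_assoc]
      rw [this]
      simp only [mul_assoc]
    rw [l2, P.EFE, map_add, map_mul, map_mul, add_mul]
    congr 1
    · rw [mul_assoc, ← mul_assoc P.E, ← P.E_comm, mul_assoc, P.E_E, mul_assoc]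
    · rw [mul_assoc]
  · have l1 : P.F * P.ρ (h * v) * P.E * P.ρ g * P.F =
        P.F * P.ρ h * (P.E * P.ρ v * P.E) * P.ρ g * P.F +
        (P.F * P.ρ h * P.F) * (P.F * P.ρ v * P.E * P.ρ g * P.F) := by
      rw [map_mul]
      have : P.F * (P.ρ h * P.ρ v) * P.E * P.ρ g * P.F =
          P.F * P.ρ h * (P.E + P.F) * P.ρ v * P.E * P.ρ g * P.F := by
        rw [P.E_add_F, mul_one]; simp only [mul_assoc]
      rw [this]
      have e2 : (P.F * P.ρ h * P.F) * (P.F * P.ρ v * P.E * P.ρ g * P.F) =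
          P.F * P.ρ h * (P.F * P.F) * P.ρ v * P.E * P.ρ g * P.F := by simp only [mul_assoc]
      rw [e2, P.F_F]
      simp only [mul_add, add_mul, mul_assoc]
    rw [← P.FEF, l1, P.E_rho_E, P.F_rho_F, P.FEF]
    have l2 : P.F * P.ρ h * (P.φ (P.a v) * P.E) * P.ρ g * P.F =
        P.φ (P.a v) * (P.F * P.ρ h * P.E * P.ρ g * P.F) := by
      have : P.F * P.ρ h * (P.φ (P.a v) * P.E) = P.φ (P.a v) * (P.F * P.ρ h * P.E) := by
        rw [← mul_assoc, mul_assoc P.F, ← P.comm, ← mul_assoc P.F, ← P.F_comm]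
        simp only [mul_assoc]
      rw [this]
      simp only [mul_assoc]
    rw [l2, P.FEF, map_add, map_mul, map_mul, add_mul]
    congr 1
    · rw [← mul_assoc, ← map_mul, ← map_mul, mul_comm (P.a v)]
    · rw [mul_assoc, ← mul_assoc P.F, ← P.F_comm, mul_assoc, P.F_F, mul_assoc]

lemma a_one : P.a 1 = 1 := by
  rw [a, one_mul, P.t_one, P.t_c, add_zero, P.hi2]

lemma d_one : P.d 1 = 1 := by
  rw [d, one_mul, P.t_one, P.t_c, sub_zero, P.hi2]

lemma x_one_left (h : G) : P.x 1 h = 0 := by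
  rw [x, one_mul, P.a_one, one_mul, sub_self]

lemma x_one_right (g : G) : P.x g 1 = 0 := by
  rw [x, mul_one, P.a_one, mul_one, sub_self]

section Rep

variable {R : Type*} [CommRing R] (π : A →+* R) {g₁ g₂ : G} {u : R}
  (hu : π (P.x g₁ g₂) * u = 1)

include hu in
/-- the representation -/
lemma exists_rep : ∃ T : G →* Matrix (Fin 2) (Fin 2) R,
    (∀ g, T g = !![π (P.a g), π (P.x g g₂) * u; π (P.x g₁ g), π (P.d g)]) ∧
    (∀ g, (T g).trace = π (P.t g)) ∧ (∀ g, (T g).det = π (P.χ g)) := by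
  let T : G →* Matrix (Fin 2) (Fin 2) R :=
    { toFun := fun g => !![π (P.a g), π (P.x g g₂) * u; π (P.x g₁ g), π (P.d g)]
      map_one' := by
        rw [P.a_one, P.d_one, P.x_one_left, P.x_one_right, map_one, map_zero, zero_mul,
          Matrix.one_fin_two]
      map_mul' := fun g h => by
        have h1 := congrArg π (P.x_mul_x g g₂ g₁ h)
        have h2 := congrArg π (P.x_mul_left g h g₂)
        have h3 := congrArg π (P.x_mul_right g₁ g h)
        have h4 := congrArg π (P.x_mul_x g₁ g h g₂)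
        have h5 := congrArg π (P.x_eq h g)
        have h6 : π (P.a (g * h)) = π (P.x g h) + π (P.a g) * π (P.a h) := by
          rw [x, map_sub, map_mul]; ring
        simp only [map_mul, map_add, map_sub] at h1 h2 h3 h4 h5
        have k1 : π (P.x g h) + π (P.a g) * π (P.a h) =
            π (P.a g) * π (P.a h) + π (P.x g g₂) * u * π (P.x g₁ h) := by
          linear_combination (-π (P.x g h)) * hu - u * h1
        have k2 : (π (P.a g) * π (P.x h g₂) + π (P.x g g₂) * π (P.d h)) * u =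
            π (P.a g) * (π (P.x h g₂) * u) + π (P.x g g₂) * u * π (P.d h) := by ring
        have k3 : π (P.x g₁ g) * π (P.a h) + π (P.d g) * π (P.x g₁ h) =
            π (P.x g₁ g) * π (P.a h) + π (P.d g) * π (P.x g₁ h) := rfl
        have k4 : π (P.d (g * h)) = π (P.x g₁ g) * (π (P.x h g₂) * u) + π (P.d g) * π (P.d h) := by
          linear_combination (-π (P.x h g)) * hu - h5 - u * h4
        rw [Matrix.mul_fin_two, h6, h2, h3, k1, k2, k4] }
  have htr : ∀ g, (T g).trace = π (P.t g) := by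
    intro g
    show (!![π (P.a g), π (P.x g g₂) * u; π (P.x g₁ g), π (P.d g)] :
      Matrix (Fin 2) (Fin 2) R).trace = _
    rw [Matrix.trace_fin_two_of, ← map_add, P.a_add_d]
  refine ⟨T, fun g => rfl, htr, fun g => ?_⟩
  have h1 := htr g
  have h2 := htr (g * g)
  have h3 := congrArg π (P.t_mul g g)
  rw [mul_inv_cancel, P.t_one, map_mul, map_add, map_mul, map_ofNat, ← h1, ← h2, map_mul T] at h3
  have h4 : (T g).trace * (T g).trace = (T g * T g).trace + 2 * (T g).det := by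
    rw [Matrix.trace_fin_two, Matrix.trace_fin_two, Matrix.det_fin_two, Matrix.mul_apply,
      Matrix.mul_apply, Fin.sum_univ_two, Fin.sum_univ_two]
    ring
  have h5 : π P.i2 * 2 = 1 := by rw [← map_ofNat π 2, ← map_mul, P.hi2, map_one]
  linear_combination ((T g).det - π (P.χ g)) * (-h5) + π P.i2 * (h3 - h4)

end Rep

end PData

end Fermat.Agent.TWGal
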