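import Fermat.Agent.FlatLoc.Closure
import Fermat.Agent.TWGal.Pseudo

/-!
# Properties of Galois modules closed under subquotients and products; lattices of the
Boston-Lenstra-Ribet type
-/

set_option autoImplicit false
set_option maxHeartbeats 400000

namespace Fermat.Agent.TWGal

open Fermat.Agent.FlatLoc

/-- a property of finite modules stable under subobjects, quotients and products -/
structure Closed {G : Type*} [Group G]
    (𝓟 : ∀ (V : Type) [AddCommGroup V], (G →* AddMonoid.End V) → Prop) : Prop where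
  sub : ∀ {V W : Type} [AddCommGroup V] [AddCommGroup W] [Finite V]
    (ρ : G →* AddMonoid.End V) (ρ' : G →* AddMonoid.End W) (ι : W →+ V),
    Function.Injective ι → Equivar ρ' ρ ι → 𝓟 V ρ → 𝓟 W ρ'
  quot : ∀ {V W : Type} [AddCommGroup V] [AddCommGroup W] [Finite V]
    (ρ : G →* AddMonoid.End V) (ρ' : G →* AddMonoid.End W) (π : V →+ W),
    Function.Surjective π → Equivar ρ ρ' π → 𝓟 V ρ → 𝓟 W ρ'
  prod : ∀ {V W : Type} [AddCommGroup V] [AddCommGroup W] [Finite V] [Finite W]
    (ρ : G →* AddMonoid.End V) (ρ' : G →* AddMonoid.End W),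
    𝓟 V ρ → 𝓟 W ρ' → 𝓟 (V × W) (prodRep ρ ρ')

section

variable {G : Type*} [Group G]

/-- flatness is a closed property -/
theorem closed_flat {K : Type*} [Field K] [MulSemiringAction G K] {R : Subring K}
    (hR : IsBase G R) : Closed (G := G) (fun V [AddCommGroup V] ρ => IsFlatMod (V := V) R ρ) where
  sub _ _ ι hι hι' h := h.sub ι hι hι'
  quot _ _ π hπ hπ' h := h.quotient hR π hπ hπ'
  prod _ _ h h' := h.prod hR h'

variable {𝓟 : ∀ (V : Type) [AddCommGroup V], (G →* AddMonoid.End V) → Prop}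

theorem Closed.of_equiv (h𝓟 : Closed 𝓟) {V W : Type} [AddCommGroup V] [AddCommGroup W] [Finite V]
    {ρ : G →* AddMonoid.End V} {ρ' : G →* AddMonoid.End W} (e : V ≃+ W)
    (he : ∀ σ x, e (ρ σ x) = ρ' σ (e x)) (h : 𝓟 V ρ) : 𝓟 W ρ' :=
  h𝓟.quot ρ ρ' (e : V →+ W) e.surjective he h

/-- the action on a power -/
def piRep (ι : Type) {V : Type} [AddCommGroup V] (ρ : G →* AddMonoid.End V) :
    G →* AddMonoid.End (ι → V) where
  toFun σ :=
    { toFun := fun f i => ρ σ (f i)
      map_zero' := by funext i; exact map_zero (ρ σ)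
      map_add' := fun f g => by funext i; exact map_add (ρ σ) _ _ }
  map_one' := by
    ext f : 1
    funext i
    change ρ 1 (f i) = f i
    rw [map_one]
    rfl
  map_mul' σ τ := by
    ext f : 1
    funext i
    change ρ (σ * τ) (f i) = ρ σ (ρ τ (f i))
    rw [map_mul]
    rfl

theorem piRep_apply (ι : Type) {V : Type} [AddCommGroup V] (ρ : G →* AddMonoid.End V) (σ : G)
    (f : ι → V) (i : ι) : piRep ι ρ σ f i = ρ σ (f i) := rfl

theorem Closed.pi (h𝓟 : Closed 𝓟) {V : Type} [AddCommGroup V] [Finite V]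
    {ρ : G →* AddMonoid.End V} (h : 𝓟 V ρ) (ι : Type) [Finite ι] :
    𝓟 (ι → V) (piRep ι ρ) := by
  refine Finite.induction_empty_option (P := fun ι => Finite ι → 𝓟 (ι → V) (piRep ι ρ))
    ?_ ?_ ?_ ι inferInstance
  · intro α β e hα hβ
    haveI : Finite α := Finite.of_equiv β e.symm
    exact h𝓟.of_equiv (ρ := piRep α ρ) (ρ' := piRep β ρ)
        { toFun := fun f => f ∘ e.symm
          invFun := fun f => f ∘ e
          left_inv := fun f => by funext i; simp
          right_inv := fun f => by funext i; simp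
          map_add' := fun f g => rfl } (fun σ x => rfl) (hα inferInstance)
  · intro _
    refine h𝓟.sub ρ (piRep PEmpty ρ) (0 : (PEmpty → V) →+ V) (fun a b _ => Subsingleton.elim _ _)
      (fun σ x => ?_) h
    rw [AddMonoidHom.zero_apply, AddMonoidHom.zero_apply, map_zero]
  · intro α _ hα _
    refine h𝓟.of_equiv (V := V × (α → V)) (ρ := prodRep ρ (piRep α ρ)) (ρ' := piRep (Option α) ρ)
      { toFun := fun f o => o.elim f.1 f.2
        invFun := fun f => (f none, fun i => f (some i))
        left_inv := fun f => rfl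
        right_inv := fun f => by
          funext o
          cases o <;> rfl
        map_add' := fun f g => by
          funext o
          cases o <;> rfl } (fun σ x => ?_)
      (h𝓟.prod ρ (piRep α ρ) h (hα inferInstance))
    funext o
    cases o <;> rfl

/-- **Subquotients** -/
theorem Closed.subquot (h𝓟 : Closed 𝓟) {V W : Type} {Z : Type*} [AddCommGroup V]
    [AddCommGroup W] [AddCommGroup Z] [Finite V] {ρ : G →* AddMonoid.End V} {ρ' : G →* AddMonoid.End W}
    (α : Z →+ V) (β : Z →+ W) (hβ : Function.Surjective β) (hker : ∀ z, α z = 0 → β z = 0)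
    (hG : ∀ (σ : G) (z : Z), ∃ z', α z' = ρ σ (α z) ∧ β z' = ρ' σ (β z)) (h : 𝓟 V ρ) :
    𝓟 W ρ' := by
  have hst : ∀ (σ : G) (v : α.range), ρ σ v.1 ∈ α.range := by
    rintro σ ⟨_, z, rfl⟩
    obtain ⟨z', h1, -⟩ := hG σ z
    exact ⟨z', h1⟩
  let ρQ : G →* AddMonoid.End α.range :=
    { toFun := fun σ =>
        { toFun := fun v => ⟨ρ σ v.1, hst σ v⟩
          map_zero' := Subtype.ext (map_zero (ρ σ))
          map_add' := fun v w => Subtype.ext (map_add (ρ σ) _ _) }
      map_one' := by
        ext v : 1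
        apply Subtype.ext
        change ρ 1 v.1 = v.1
        rw [map_one]
        rfl
      map_mul' := fun σ τ => by
        ext v : 1
        apply Subtype.ext
        change ρ (σ * τ) v.1 = ρ σ (ρ τ v.1)
        rw [map_mul]
        rfl }
  have h1 : 𝓟 α.range ρQ := h𝓟.sub ρ ρQ α.range.subtype Subtype.coe_injective
    (fun σ x => rfl) h
  haveI : Finite α.range := inferInstance
  choose s hs using fun v : α.range => v.2
  have key : ∀ z z', α z = α z' → β z = β z' := by
    intro z z' hz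
    rw [← sub_eq_zero, ← map_sub]
    apply hker
    rw [map_sub, hz, sub_self]
  let γ : α.range →+ W :=
    { toFun := fun v => β (s v)
      map_zero' := by
        apply hker
        rw [hs]
        rfl
      map_add' := fun v w => by
        rw [← map_add]
        apply key
        rw [map_add, hs, hs, hs]
        rfl }
  have hγ : ∀ z, γ ⟨α z, z, rfl⟩ = β z := fun z => key _ _ (hs _)
  refine h𝓟.quot ρQ ρ' γ (fun w => ?_) (fun σ v => ?_) h1
  · obtain ⟨z, rfl⟩ := hβ w
    exact ⟨_, hγ z⟩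
  · obtain ⟨_, z, rfl⟩ := v
    obtain ⟨z', h2, h3⟩ := hG σ z
    rw [hγ, ← h3, ← hγ z']
    congr 1
    exact Subtype.ext h2.symm

/-! ### The subquotient argument -/

section BLR

variable {A 𝕄 : Type*} [CommRing A] [Ring 𝕄] (P : PData G A 𝕄)

lemma PData.E_F : P.E * P.F = 0 := by
  rw [P.one_sub_E, mul_sub, mul_one, P.E_E, sub_self]

lemma PData.F_E : P.F * P.E = 0 := by
  rw [P.one_sub_E, sub_mul, one_mul, P.E_E, sub_self]

/-- the action on a module -/
def modRep {𝕄 : Type*} [Ring 𝕄] (ρ : G →* 𝕄) (L : Type) [AddCommGroup L] [Module 𝕄 L] :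
    G →* AddMonoid.End L where
  toFun σ := DistribSMul.toAddMonoidHom L (ρ σ)
  map_one' := by
    ext v
    change ρ 1 • v = v
    rw [map_one, one_smul]
  map_mul' σ τ := by
    ext v
    change ρ (σ * τ) • v = ρ σ • ρ τ • v
    rw [map_mul, mul_smul]

theorem modRep_apply {𝕄 : Type*} [Ring 𝕄] (ρ : G →* 𝕄) (L : Type) [AddCommGroup L] [Module 𝕄 L]
    (σ : G) (v : L) : modRep ρ L σ v = ρ σ • v := rfl

/-- the action of matrices on vectors -/
def vecRep {M : Type} [CommRing M] (T : G →* Matrix (Fin 2) (Fin 2) M) :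
    G →* AddMonoid.End (Fin 2 → M) where
  toFun σ :=
    { toFun := fun v => (T σ).mulVec v
      map_zero' := Matrix.mulVec_zero _
      map_add' := fun v w => Matrix.mulVec_add _ _ _ }
  map_one' := by
    ext v : 1
    change (T 1).mulVec v = v
    rw [map_one, Matrix.one_mulVec]
  map_mul' σ τ := by
    ext v : 1
    change (T (σ * τ)).mulVec v = (T σ).mulVec ((T τ).mulVec v)
    rw [map_mul, Matrix.mulVec_mulVec]

theorem vecRep_apply {M : Type} [CommRing M] (T : G →* Matrix (Fin 2) (Fin 2) M)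
    (σ : G) (v : Fin 2 → M) : vecRep T σ v = (T σ).mulVec v := rfl

variable {P} {L : Type} [AddCommGroup L] [Module 𝕄 L]

/-- on a finite module some power of an endomorphism is idempotent -/
theorem exists_pow_idem {M : Type*} [Monoid M] [Finite M] (x : M) :
    ∃ n, 0 < n ∧ x ^ n * x ^ n = x ^ n := by
  obtain ⟨m, n, hne, hmn⟩ := Finite.exists_ne_map_eq_of_infinite (fun n : ℕ => x ^ n)
  wlog hlt : m < n generalizing m n
  · exact this n m hne.symm hmn.symm (lt_of_le_of_ne (not_lt.mp hlt) hne.symm)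
  obtain ⟨d, hd⟩ := Nat.exists_eq_add_of_lt hlt
  -- x^(m + k d') = x^m with d' = d+1
  have h1 : ∀ k, x ^ (m + k * (d + 1)) = x ^ m := by
    intro k
    induction k with
    | zero => rw [zero_mul, add_zero]
    | succ k ih =>
      have e : m + (k + 1) * (d + 1) = (m + k * (d + 1)) + (d + 1) := by ring
      rw [e, pow_add, ih, ← pow_add]
      have : m + (d + 1) = n := by omega
      rw [this]
      exact hmn.symm
  have h2 : ∀ a, m ≤ a → ∀ k, x ^ (a + k * (d + 1)) = x ^ a := by
    intro a ha k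
    obtain ⟨b, rfl⟩ := Nat.exists_eq_add_of_le ha
    have e : m + b + k * (d + 1) = (m + k * (d + 1)) + b := by ring
    rw [e, pow_add, h1, ← pow_add]
  refine ⟨(m + 1) * (d + 1), by positivity, ?_⟩
  rw [← pow_add]
  exact h2 _ (by nlinarith) (m + 1)

/-- **The subquotient argument.** -/
theorem Closed.blr (h𝓟 : Closed 𝓟) [Finite L] {M : Type} [CommRing M] [Finite M]
    (π : A →+* M) {g₁ g₂ : G} (hX : IsUnit (π (P.x g₁ g₂)))
    (hAR : ∀ a : A, (∀ v : L, P.φ a • P.E • v = 0) → π a = 0)
    (h : 𝓟 L (modRep P.ρ L)) :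
    ∃ (u : M) (T : G →* Matrix (Fin 2) (Fin 2) M), π (P.x g₁ g₂) * u = 1 ∧
      (∀ g, T g = !![π (P.a g), π (P.x g g₂) * u; π (P.x g₁ g), π (P.d g)]) ∧
      (∀ g, (T g).trace = π (P.t g)) ∧ (∀ g, (T g).det = π (P.χ g)) ∧
      𝓟 (Fin 2 → M) (vecRep T) := by
  classical
  set X := P.x g₁ g₂ with hXdef
  -- the exponent
  haveI : Finite (AddMonoid.End L) := Finite.of_injective
    (fun f : AddMonoid.End L => (f : L → L)) DFunLike.coe_injective
  haveI := Fintype.ofFinite M
  let f : AddMonoid.End L := DistribSMul.toAddMonoidHom L (P.φ X)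
  have hf : ∀ v, f v = P.φ X • v := fun v => rfl
  obtain ⟨n₁, hn₁, h1⟩ := exists_pow_idem (M := AddMonoid.End L × M) (f, π X)
  have hidem : ∀ v : L, P.φ (X ^ n₁) • P.φ (X ^ n₁) • v = P.φ (X ^ n₁) • v := by
    have h2 : ∀ (n : ℕ) (v : L), (f ^ n) v = P.φ (X ^ n) • v := by
      intro n
      induction n with
      | zero =>
        intro v
        rw [pow_zero, pow_zero, map_one, one_smul]
        rfl
      | succ n ih =>
        intro v
        rw [pow_succ', pow_succ', map_mul, mul_smul, ← ih]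
        rfl
    intro v
    have _ := hf
    have h3 := DFunLike.congr_fun (congrArg Prod.fst h1) v
    rw [Prod.fst_mul, Prod.pow_fst] at h3
    have h4 : (f ^ n₁) ((f ^ n₁) v) = (f ^ n₁) v := h3
    rwa [h2, h2] at h4
  have hπ : π X ^ n₁ = 1 := by
    have h3 := congrArg Prod.snd h1
    rw [Prod.snd_mul, Prod.pow_snd] at h3
    have h4 : π X ^ n₁ * π X ^ n₁ = π X ^ n₁ * 1 := by rw [mul_one]; exact h3
    exact (hX.pow n₁).mul_left_cancel h4
  obtain ⟨N, hN⟩ : ∃ N, n₁ = N + 1 := ⟨n₁ - 1, by omega⟩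
  rw [hN] at hidem hπ
  have hu : π X * π X ^ N = 1 := by rw [← pow_succ', hπ]
  obtain ⟨T, hT1, hT2, hT3⟩ := P.exists_rep π hu
  refine ⟨π X ^ N, T, hu, hT1, hT2, hT3, ?_⟩
  -- the vectors
  obtain ⟨C, hC⟩ : ∃ C : 𝕄, C = P.F * P.ρ g₂ * P.E := ⟨_, rfl⟩
  let J := M × L
  have hE : P.E * P.E = P.E := P.E_E
  have hEF : P.E * P.F = 0 := PData.E_F P
  have hFE : P.F * P.E = 0 := PData.F_E P
  have hEC : P.E * C = 0 := by rw [hC, ← mul_assoc, ← mul_assoc, hEF, zero_mul, zero_mul]
  have hBC : P.E * P.ρ g₁ * P.F * C = P.φ X * P.E := by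
    have h2 : P.E * P.ρ g₁ * P.F * C = P.E * P.ρ g₁ * (P.F * P.F) * P.ρ g₂ * P.E := by
      rw [hC]; simp only [mul_assoc]
    rw [h2, P.F_F, P.EFE]
  have hgE : ∀ g, P.ρ g * P.E = P.φ (P.a g) * P.E + P.F * P.ρ g * P.E := by
    intro g
    calc P.ρ g * P.E = (P.E + P.F) * (P.ρ g * P.E) := by rw [P.E_add_F, one_mul]
      _ = P.E * P.ρ g * P.E + P.F * P.ρ g * P.E := by
        rw [add_mul]; simp only [mul_assoc]
      _ = _ := by rw [P.E_rho_E]
  have hgC : ∀ g, P.ρ g * C = P.φ (P.x g g₂) * P.E + P.φ (P.d g) * C := by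
    intro g
    have e1 : P.E * P.ρ g * P.F * P.ρ g₂ * P.E = P.φ (P.x g g₂) * P.E := P.EFE g g₂
    have e2 : P.F * P.ρ g * C = P.φ (P.d g) * C := by
      have h2 : P.F * P.ρ g * C = (P.F * P.ρ g * P.F) * P.ρ g₂ * P.E := by
        rw [hC]; simp only [mul_assoc]
      rw [h2, P.F_rho_F, hC]; simp only [mul_assoc]
    calc P.ρ g * C = (P.E + P.F) * (P.ρ g * C) := by rw [P.E_add_F, one_mul]
      _ = P.E * P.ρ g * P.F * P.ρ g₂ * P.E + P.F * P.ρ g * C := by
        rw [add_mul, hC]; simp only [mul_assoc]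
      _ = _ := by rw [e1, e2]
  have hXF : ∀ g, P.φ X * (P.F * P.ρ g * P.E) = P.φ (P.x g₁ g) * C := by
    intro g
    have e1 : P.F * P.ρ g₂ * P.E * P.ρ g₁ * P.F = P.φ X * P.F := P.FEF g₁ g₂
    have e2 : P.E * P.ρ g₁ * P.F * P.ρ g * P.E = P.φ (P.x g₁ g) * P.E := P.EFE g₁ g
    calc P.φ X * (P.F * P.ρ g * P.E) = (P.φ X * P.F) * P.ρ g * P.E := by
          simp only [mul_assoc]
      _ = P.F * P.ρ g₂ * (P.E * P.ρ g₁ * P.F * P.ρ g * P.E) := by
          rw [← e1]; simp only [mul_assoc]
      _ = P.F * P.ρ g₂ * (P.φ (P.x g₁ g) * P.E) := by rw [e2]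
      _ = P.φ (P.x g₁ g) * C := by
          rw [hC, ← mul_assoc, mul_assoc P.F, ← P.comm, ← mul_assoc, ← P.F_comm]
          simp only [mul_assoc]
  let m : A × A → 𝕄 := fun w =>
    P.φ (X ^ (N + 1)) * (P.φ w.1 * P.E + P.φ w.2 * (P.φ (X ^ N) * C))
  have hmadd : ∀ w w', m (w + w') = m w + m w' := by
    intro w w'
    simp only [m, Prod.fst_add, Prod.snd_add, map_add, add_mul, mul_add]
    abel
  let α : (M → A × A) →+ (J → L) :=
    { toFun := fun z j => m (z j.1) • j.2
      map_zero' := by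
        funext j
        simp [m]
      map_add' := fun z z' => by
        funext j
        simp only [Pi.add_apply, hmadd, add_smul] }
  let β : (M → A × A) →+ (Fin 2 → M) :=
    { toFun := fun z => ∑ r : M, r • (![π (z r).1, π (z r).2] : Fin 2 → M)
      map_zero' := by
        refine Finset.sum_eq_zero fun r _ => ?_
        ext i
        fin_cases i <;> simp
      map_add' := fun z z' => by
        rw [← Finset.sum_add_distrib]
        refine Finset.sum_congr rfl fun r _ => ?_
        rw [← smul_add]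
        congr 1
        ext i
        fin_cases i <;> simp }
  have hβ0 : ∀ z, β z 0 = ∑ r : M, r * π (z r).1 := by
    intro z
    change (∑ r : M, r • (![π (z r).1, π (z r).2] : Fin 2 → M)) 0 = _
    rw [Finset.sum_apply]
    rfl
  have hβ1 : ∀ z, β z 1 = ∑ r : M, r * π (z r).2 := by
    intro z
    change (∑ r : M, r • (![π (z r).1, π (z r).2] : Fin 2 → M)) 1 = _
    rw [Finset.sum_apply]
    rfl
  refine h𝓟.subquot (V := J → L) α β ?_ ?_ ?_ (h𝓟.pi h J)
  · intro w
    refine ⟨fun r => (if r = w 0 then 1 else 0, if r = w 1 then 1 else 0), ?_⟩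
    ext i
    fin_cases i
    · change β _ 0 = w 0
      rw [hβ0, Finset.sum_eq_single (w 0)]
      · simp
      · intro r _ hr
        simp [hr]
      · intro h; exact absurd (Finset.mem_univ _) h
    · change β _ 1 = w 1
      rw [hβ1, Finset.sum_eq_single (w 1)]
      · simp
      · intro r _ hr
        simp [hr]
      · intro h; exact absurd (Finset.mem_univ _) h
  · intro z hz
    have h2 : ∀ (r : M) (v : L), m (z r) • v = 0 := fun r v => congrFun hz (r, v)
    have h3 : ∀ r, π (z r).1 = 0 := by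
      intro r
      have h4 := hAR (X ^ (N + 1) * (z r).1) (fun v => by
        rw [← mul_smul]
        have e : P.E * m (z r) = P.φ (X ^ (N + 1) * (z r).1) * P.E := by
          simp only [m]
          rw [← mul_assoc, ← P.E_comm, mul_assoc, mul_add, ← mul_assoc P.E, ← P.E_comm,
            mul_assoc (P.φ (z r).1), hE, ← mul_assoc P.E, ← P.E_comm, mul_assoc (P.φ (z r).2),
            ← mul_assoc P.E, ← P.E_comm, mul_assoc (P.φ (X ^ N)), hEC, mul_zero, mul_zero,
            add_zero, map_mul, mul_assoc]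
        rw [← e, mul_smul, h2, smul_zero])
      rw [map_mul, map_pow, hπ, one_mul] at h4
      exact h4
    have h5 : ∀ r, π (z r).2 = 0 := by
      intro r
      have h4 := hAR (X ^ (N + 1) * (z r).2 * X ^ N * X) (fun v => by
        rw [← mul_smul]
        have e0 : ∀ a : A, P.E * P.ρ g₁ * P.F * P.φ a = P.φ a * (P.E * P.ρ g₁ * P.F) := by
          intro a
          rw [mul_assoc, ← P.F_comm, mul_assoc, ← mul_assoc (P.ρ g₁), ← P.comm, ← mul_assoc,
            ← mul_assoc, ← P.E_comm]
          simp only [mul_assoc]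
        have e : P.E * P.ρ g₁ * P.F * m (z r) =
            P.φ (X ^ (N + 1) * (z r).2 * X ^ N * X) * P.E := by
          simp only [m]
          rw [← mul_assoc, e0, mul_assoc, mul_add, ← mul_assoc (P.E * P.ρ g₁ * P.F), e0,
            mul_assoc (P.φ (z r).1), mul_assoc (P.E * P.ρ g₁) P.F P.E, hFE, mul_zero, mul_zero,
            zero_add, ← mul_assoc (P.E * P.ρ g₁ * P.F), e0, mul_assoc (P.φ (z r).2),
            ← mul_assoc (P.E * P.ρ g₁ * P.F), e0, mul_assoc (P.φ (X ^ N)), hBC, map_mul, map_mul,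
            map_mul]
          simp only [mul_assoc]
        rw [← e, mul_smul, h2, smul_zero])
      rw [map_mul, map_mul, map_mul, map_pow, hπ, one_mul, map_pow, mul_assoc, ← pow_succ, hπ,
        mul_one] at h4
      exact h4
    ext i
    fin_cases i
    · change β z 0 = 0
      rw [hβ0]
      exact Finset.sum_eq_zero fun r _ => by rw [h3, mul_zero]
    · change β z 1 = 0
      rw [hβ1]
      exact Finset.sum_eq_zero fun r _ => by rw [h5, mul_zero]
  · intro g z
    refine ⟨fun r => (P.a g * (z r).1 + X ^ N * P.x g g₂ * (z r).2,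
      P.x g₁ g * (z r).1 + P.d g * (z r).2), ?_, ?_⟩
    · funext j
      obtain ⟨r, v⟩ := j
      change m (P.a g * (z r).1 + X ^ N * P.x g g₂ * (z r).2,
        P.x g₁ g * (z r).1 + P.d g * (z r).2) • v = P.ρ g • m (z r) • v
      set w := z r with hw
      have e1 : P.ρ g * m w = P.φ (X ^ (N + 1)) * (P.φ (P.a g * w.1 + X ^ N * P.x g g₂ * w.2) * P.E
          + P.φ (P.d g * w.2) * (P.φ (X ^ N) * C)) +
          P.φ (X ^ (N + 1)) * (P.φ w.1 * (P.F * P.ρ g * P.E)) := by
        simp only [m]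
        have f1 : P.ρ g * (P.φ w.1 * P.E) = P.φ w.1 * (P.ρ g * P.E) := by
          rw [← mul_assoc, ← P.comm, mul_assoc]
        have f2 : P.ρ g * (P.φ w.2 * (P.φ (X ^ N) * C)) = P.φ w.2 * (P.φ (X ^ N) * (P.ρ g * C)) := by
          rw [← mul_assoc, ← P.comm, mul_assoc, ← mul_assoc (P.ρ g), ← P.comm, mul_assoc]
        rw [← mul_assoc, ← P.comm, mul_assoc, mul_add, f1, f2, hgE, hgC, ← mul_add]
        congr 1
        simp only [map_add, map_mul, mul_add, add_mul]
        have f3 : P.φ w.2 * (P.φ (X ^ N) * (P.φ (P.x g g₂) * P.E)) =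
            P.φ (X ^ N) * P.φ (P.x g g₂) * P.φ w.2 * P.E := by
          rw [← mul_assoc, ← mul_assoc, ← map_mul, ← map_mul, ← map_mul, ← map_mul]
          congr 2
          ring
        have f4 : P.φ w.2 * (P.φ (X ^ N) * (P.φ (P.d g) * C)) =
            P.φ (P.d g) * P.φ w.2 * (P.φ (X ^ N) * C) := by
          rw [← mul_assoc, ← mul_assoc, ← mul_assoc, ← map_mul, ← map_mul, ← map_mul, ← map_mul]
          congr 2
          ring
        have f5 : P.φ w.1 * (P.φ (P.a g) * P.E) = P.φ (P.a g) * P.φ w.1 * P.E := by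
          rw [← mul_assoc, ← map_mul, ← map_mul, mul_comm w.1]
        rw [f3, f4, f5]
        abel
      have e2 : (P.φ (X ^ (N + 1)) * (P.φ w.1 * (P.F * P.ρ g * P.E))) • v =
          (P.φ (X ^ (N + 1)) * (P.φ (P.x g₁ g * w.1) * (P.φ (X ^ N) * C))) • v := by
        rw [mul_smul, ← hidem, ← mul_smul, mul_smul]
        rw [← mul_smul, ← mul_smul]
        congr 1
        have f1 : P.φ (X ^ (N + 1)) * (P.φ w.1 * (P.F * P.ρ g * P.E)) =
            P.φ (X ^ N) * (P.φ w.1 * (P.φ X * (P.F * P.ρ g * P.E))) := by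
          rw [pow_succ, map_mul]
          simp only [← mul_assoc]
          rw [mul_assoc (P.φ (X ^ N)), ← map_mul, mul_comm X, map_mul]
          simp only [mul_assoc]
        have f2 : P.φ (X ^ N) * (P.φ w.1 * (P.φ (P.x g₁ g) * C)) =
            P.φ (P.x g₁ g * w.1) * (P.φ (X ^ N) * C) := by
          rw [← mul_assoc, ← mul_assoc, ← mul_assoc, ← map_mul, ← map_mul, ← map_mul]
          congr 2
          ring
        rw [mul_assoc, f1, hXF, f2]
      rw [← mul_smul, e1, add_smul, e2, ← add_smul, ← mul_add]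
      simp only [m]
      congr 2
      rw [map_add P.φ (P.x g₁ g * w.1), add_mul]
      abel
    · rw [vecRep_apply, hT1]
      have hx : ∀ (a b c d : M) (f : Fin 2 → M), (!![a, b; c, d]).mulVec f =
          ![a * f 0 + b * f 1, c * f 0 + d * f 1] := by
        intro a b c d f
        ext i
        fin_cases i <;> simp [Matrix.mulVec, dotProduct, Fin.sum_univ_two]
      rw [hx]
      ext i
      fin_cases i
      · change β _ 0 = π (P.a g) * β z 0 + π (P.x g g₂) * π X ^ N * β z 1
        rw [hβ0, hβ0, hβ1, Finset.mul_sum, Finset.mul_sum, ← Finset.sum_add_distrib]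
        refine Finset.sum_congr rfl fun r _ => ?_
        simp only [map_add, map_mul, map_pow]
        ring
      · change β _ 1 = π (P.x g₁ g) * β z 0 + π (P.d g) * β z 1
        rw [hβ1, hβ0, hβ1, Finset.mul_sum, Finset.mul_sum, ← Finset.sum_add_distrib]
        refine Finset.sum_congr rfl fun r _ => ?_
        simp only [map_add, map_mul]
        ring

end BLR

end

end Fermat.Agent.TWGal
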