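import Fermat.Agent.TWGal.TameInertia
import Mathlib.GroupTheory.FiniteAbelian.Duality
import Mathlib.GroupTheory.Nilpotent

set_option autoImplicit false
set_option maxHeartbeats 400000

/-!
# Tame inertia: structure of the image of decomposition groups
-/

namespace Fermat.Agent.TWGal

open Fermat.Agent.DefRing Fermat.Agent.GalRep Fermat.Agent.Frob NumberField IsLocalRing
open scoped Pointwise

local notation "Qbar" => AlgebraicClosure ℚ

variable {A : ValuationSubring Qbar} {p q : ℕ}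

/-- inertia fixes units up to wild roots of unity -/
lemma inertia_unit (hq : q.Prime) (hA : A.LiesOverPrime q) {σ : GQ}
    (hσ : σ ∈ A.inertiaSubgroupIn ℚ) {u : Qbar} (hu : A.valuation u = 1) {m : ℕ} (hm : ¬ q ∣ m)
    (h : (σ u / u) ^ m = 1) : σ u = u := by
  have hu0 : u ≠ 0 := by rintro rfl; rw [map_zero] at hu; exact zero_ne_one hu
  have huA : u ∈ A := (A.valuation_le_one_iff u).mp hu.le
  have h1 := valuation_sub_lt_of_mem_inertia hσ huA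
  have h2 : A.valuation (σ u / u - 1) < 1 := by
    have : σ u / u - 1 = (σ u - u) / u := by rw [sub_div, div_self hu0]
    rw [this, map_div₀, hu, div_one]
    exact h1
  have h3 := rootOfUnity_eq_of_valuation_lt hq hA hm h (one_pow m) h2
  rwa [div_eq_one_iff_eq hu0] at h3

lemma zpow_mod_of_pow_eq_one {M : Type*} [Group M] {x : M} {p : ℕ} (hx : x ^ p = 1) {a b : ℤ}
    (h : (p : ℤ) ∣ a - b) : x ^ a = x ^ b := by
  obtain ⟨c, hc⟩ := h
  have : a = b + p * c := by linarith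
  rw [this, zpow_add, zpow_mul, zpow_natCast, hx, one_zpow, mul_one]

/-- Kummer theory for inertia: elements on which inertia acts through `p`-th roots of unity -/
theorem kummer_inertia (hq : q.Prime) (hA : A.LiesOverPrime q) (hp : p.Prime) (hpq : p ≠ q)
    {π : Qbar} (hπ : π ^ p = q) {a : Qbar} (ha : a ≠ 0)
    (h : ∀ σ ∈ A.inertiaSubgroupIn ℚ, (σ a / a) ^ p = 1) :
    ∃ n : ℤ, ∀ σ ∈ A.inertiaSubgroupIn ℚ, σ a / a = (σ π / π) ^ n := by
  have hq0 : (q : Qbar) ≠ 0 := by exact_mod_cast hq.ne_zero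
  have hqp : ∀ s : ℕ, ¬ q ∣ p ^ s := fun s h =>
    hpq ((Nat.prime_dvd_prime_iff_eq hq hp).mp (hq.dvd_of_dvd_pow h)).symm
  obtain ⟨e, he, f, hef⟩ := ECRed.val_alg A hq hA ha
  obtain ⟨s, m, hm, rfl⟩ := Nat.exists_eq_pow_mul_and_not_dvd he.ne' p hp.ne_one
  have hcop : IsCoprime (m : ℤ) (p : ℤ) :=
    Nat.isCoprime_iff_coprime.mpr ((Nat.Prime.coprime_iff_not_dvd hp).mpr hm).symm
  obtain ⟨t, w, htw⟩ := hcop
  obtain ⟨ϖ, hϖ⟩ := IsAlgClosed.exists_pow_nat_eq π (pow_pos hp.pos s)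
  have hϖq : ϖ ^ (p ^ (s + 1)) = (q : Qbar) := by rw [pow_succ, pow_mul, hϖ, hπ]
  have hϖ0 : ϖ ≠ 0 := by
    rintro rfl
    rw [zero_pow (pow_ne_zero _ hp.ne_zero)] at hϖq
    exact hq0 hϖq.symm
  have hπ0 : π ≠ 0 := by
    rintro rfl
    rw [zero_pow hp.ne_zero] at hπ
    exact hq0 hπ.symm
  -- `x = a ^ (t m)`
  set x : Qbar := a ^ (t * m) with hx
  have hx0 : x ≠ 0 := zpow_ne_zero _ ha
  have hva0 : A.valuation a ≠ 0 := (Valuation.ne_zero_iff _).mpr ha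
  have hvx : A.valuation x ^ (p ^ (s + 1)) = A.valuation ϖ ^ ((p : ℤ) ^ (s + 1) * (p * (f * t))) := by
    rw [hx, map_zpow₀, ← zpow_natCast, ← zpow_mul]
    have e1 : (t * m * ((p ^ (s + 1) : ℕ) : ℤ)) = ((p ^ s * m : ℕ) : ℤ) * (p * t) := by
      push_cast; ring
    rw [e1, zpow_mul, zpow_natCast, hef, ← hϖq, map_pow, ← zpow_natCast, ← zpow_mul, ← zpow_mul]
    congr 1
    push_cast; ring
  have hvx' : A.valuation x = A.valuation ϖ ^ ((p : ℤ) * (f * t)) := by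
    have hne : p ^ (s + 1) ≠ 0 := pow_ne_zero _ hp.ne_zero
    have e2 : A.valuation ϖ ^ ((p : ℤ) ^ (s + 1) * (p * (f * t))) =
        (A.valuation ϖ ^ ((p : ℤ) * (f * t))) ^ (p ^ (s + 1)) := by
      rw [← zpow_natCast, ← zpow_mul]
      congr 1
      push_cast; ring
    rw [e2] at hvx
    exact (pow_left_inj₀ zero_le zero_le hne).mp hvx
  have hσx : ∀ σ ∈ A.inertiaSubgroupIn ℚ, σ x / x = σ a / a := by
    intro σ hσ
    have hσa : σ a ≠ 0 := by rwa [Ne, map_eq_zero_iff σ σ.injective]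
    rw [hx, map_zpow₀, ← div_zpow]
    have e3 : t * m = 1 - w * p := by linarith
    rw [e3, zpow_sub₀ (div_ne_zero hσa ha), mul_comm w, zpow_mul, zpow_natCast, h σ hσ, one_zpow,
      zpow_one, div_one]
  clear_value x
  set N : ℤ := (p : ℤ) * (f * t) with hN
  set u : Qbar := x / ϖ ^ N with hu
  have hu1 : A.valuation u = 1 := by
    rw [hu, map_div₀, map_zpow₀, hvx', div_self]
    exact zpow_ne_zero _ ((Valuation.ne_zero_iff _).mpr hϖ0)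
  have hη : ∀ σ : GQ, (σ ϖ / ϖ) ^ (p ^ (s + 1)) = 1 := by
    intro σ
    rw [div_pow, ← map_pow, hϖq, map_natCast, div_self hq0]
  have hσu : ∀ σ ∈ A.inertiaSubgroupIn ℚ, σ a / a = (σ ϖ / ϖ) ^ N := by
    intro σ hσ
    have e4 : σ u / u = (σ a / a) / (σ ϖ / ϖ) ^ N := by
      rw [← hσx σ hσ, hu, map_div₀, map_zpow₀, div_zpow]
      field_simp
    have e5 : (σ u / u) ^ (p ^ (s + 1)) = 1 := by
      rw [e4, div_pow, ← zpow_natCast ((σ ϖ / ϖ) ^ N), ← zpow_mul, mul_comm N, zpow_mul,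
        zpow_natCast, hη, one_zpow, div_one, pow_succ', pow_mul, h σ hσ, one_pow]
    have e6 := inertia_unit hq hA hσ hu1 (hqp (s + 1)) e5
    have hu0 : u ≠ 0 := by
      intro h0; rw [h0, map_zero] at hu1; exact zero_ne_one hu1
    rw [e6, div_self hu0] at e4
    have hη0 : (σ ϖ / ϖ) ^ N ≠ 0 := by
      apply zpow_ne_zero
      apply div_ne_zero _ hϖ0
      rwa [Ne, map_eq_zero_iff σ σ.injective]
    exact ((eq_div_iff hη0).mp e4).symm.trans (one_mul _)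
  -- divisibility of `N`
  obtain ⟨σ₀, hσ₀, hmov⟩ := exists_inertia_moving hq hA hp hpq
  have hη₀ : ∀ σ : GQ, (σ ϖ / ϖ) ^ (p ^ s) = σ π / π := by
    intro σ
    rw [div_pow, ← map_pow, hϖ]
  have hne : (σ₀ ϖ / ϖ) ^ (p ^ s) ≠ 1 := by
    rw [hη₀]
    intro h1
    exact hmov π hπ ((div_eq_one_iff_eq hπ0).mp h1)
  haveI : Fact p.Prime := ⟨hp⟩
  have hord := orderOf_eq_prime_pow hne (hη σ₀)
  have hdvd : ((p : ℤ) ^ (s + 1)) ∣ N * p := by
    have h7 : (σ₀ ϖ / ϖ) ^ (N * p) = 1 := by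
      rw [zpow_mul, zpow_natCast, ← hσu σ₀ hσ₀, h σ₀ hσ₀]
    have h8 := ((IsPrimitiveRoot.orderOf (σ₀ ϖ / ϖ)).zpow_eq_one_iff_dvd _).mp h7
    rw [hord] at h8
    exact_mod_cast h8
  have hdvd' : ((p : ℤ) ^ s) ∣ N := by
    rw [pow_succ] at hdvd
    exact (mul_dvd_mul_iff_right (by exact_mod_cast hp.ne_zero)).mp hdvd
  obtain ⟨n, hn⟩ := hdvd'
  refine ⟨n, fun σ hσ => ?_⟩
  rw [hσu σ hσ, hn, zpow_mul]
  congr 1
  rw [← hη₀ σ]
  norm_cast

section Level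

/-- restriction of inertia elements to a number field -/
noncomputable def resI (A : ValuationSubring Qbar) (K : IntermediateField ℚ Qbar)
    (σ : A.inertiaSubgroupIn ℚ) : K →ₐ[ℚ] Qbar :=
  ((σ : GQ) : Qbar →ₐ[ℚ] Qbar).comp K.val

lemma resI_apply (K : IntermediateField ℚ Qbar) (σ : A.inertiaSubgroupIn ℚ) (x : K) :
    resI A K σ x = (σ : GQ) (x : Qbar) := rfl

lemma eq_of_resI_eq {P : Type*} [Group P] {K₀ K : IntermediateField ℚ Qbar} (hKK : K₀ ≤ K)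
    (ρ : A.inertiaSubgroupIn ℚ →* P)
    (hK : ∀ σ : A.inertiaSubgroupIn ℚ, (∀ x ∈ K₀, (σ : GQ) x = x) → ρ σ = 1)
    {σ τ : A.inertiaSubgroupIn ℚ} (h : resI A K σ = resI A K τ) : ρ σ = ρ τ := by
  have h1 : ρ (τ⁻¹ * σ) = 1 := by
    apply hK
    intro x hx
    have h2 : (σ : GQ) x = (τ : GQ) x := DFunLike.congr_fun h ⟨x, hKK hx⟩
    show ((τ : GQ)⁻¹ * (σ : GQ)) x = x
    rw [AlgEquiv.mul_apply, h2]
    exact inv_smul_smul (τ : GQ) x
  rw [map_mul, map_inv, inv_mul_eq_one] at h1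
  exact h1.symm

lemma finite_range_of_level {P : Type*} [Group P] (K : IntermediateField ℚ Qbar)
    [FiniteDimensional ℚ K] (ρ : A.inertiaSubgroupIn ℚ →* P)
    (hK : ∀ σ : A.inertiaSubgroupIn ℚ, (∀ x ∈ K, (σ : GQ) x = x) → ρ σ = 1) :
    Finite ρ.range := by
  refine Finite.of_injective (fun y : ρ.range => resI A K y.2.choose) ?_
  intro y y' h
  have h1 := eq_of_resI_eq le_rfl ρ hK h
  apply Subtype.ext
  rw [← y.2.choose_spec, ← y'.2.choose_spec]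
  exact h1

/-- homomorphisms from inertia to `p`-th roots of unity are powers of the Kummer character -/
theorem exists_kummer (hq : q.Prime) (hA : A.LiesOverPrime q) (hp : p.Prime) (hpq : p ≠ q)
    {π : Qbar} (hπ : π ^ p = q) (f : A.inertiaSubgroupIn ℚ →* Qbarˣ) (hf : ∀ σ, f σ ^ p = 1)
    (K : IntermediateField ℚ Qbar) [FiniteDimensional ℚ K]
    (hK : ∀ σ : A.inertiaSubgroupIn ℚ, (∀ x ∈ K, (σ : GQ) x = x) → f σ = 1) :
    ∃ n : ℤ, ∀ σ : A.inertiaSubgroupIn ℚ, ((f σ : Qbarˣ) : Qbar) = ((σ : GQ) π / π) ^ n := by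
  classical
  have hqp : ¬ q ∣ p := fun h => hpq ((Nat.prime_dvd_prime_iff_eq hq hp).mp h).symm
  let c : (K →ₐ[ℚ] Qbar) → Qbar := fun r =>
    if h : ∃ σ, resI A K σ = r then (((f h.choose)⁻¹ : Qbarˣ) : Qbar) else 0
  have hc : ∀ σ, c (resI A K σ) = (((f σ)⁻¹ : Qbarˣ) : Qbar) := by
    intro σ
    have h : ∃ τ, resI A K τ = resI A K σ := ⟨σ, rfl⟩
    show (if h : ∃ τ, resI A K τ = resI A K σ then (((f h.choose)⁻¹ : Qbarˣ) : Qbar) else 0) = _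
    rw [dif_pos h, eq_of_resI_eq le_rfl f hK h.choose_spec]
  have hc0 : ∀ r, (¬ ∃ σ, resI A K σ = r) → c r = 0 := fun r hr => dif_neg hr
  have hfix : ∀ (τ : A.inertiaSubgroupIn ℚ) (z : Qbar), z ^ p = 1 → (τ : GQ) z = z :=
    fun τ z hz => inertia_rootOfUnity hq hA τ.2 (m := p) hqp hz
  let comp : A.inertiaSubgroupIn ℚ → (K →ₐ[ℚ] Qbar) ≃ (K →ₐ[ℚ] Qbar) := fun τ =>
    { toFun := fun r => ((τ : GQ) : Qbar →ₐ[ℚ] Qbar).comp r
      invFun := fun r => (((τ⁻¹ : A.inertiaSubgroupIn ℚ) : GQ) : Qbar →ₐ[ℚ] Qbar).comp r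
      left_inv := fun r => by
        ext x
        exact inv_smul_smul (τ : GQ) (r x)
      right_inv := fun r => by
        ext x
        exact smul_inv_smul (τ : GQ) (r x) }
  have hcomp : ∀ τ σ, comp τ (resI A K σ) = resI A K (τ * σ) := fun τ σ => rfl
  have hcf : ∀ (τ : A.inertiaSubgroupIn ℚ) r, (τ : GQ) (c r) = ((f τ : Qbarˣ) : Qbar) * c (comp τ r) := by
    intro τ r
    by_cases hr : ∃ σ, resI A K σ = r
    · obtain ⟨σ, rfl⟩ := hr
      rw [hcomp, hc, hc, hfix τ, map_mul, mul_inv_rev, Units.val_mul, mul_comm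
        (((f σ)⁻¹ : Qbarˣ) : Qbar), ← mul_assoc, Units.mul_inv, one_mul]
      rw [← Units.val_pow_eq_pow_val, inv_pow, hf, inv_one, Units.val_one]
    · have hr' : ¬ ∃ σ, resI A K σ = comp τ r := by
        rintro ⟨σ, hσ⟩
        apply hr
        refine ⟨τ⁻¹ * σ, ?_⟩
        rw [← hcomp, hσ]
        exact (comp τ).left_inv r
      rw [hc0 r hr, hc0 _ hr', map_zero, mul_zero]
  obtain ⟨b, hb⟩ : ∃ b : K, ∑ r, c r * r b ≠ 0 := by
    by_contra hcon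
    push Not at hcon
    have hli := linearIndependent_algHom_toLinearMap ℚ K Qbar
    rw [Fintype.linearIndependent_iff] at hli
    have h1 := hli c (by
      ext b
      rw [LinearMap.sum_apply, LinearMap.zero_apply]
      exact hcon b) (resI A K 1)
    rw [hc, map_one, inv_one, Units.val_one] at h1
    exact one_ne_zero h1
  set a := ∑ r, c r * r b with ha
  have hτa : ∀ τ : A.inertiaSubgroupIn ℚ, (τ : GQ) a = ((f τ : Qbarˣ) : Qbar) * a := by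
    intro τ
    rw [ha, map_sum, Finset.mul_sum]
    rw [← Equiv.sum_comp (comp τ) (fun r => ((f τ : Qbarˣ) : Qbar) * (c r * r b))]
    refine Finset.sum_congr rfl fun r _ => ?_
    rw [map_mul, hcf, mul_assoc]
    rfl
  have hτa' : ∀ τ : A.inertiaSubgroupIn ℚ, (τ : GQ) a / a = ((f τ : Qbarˣ) : Qbar) := by
    intro τ
    rw [hτa, mul_div_cancel_right₀ _ hb]
  obtain ⟨n, hn⟩ := kummer_inertia hq hA hp hpq hπ hb (fun σ hσ => by
    have := hτa' ⟨σ, hσ⟩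
    change σ a / a = _ at this
    rw [this, ← Units.val_pow_eq_pow_val, hf, Units.val_one])
  exact ⟨n, fun σ => by rw [← hτa' σ]; exact hn σ σ.2⟩

end Level

section PGroup

/-- proper cyclic subgroups of `p`-groups are killed by a nontrivial character of order `p` -/
theorem exists_char_of_zpowers_ne_top {G : Type*} [Group G] [Finite G] [Fact p.Prime]
    (hG : IsPGroup p G) (x : G) (hx : Subgroup.zpowers x ≠ ⊤) :
    ∃ χ : G →* Qbarˣ, χ x = 1 ∧ (∀ g, χ g ^ p = 1) ∧ ∃ g, χ g ≠ 1 := by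
  haveI : Group.IsNilpotent G := hG.isNilpotent
  obtain ⟨M, hM, hle⟩ := (eq_top_or_exists_le_coatom (Subgroup.zpowers x)).resolve_left hx
  haveI hnorm : M.Normal := Subgroup.NormalizerCondition.normal_of_coatom M
    Group.normalizerCondition_of_isNilpotent hM
  haveI : Nontrivial (G ⧸ M) := QuotientGroup.nontrivial_iff.mpr hM.1
  have hQ : IsPGroup p (G ⧸ M) := hG.to_quotient M
  obtain ⟨k, hk0, hk⟩ := hQ.nontrivial_iff_card.mp inferInstance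
  obtain ⟨z, hz⟩ := exists_prime_orderOf_dvd_card' (G := G ⧸ M) p (by
    rw [hk]; exact dvd_pow_self p hk0.ne')
  have hz1 : z ≠ 1 := by
    rintro rfl
    rw [orderOf_one] at hz
    exact (Fact.out : p.Prime).one_lt.ne hz
  obtain ⟨g₀, hg₀⟩ := QuotientGroup.mk'_surjective M z
  have htop : (Subgroup.zpowers z).comap (QuotientGroup.mk' M) = ⊤ := by
    refine hM.2 _ (lt_of_le_of_ne ?_ ?_)
    · intro y hy
      rw [Subgroup.mem_comap, QuotientGroup.mk'_apply, (QuotientGroup.eq_one_iff y).mpr hy]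
      exact one_mem _
    · intro h
      have h1 : g₀ ∈ (Subgroup.zpowers z).comap (QuotientGroup.mk' M) := by
        rw [Subgroup.mem_comap, hg₀]
        exact Subgroup.mem_zpowers z
      rw [← h] at h1
      apply hz1
      rw [← hg₀]
      exact (QuotientGroup.eq_one_iff g₀).mpr h1
  have hall : ∀ y : G ⧸ M, y ∈ Subgroup.zpowers z := by
    intro y
    obtain ⟨g, rfl⟩ := QuotientGroup.mk'_surjective M y
    have : g ∈ (Subgroup.zpowers z).comap (QuotientGroup.mk' M) := by rw [htop]; trivial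
    exact this
  haveI : IsCyclic (G ⧸ M) := ⟨⟨z, hall⟩⟩
  letI : CommGroup (G ⧸ M) := IsCyclic.commGroup
  haveI : NeZero ((Monoid.exponent (G ⧸ M) : ℕ) : Qbar) :=
    ⟨by exact_mod_cast (Monoid.exponent_ne_zero_of_finite : Monoid.exponent (G ⧸ M) ≠ 0)⟩
  obtain ⟨φ, hφ⟩ := CommGroup.exists_apply_ne_one_of_hasEnoughRootsOfUnity (G ⧸ M) Qbar hz1
  refine ⟨φ.comp (QuotientGroup.mk' M), ?_, fun g => ?_, g₀, ?_⟩
  · have h2 : QuotientGroup.mk' M x = 1 :=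
      (QuotientGroup.eq_one_iff x).mpr (hle (Subgroup.mem_zpowers x))
    rw [MonoidHom.comp_apply, h2]
    exact map_one φ
  · obtain ⟨n, hn⟩ := hall (QuotientGroup.mk' M g)
    have hn' : z ^ n = QuotientGroup.mk' M g := hn
    rw [MonoidHom.comp_apply, ← hn', ← map_pow]
    have h3 : (z ^ n) ^ p = 1 := by
      rw [← zpow_natCast, ← zpow_mul, mul_comm, zpow_mul, zpow_natCast, ← hz, pow_orderOf_eq_one,
        one_zpow]
    rw [h3]
    exact map_one φ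
  · rw [MonoidHom.comp_apply, hg₀]
    exact hφ

end PGroup

section Main

lemma div_self_pow {π : Qbar} (hq : q.Prime) {n : ℕ} (hπ : π ^ n = q) (σ : GQ) :
    (σ π / π) ^ n = 1 := by
  have hq0 : (q : Qbar) ≠ 0 := by exact_mod_cast hq.ne_zero
  rw [div_pow, ← map_pow, hπ, map_natCast, div_self hq0]

lemma root_ne_zero {π : Qbar} (hq : q.Prime) {n : ℕ} (hn : n ≠ 0) (hπ : π ^ n = q) : π ≠ 0 := by
  rintro rfl
  rw [zero_pow hn] at hπ
  exact hq.ne_zero (by exact_mod_cast hπ.symm)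

/-- the image of inertia under homomorphisms to `p`-groups is cyclic -/
theorem mem_zpowers_inertia (hq : q.Prime) (hA : A.LiesOverPrime q) (hp : p.Prime) (hpq : p ≠ q)
    {P : Type*} [Group P] (ρ : A.inertiaSubgroupIn ℚ →* P)
    (K : IntermediateField ℚ Qbar) [FiniteDimensional ℚ K]
    (hK : ∀ σ : A.inertiaSubgroupIn ℚ, (∀ x ∈ K, (σ : GQ) x = x) → ρ σ = 1)
    (hpp : ∀ σ, ∃ k : ℕ, ρ σ ^ (p ^ k) = 1) {σ₀ : A.inertiaSubgroupIn ℚ}
    (hσ₀ : ∀ π : Qbar, π ^ p = q → (σ₀ : GQ) π ≠ π) (σ : A.inertiaSubgroupIn ℚ) :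
    ρ σ ∈ Subgroup.zpowers (ρ σ₀) := by
  haveI : Fact p.Prime := ⟨hp⟩
  haveI := finite_range_of_level K ρ hK
  have hG : IsPGroup p ρ.range := by
    rintro ⟨_, τ, rfl⟩
    obtain ⟨k, hk⟩ := hpp τ
    exact ⟨k, Subtype.ext hk⟩
  let x : ρ.range := ⟨ρ σ₀, σ₀, rfl⟩
  by_cases htop : Subgroup.zpowers x = ⊤
  · have h1 : (⟨ρ σ, σ, rfl⟩ : ρ.range) ∈ Subgroup.zpowers x := by rw [htop]; trivial
    obtain ⟨n, hn⟩ := h1
    exact ⟨n, congrArg Subtype.val hn⟩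
  · exfalso
    obtain ⟨χ, hχx, hχp, ⟨_, τ, rfl⟩, hτ⟩ := exists_char_of_zpowers_ne_top hG x htop
    obtain ⟨π, hπ⟩ := IsAlgClosed.exists_pow_nat_eq (q : Qbar) hp.pos
    obtain ⟨n, hn⟩ := exists_kummer hq hA hp hpq hπ (χ.comp ρ.rangeRestrict)
      (fun σ => hχp _) K (fun σ hσ => by
        rw [MonoidHom.comp_apply]
        have : ρ.rangeRestrict σ = 1 := Subtype.ext (hK σ hσ)
        rw [this, map_one])
    have h1 := hn σ₀
    have h2 : χ.comp ρ.rangeRestrict σ₀ = 1 := hχx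
    rw [h2, Units.val_one] at h1
    have hπ0 := root_ne_zero hq hp.ne_zero hπ
    have hne : (σ₀ : GQ) π / π ≠ 1 := fun h => hσ₀ π hπ ((div_eq_one_iff_eq hπ0).mp h)
    have hord : orderOf ((σ₀ : GQ) π / π) = p := orderOf_eq_prime (div_self_pow hq hπ _) hne
    have h3 := ((IsPrimitiveRoot.orderOf ((σ₀ : GQ) π / π)).zpow_eq_one_iff_dvd _).mp h1.symm
    rw [hord] at h3
    obtain ⟨m, rfl⟩ := h3
    apply hτ
    have h4 := hn τ
    rw [zpow_mul, zpow_natCast, div_self_pow hq hπ, one_zpow] at h4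
    exact Units.ext h4

/-- conjugation by decomposition elements preserves inertia -/
lemma conj_mem_inertia' {g σ : GQ} (hg : g ∈ A.decompositionSubgroup ℚ)
    (hσ : σ ∈ A.inertiaSubgroupIn ℚ) : g * σ * g⁻¹ ∈ A.inertiaSubgroupIn ℚ := by
  have h := Mink.conj_mem_inertia A g σ hσ
  rwa [mem_decomp_iff.mp hg] at h

/-- the tame relation -/
theorem conj_frob (hq : q.Prime) (hA : A.LiesOverPrime q) (hp : p.Prime) (hpq : p ≠ q)
    {P : Type*} [Group P] (ρ : GQ →* P)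
    (K : IntermediateField ℚ Qbar) [FiniteDimensional ℚ K]
    (hK : ∀ σ : GQ, (∀ x ∈ K, σ x = x) → ρ σ = 1)
    (hpp : ∀ σ ∈ A.inertiaSubgroupIn ℚ, ∃ k : ℕ, ρ σ ^ (p ^ k) = 1)
    {φ σ₀ : GQ} (hφ : A.IsFrobeniusAt φ q) (hσI : σ₀ ∈ A.inertiaSubgroupIn ℚ)
    (hσ₀ : ∀ π : Qbar, π ^ p = q → σ₀ π ≠ π) : ρ (φ * σ₀ * φ⁻¹) = ρ σ₀ ^ q := by
  have hq0 : (q : Qbar) ≠ 0 := by exact_mod_cast hq.ne_zero
  have hqp : ∀ s : ℕ, ¬ q ∣ p ^ s := fun s h =>
    hpq ((Nat.prime_dvd_prime_iff_eq hq hp).mp (hq.dvd_of_dvd_pow h)).symm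
  obtain ⟨k, hk⟩ := hpp σ₀ hσI
  obtain ⟨ϖ, hϖ⟩ := IsAlgClosed.exists_pow_nat_eq (q : Qbar) (pow_pos hp.pos (k + 1))
  have hϖ0 := root_ne_zero hq (pow_ne_zero _ hp.ne_zero) hϖ
  have hσϖ0 : ∀ σ : GQ, σ ϖ / ϖ ≠ 0 := fun σ =>
    div_ne_zero (by rwa [Ne, map_eq_zero_iff σ σ.injective]) hϖ0
  have hη := fun σ : GQ => div_self_pow hq hϖ σ
  have hfix : ∀ (τ : A.inertiaSubgroupIn ℚ) (z : Qbar), z ^ (p ^ (k + 1)) = 1 →
      (τ : GQ) z = z := fun τ z hz =>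
    inertia_rootOfUnity hq hA τ.2 (m := p ^ (k + 1)) (hqp _) hz
  let κ : A.inertiaSubgroupIn ℚ →* Qbarˣ :=
    { toFun := fun σ => Units.mk0 ((σ : GQ) ϖ / ϖ) (hσϖ0 _)
      map_one' := by
        apply Units.ext
        show (1 : GQ) ϖ / ϖ = 1
        rw [AlgEquiv.one_apply, div_self hϖ0]
      map_mul' := fun σ τ => by
        apply Units.ext
        show ((σ : GQ) * (τ : GQ)) ϖ / ϖ = ((σ : GQ) ϖ / ϖ) * ((τ : GQ) ϖ / ϖ)
        have h1 := hfix σ ((τ : GQ) ϖ / ϖ) (hη _)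
        rw [map_div₀] at h1
        rw [AlgEquiv.mul_apply, ← h1]
        have h2 : (σ : GQ) ϖ ≠ 0 := by rwa [Ne, map_eq_zero_iff _ (σ : GQ).injective]
        field_simp }
  have hκ : ∀ σ, ((κ σ : Qbarˣ) : Qbar) = (σ : GQ) ϖ / ϖ := fun _ => rfl
  let pr : A.inertiaSubgroupIn ℚ →* P × Qbarˣ :=
    (ρ.comp (A.inertiaSubgroupIn ℚ).subtype).prod κ
  have hint : IsIntegral ℚ ϖ := Algebra.IsIntegral.isIntegral ϖ
  haveI : FiniteDimensional ℚ (IntermediateField.adjoin ℚ {ϖ}) :=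
    IntermediateField.adjoin.finiteDimensional hint
  let σ₁ : A.inertiaSubgroupIn ℚ := ⟨σ₀, hσI⟩
  let σ₂ : A.inertiaSubgroupIn ℚ :=
    ⟨φ * σ₀ * φ⁻¹, conj_mem_inertia' hφ.mem_decompositionSubgroup hσI⟩
  obtain ⟨j, hj⟩ := mem_zpowers_inertia hq hA hp hpq pr (K ⊔ IntermediateField.adjoin ℚ {ϖ})
    (fun σ hσ => by
      refine Prod.ext ?_ ?_
      · exact hK σ fun x hx => hσ x (le_sup_left (a := K) hx)
      · apply Units.ext
        show (σ : GQ) ϖ / ϖ = 1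
        rw [hσ ϖ (le_sup_right (a := K) (IntermediateField.mem_adjoin_simple_self ℚ ϖ)),
          div_self hϖ0])
    (fun σ => by
      obtain ⟨m, hm⟩ := hpp σ σ.2
      refine ⟨m + (k + 1), Prod.ext ?_ ?_⟩
      · show ρ σ ^ p ^ (m + (k + 1)) = 1
        rw [pow_add, pow_mul, hm, one_pow]
      · apply Units.ext
        show ((κ σ ^ p ^ (m + (k + 1)) : Qbarˣ) : Qbar) = 1
        rw [Units.val_pow_eq_pow_val, hκ, pow_add, mul_comm, pow_mul, hη, one_pow])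
    (σ₀ := σ₁) hσ₀ σ₂
  have hj' : pr σ₁ ^ j = pr σ₂ := hj
  have hj1 : ρ σ₀ ^ j = ρ (φ * σ₀ * φ⁻¹) := congrArg Prod.fst hj'
  have hj2 : (σ₀ ϖ / ϖ) ^ j = (φ * σ₀ * φ⁻¹) ϖ / ϖ := by
    have h1 := congrArg (fun z : P × Qbarˣ => ((z.2 : Qbarˣ) : Qbar)) hj'
    have h2 : ((κ σ₁ ^ j : Qbarˣ) : Qbar) = ((κ σ₂ : Qbarˣ) : Qbar) := h1
    rw [Units.val_zpow_eq_zpow_val] at h2
    exact h2
  -- the Kummer character of the conjugate
  have hfrob : φ (σ₀ ϖ / ϖ) = (σ₀ ϖ / ϖ) ^ q :=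
    frob_rootOfUnity hq hA hφ (m := p ^ (k + 1)) (hqp _) (hη σ₀)
  have hconj : (φ * σ₀ * φ⁻¹) ϖ / ϖ = (σ₀ ϖ / ϖ) ^ q := by
    rw [AlgEquiv.mul_apply, AlgEquiv.mul_apply]
    set η := φ⁻¹ ϖ / ϖ with hηdef
    have e1 : φ⁻¹ ϖ = η * ϖ := by rw [hηdef, div_mul_cancel₀ _ hϖ0]
    have e2 : σ₀ η = η := hfix σ₁ η (hη _)
    have e3 : σ₀ ϖ = (σ₀ ϖ / ϖ) * ϖ := by rw [div_mul_cancel₀ _ hϖ0]
    have e4 : φ (φ⁻¹ ϖ) = ϖ := by
      rw [← AlgEquiv.mul_apply, mul_inv_cancel, AlgEquiv.one_apply]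
    have e5 : φ (σ₀ (φ⁻¹ ϖ)) = φ (σ₀ ϖ / ϖ) * ϖ := by
      rw [e1, map_mul, e2, e3, ← mul_assoc, mul_comm η, mul_assoc, ← e1, map_mul, e4,
        div_mul_cancel₀ _ hϖ0]
    rw [e5, hfrob, mul_div_cancel_right₀ _ hϖ0]
  rw [hconj] at hj2
  -- the order
  haveI : Fact p.Prime := ⟨hp⟩
  have hne : (σ₀ ϖ / ϖ) ^ (p ^ k) ≠ 1 := by
    have hπ : (ϖ ^ p ^ k) ^ p = (q : Qbar) := by rw [← pow_mul, ← pow_succ, hϖ]
    intro h
    rw [div_pow, ← map_pow] at h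
    exact hσ₀ _ hπ ((div_eq_one_iff_eq (root_ne_zero hq hp.ne_zero hπ)).mp h)
  have hord := orderOf_eq_prime_pow hne (hη σ₀)
  have h5 : (σ₀ ϖ / ϖ) ^ (j - q) = 1 := by
    rw [zpow_sub₀ (hσϖ0 σ₀), hj2, zpow_natCast, div_self (pow_ne_zero _ (hσϖ0 σ₀))]
  have h6 := ((IsPrimitiveRoot.orderOf (σ₀ ϖ / ϖ)).zpow_eq_one_iff_dvd _).mp h5
  rw [hord] at h6
  rw [← hj1, ← zpow_natCast (ρ σ₀) q]
  exact zpow_mod_of_pow_eq_one (p := p ^ (k + 1)) (by rw [pow_succ, pow_mul, hk, one_pow]) h6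

/-- **Structure of decomposition groups modulo wild inertia** -/
theorem exists_decomp_eq (hq : q.Prime) (hA : A.LiesOverPrime q) (hp : p.Prime) (hpq : p ≠ q)
    {P : Type*} [Group P] (ρ : GQ →* P)
    (K : IntermediateField ℚ Qbar) [FiniteDimensional ℚ K]
    (hK : ∀ σ : GQ, (∀ x ∈ K, σ x = x) → ρ σ = 1)
    (hpp : ∀ σ ∈ A.inertiaSubgroupIn ℚ, ∃ k : ℕ, ρ σ ^ (p ^ k) = 1)
    {φ σ₀ : GQ} (hφ : A.IsFrobeniusAt φ q) (hσI : σ₀ ∈ A.inertiaSubgroupIn ℚ)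
    (hσ₀ : ∀ π : Qbar, π ^ p = q → σ₀ π ≠ π) {g : GQ} (hg : g ∈ A.decompositionSubgroup ℚ) :
    ∃ k : ℕ, ∃ j : ℤ, ρ g = ρ φ ^ k * ρ σ₀ ^ j := by
  obtain ⟨k, σ, hσ, h⟩ := exists_frob_mul_inertia hq hA hφ hg K
  have h1 : ρ g = ρ φ ^ k * ρ σ := by
    have h2 : ρ ((φ ^ k * σ)⁻¹ * g) = 1 := hK _ fun x hx => by
      rw [AlgEquiv.mul_apply, ← h x hx]
      exact inv_smul_smul (φ ^ k * σ) x
    rw [map_mul, map_inv, inv_mul_eq_one, map_mul, map_pow] at h2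
    exact h2.symm
  obtain ⟨j, hj⟩ := mem_zpowers_inertia hq hA hp hpq
    (ρ.comp (A.inertiaSubgroupIn ℚ).subtype) K (fun σ hσ => hK σ hσ) (fun σ => hpp σ σ.2)
    (σ₀ := ⟨σ₀, hσI⟩) hσ₀ ⟨σ, hσ⟩
  have hj' : ρ σ₀ ^ j = ρ σ := hj
  exact ⟨k, j, by rw [h1, hj']⟩

end Main

end Fermat.Agent.TWGal
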