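import Fermat.Agent.GalRep.Unram

set_option autoImplicit false
set_option maxHeartbeats 400000

/-!
# Two dimensional residually absolutely irreducible representations are determined by traces
-/

namespace Fermat.Agent.TWGal

open Matrix IsLocalRing Fermat.Agent.GalRep

section Basic

variable {G : Type*} [Group G] {R : Type*} [CommRing R]

/-- the group algebra representation -/
noncomputable def gr (T : G →* Matrix (Fin 2) (Fin 2) R) :
    MonoidAlgebra R G →ₐ[R] Matrix (Fin 2) (Fin 2) R :=
  MonoidAlgebra.lift R (Matrix (Fin 2) (Fin 2) R) G T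

lemma gr_of (T : G →* Matrix (Fin 2) (Fin 2) R) (g : G) :
    gr T (MonoidAlgebra.of R G g) = T g := MonoidAlgebra.lift_of _ _

lemma gr_surjective {T : G →* Matrix (Fin 2) (Fin 2) R}
    (h : Submodule.span R (Set.range T) = ⊤) : Function.Surjective (gr T) := by
  intro X
  have hX : X ∈ Submodule.span R (Set.range T) := by rw [h]; trivial
  have hle : Submodule.span R (Set.range T) ≤ LinearMap.range (gr T).toLinearMap := by
    rw [Submodule.span_le]
    rintro _ ⟨g, rfl⟩
    exact ⟨MonoidAlgebra.of R G g, gr_of T g⟩
  exact hle hX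

lemma trace_gr {T T' : G →* Matrix (Fin 2) (Fin 2) R}
    (htr : ∀ g, (T g).trace = (T' g).trace) (x : MonoidAlgebra R G) :
    (gr T x).trace = (gr T' x).trace := by
  induction x using MonoidAlgebra.induction_on with
  | of g => rw [gr_of, gr_of, htr]
  | add x y hx hy => rw [map_add, map_add, Matrix.trace_add, Matrix.trace_add, hx, hy]
  | smul r x hx => rw [map_smul, map_smul, Matrix.trace_smul, Matrix.trace_smul, hx]

lemma gr_eq_zero {T T' : G →* Matrix (Fin 2) (Fin 2) R}
    (htr : ∀ g, (T g).trace = (T' g).trace) (h' : Submodule.span R (Set.range T') = ⊤)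
    {x : MonoidAlgebra R G} (hx : gr T x = 0) : gr T' x = 0 := by
  refine eq_zero_of_trace_mul_eq_zero (M := T') h' _ fun g => ?_
  rw [← gr_of T' g, ← map_mul, ← trace_gr htr, map_mul, hx, zero_mul, Matrix.trace_zero]

lemma gr_eq_of_eq {T T' : G →* Matrix (Fin 2) (Fin 2) R}
    (htr : ∀ g, (T g).trace = (T' g).trace) (h' : Submodule.span R (Set.range T') = ⊤)
    {x y : MonoidAlgebra R G} (hx : gr T x = gr T y) : gr T' x = gr T' y := by
  rw [← sub_eq_zero, ← map_sub]
  apply gr_eq_zero htr h'
  rw [map_sub, hx, sub_self]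

end Basic

section Span

variable {G : Type*} [Group G] {k : Type*} [Field k]

/-- over a field, spanning depends only on the trace -/
lemma span_of_trace_eq {T T' : G →* Matrix (Fin 2) (Fin 2) k}
    (htr : ∀ g, (T g).trace = (T' g).trace) (h' : Submodule.span k (Set.range T') = ⊤) :
    Submodule.span k (Set.range T) = ⊤ := by
  choose c hc using gr_surjective h'
  have hlin : LinearIndependent k (fun ij : Fin 2 × Fin 2 =>
      gr T (c (Matrix.single ij.1 ij.2 1))) := by
    rw [Fintype.linearIndependent_iff]
    intro a ha ij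
    have h1 : gr T (∑ ij : Fin 2 × Fin 2, a ij • c (Matrix.single ij.1 ij.2 1)) = 0 := by
      rw [map_sum, ← ha]
      exact Finset.sum_congr rfl fun ij _ => map_smul _ _ _
    have h2 := gr_eq_zero htr h' h1
    rw [map_sum] at h2
    have h3 := congrFun (congrFun h2 ij.1) ij.2
    rw [Matrix.sum_apply, Finset.sum_eq_single ij, map_smul, hc, Matrix.smul_apply,
      Matrix.single_apply_same, smul_eq_mul, mul_one, Matrix.zero_apply] at h3
    · exact h3
    · intro kl _ hkl
      rw [map_smul, hc, Matrix.smul_apply, Matrix.single_apply_of_ne, smul_zero]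
      intro h
      exact hkl (Prod.ext h.1 h.2)
    · intro h; exact absurd (Finset.mem_univ _) h
  have htop := hlin.span_eq_top_of_card_eq_finrank' (by
    rw [Module.finrank_matrix, Module.finrank_self, Fintype.card_prod, Fintype.card_fin, mul_one])
  rw [eq_top_iff, ← htop, Submodule.span_le]
  rintro _ ⟨ij, rfl⟩
  have : ∀ x : MonoidAlgebra k G, gr T x ∈ Submodule.span k (Set.range T) := by
    intro x
    induction x using MonoidAlgebra.induction_on with
    | of g => rw [gr_of]; exact Submodule.subset_span ⟨g, rfl⟩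
    | add x y hx hy => rw [map_add]; exact Submodule.add_mem _ hx hy
    | smul r x hx => rw [map_smul]; exact Submodule.smul_mem _ _ hx
  exact this _

end Span

section Conj

variable {G : Type*} [Group G] {R : Type*} [CommRing R] [IsLocalRing R]

/-- **Carayol's lemma** -/
theorem exists_conj {T T' : G →* Matrix (Fin 2) (Fin 2) R}
    (htr : ∀ g, (T g).trace = (T' g).trace) (h : Submodule.span R (Set.range T) = ⊤)
    (h' : Submodule.span R (Set.range T') = ⊤) :
    ∃ Q Q' : Matrix (Fin 2) (Fin 2) R, Q * Q' = 1 ∧ Q' * Q = 1 ∧ ∀ g, Q * T g = T' g * Q := by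
  classical
  choose c hc using gr_surjective h
  let E' : Fin 2 → Fin 2 → Matrix (Fin 2) (Fin 2) R := fun i j => gr T' (c (Matrix.single i j 1))
  have hE' : ∀ i j k l, E' i j * E' k l = if j = k then E' i l else 0 := by
    intro i j k l
    show gr T' _ * gr T' _ = _
    rw [← map_mul]
    split_ifs with hjk
    · subst hjk
      refine gr_eq_of_eq htr h' ?_
      rw [map_mul, hc, hc, hc, Matrix.single_mul_single_same, mul_one]
    · refine gr_eq_zero htr h' ?_
      rw [map_mul, hc, hc, Matrix.single_mul_single_of_ne _ _ _ _ hjk]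
  have hE1 : E' 0 0 + E' 1 1 = 1 := by
    show gr T' _ + gr T' _ = _
    rw [← map_add, ← map_one (gr T')]
    refine gr_eq_of_eq htr h' ?_
    rw [map_add, hc, hc, map_one]
    ext i j
    fin_cases i <;> fin_cases j <;> simp [Matrix.single]
  -- a unit entry
  have hunit : ∃ i₀ j₀, IsUnit (E' 0 0 i₀ j₀) := by
    by_contra hcon
    push Not at hcon
    have h1 : (residue R).mapMatrix (E' 0 0) = 0 := by
      ext i j
      rw [RingHom.mapMatrix_apply, Matrix.map_apply, Matrix.zero_apply, residue_eq_zero_iff]
      exact hcon i j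
    have h2 : (residue R).mapMatrix (E' 1 1) = 0 := by
      have : E' 1 1 = E' 1 0 * E' 0 0 * E' 0 1 := by
        rw [hE', if_pos rfl, hE', if_pos rfl]
      rw [this, map_mul, map_mul, h1, mul_zero, zero_mul]
    have h3 := congrArg (residue R).mapMatrix hE1
    rw [map_add, h1, h2, add_zero, map_one] at h3
    exact zero_ne_one (congrFun (congrFun h3 0) 0)
  obtain ⟨i₀, j₀, hij⟩ := hunit
  let Q : Matrix (Fin 2) (Fin 2) R := Matrix.of fun a i => E' i 0 a j₀
  have hQ : ∀ a i, Q a i = E' i 0 a j₀ := fun _ _ => rfl
  have hdec : ∀ x, gr T' x = ∑ k, ∑ l, gr T x k l • E' k l := by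
    intro x
    have : gr T x = gr T (∑ k, ∑ l, gr T x k l • c (Matrix.single k l 1)) := by
      rw [map_sum]
      simp only [map_sum, map_smul, hc]
      nth_rewrite 1 [Matrix.matrix_eq_sum_single (gr T x)]
      refine Finset.sum_congr rfl fun k _ => Finset.sum_congr rfl fun l _ => ?_
      rw [Matrix.smul_single, smul_eq_mul, mul_one]
    rw [gr_eq_of_eq htr h' this]
    simp only [map_sum, map_smul]
    rfl
  have hint : ∀ x, gr T' x * Q = Q * gr T x := by
    intro x
    ext a i
    rw [Matrix.mul_apply, Matrix.mul_apply]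
    have h1 : ∀ b, gr T' x a b = ∑ k, ∑ l, gr T x k l * E' k l a b := by
      intro b
      rw [hdec x]
      simp only [Matrix.sum_apply, Matrix.smul_apply, smul_eq_mul]
    have h2 : ∀ k l, ∑ b, E' k l a b * Q b i = if l = i then Q a k else 0 := by
      intro k l
      have h3 := congrFun (congrFun (hE' k l i 0) a) j₀
      rw [Matrix.mul_apply] at h3
      rw [show (∑ b, E' k l a b * Q b i) = ∑ b, E' k l a b * E' i 0 b j₀ from rfl, h3]
      split_ifs
      · rfl
      · rfl
    calc ∑ b, gr T' x a b * Q b i
        = ∑ b, ∑ k, ∑ l, gr T x k l * (E' k l a b * Q b i) := by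
          refine Finset.sum_congr rfl fun b _ => ?_
          rw [h1 b, Finset.sum_mul]
          refine Finset.sum_congr rfl fun k _ => ?_
          rw [Finset.sum_mul]
          exact Finset.sum_congr rfl fun l _ => mul_assoc _ _ _
      _ = ∑ k, ∑ l, gr T x k l * ∑ b, E' k l a b * Q b i := by
          rw [Finset.sum_comm]
          refine Finset.sum_congr rfl fun k _ => ?_
          rw [Finset.sum_comm]
          exact Finset.sum_congr rfl fun l _ => by rw [Finset.mul_sum]
      _ = ∑ k, Q a k * gr T x k i := by
          refine Finset.sum_congr rfl fun k _ => ?_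
          rw [Finset.sum_eq_single i]
          · rw [h2, if_pos rfl, mul_comm]
          · intro l _ hl
            rw [h2, if_neg hl, mul_zero]
          · intro hi; exact absurd (Finset.mem_univ _) hi
  have hdet : IsUnit Q.det := by
    by_contra hcon
    have h1 : ((residue R).mapMatrix Q).det = 0 := by
      rw [← RingHom.map_det, residue_eq_zero_iff]
      exact hcon
    obtain ⟨v, hv, hQv⟩ := Matrix.exists_mulVec_eq_zero_iff.mpr h1
    have h2 : ∀ X : Matrix (Fin 2) (Fin 2) (ResidueField R),
        ((residue R).mapMatrix Q) *ᵥ (X *ᵥ v) = 0 := by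
      intro X
      let X' : Matrix (Fin 2) (Fin 2) R :=
        Matrix.of fun i j => Function.surjInv residue_surjective (X i j)
      have hX' : (residue R).mapMatrix X' = X := by
        ext i j
        exact Function.surjInv_eq residue_surjective (X i j)
      obtain ⟨x, hx⟩ := gr_surjective h X'
      have h3 := congrArg (residue R).mapMatrix (hint x)
      rw [hx, map_mul, map_mul, hX'] at h3
      rw [Matrix.mulVec_mulVec, ← h3, ← Matrix.mulVec_mulVec, hQv, Matrix.mulVec_zero]
    obtain ⟨j, hj⟩ : ∃ j, v j ≠ 0 := by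
      by_contra hcon2
      push Not at hcon2
      exact hv (funext hcon2)
    have h4 := h2 (Matrix.single 0 j (v j)⁻¹)
    have h5 : (Matrix.single 0 j (v j)⁻¹ : Matrix (Fin 2) (Fin 2) (ResidueField R)) *ᵥ v =
        Pi.single 0 1 := by
      ext i
      rw [Matrix.mulVec, dotProduct, Finset.sum_eq_single j]
      · by_cases hi : i = 0
        · subst hi
          rw [Matrix.single_apply_same, Pi.single_eq_same, inv_mul_cancel₀ hj]
        · rw [Matrix.single_apply_of_ne, zero_mul, Pi.single_eq_of_ne hi]
          intro h; exact hi h.1.symm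
      · intro b _ hb
        rw [Matrix.single_apply_of_ne, zero_mul]
        intro h; exact hb h.2.symm
      · intro hi; exact absurd (Finset.mem_univ _) hi
    rw [h5, Matrix.mulVec_single_one] at h4
    have h6 := congrFun h4 i₀
    change residue R (Q i₀ 0) = 0 at h6
    rw [residue_eq_zero_iff] at h6
    exact h6 hij
  refine ⟨Q, Q⁻¹, Matrix.mul_nonsing_inv _ hdet, Matrix.nonsing_inv_mul _ hdet, fun g => ?_⟩
  rw [← gr_of T, ← gr_of T', hint]

end Conj

end Fermat.Agent.TWGal
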