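import Fermat.Agent.TWGal.Pseudo
import Fermat.Agent.TWGal.Carayol
import Fermat.Agent.GalRep.Adic
import Fermat.Prelude.Def_GaloisRep_ComplexConjugation

set_option autoImplicit false
set_option maxHeartbeats 400000

/-!
# The representation over a complete local quotient of the Hecke algebra
-/

namespace Fermat.Agent.TWGal

open Fermat.Agent.DefRing Fermat.Agent.GalRep Matrix IsLocalRing TensorProduct

local notation "Qbar" => AlgebraicClosure ℚ

/-- the cyclotomic character is odd -/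
lemma cycP_conj (p : ℕ) [Fact p.Prime] : cycP p complexConjugation = -1 := by
  refine PadicInt.ext_of_toZModPow.mp fun n => ?_
  obtain ⟨ζ, hζ⟩ := HasEnoughRootsOfUnity.exists_primitiveRoot Qbar (p ^ n)
  have hp0 : p ^ n ≠ 0 := pow_ne_zero n (Fact.out : p.Prime).ne_zero
  have h1 : complexConjugation ζ = ζ ^ (p ^ n - 1) := by
    apply complexEmbedding.toRingHom.injective
    show complexEmbedding _ = complexEmbedding _
    rw [complexEmbedding_complexConjugation, map_pow]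
    have h2 : (complexEmbedding ζ) ^ (p ^ n) = 1 := by rw [← map_pow, hζ.pow_eq_one, map_one]
    have h3 : ‖complexEmbedding ζ‖ = 1 := Complex.norm_eq_one_of_pow_eq_one h2 hp0
    rw [← Complex.inv_eq_conj h3]
    have h4 : complexEmbedding ζ ≠ 0 := by
      intro h; rw [h, norm_zero] at h3; exact zero_ne_one h3
    rw [inv_eq_iff_eq_inv, eq_comm, inv_eq_iff_eq_inv, eq_comm]
    rw [← mul_right_inj' h4, mul_inv_cancel₀ h4, ← pow_succ',
      Nat.sub_add_cancel (Nat.one_le_iff_ne_zero.mpr hp0), h2]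
  rw [toZModPow_cycP_eq p _ hζ h1, Nat.cast_sub (Nat.one_le_iff_ne_zero.mpr hp0),
    ZMod.natCast_self, map_neg, map_one, Nat.cast_one, zero_sub]

section

variable {N p : ℕ} [Fact p.Prime] (D : HData N p) (S : Set ℕ)

/-- the `ℤ_p`-Hecke algebra -/
abbrev AA : Type := ℤ_[p] ⊗[ℤ] D.TT S

/-- the action on the lattice -/
noncomputable def phi : AA D S →ₐ[ℤ_[p]] Matrix (Fin D.r) (Fin D.r) ℤ_[p] :=
  Algebra.TensorProduct.lift (Algebra.ofId ℤ_[p] _)
    (((castHom D.r ℤ_[p]).comp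
      ((D.TT S).val : D.TT S →+* Matrix (Fin D.r) (Fin D.r) ℤ)).toIntAlgHom)
    (fun c _ => Algebra.commutes c _)

variable {D S}

lemma phi_tmul (c : ℤ_[p]) (x : D.TT S) :
    phi D S (c ⊗ₜ x) = c • castHom D.r ℤ_[p] (x : Matrix (Fin D.r) (Fin D.r) ℤ) := by
  rw [phi, Algebra.TensorProduct.lift_tmul, Algebra.ofId_apply, ← Algebra.smul_def]
  rfl

lemma phi_injective : Function.Injective (phi D S) := by
  let L : ℤ_[p] ⊗[ℤ] D.TT S →ₗ[ℤ] ℤ_[p] ⊗[ℤ] Matrix (Fin D.r) (Fin D.r) ℤ :=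
    LinearMap.lTensor ℤ_[p] (Subalgebra.toSubmodule (D.TT S)).subtype
  have hL : Function.Injective L :=
    Module.Flat.lTensor_preserves_injective_linearMap _ (Submodule.injective_subtype _)
  have hcomp : ∀ b, phi D S b = (matrixEquivTensor (Fin D.r) ℤ ℤ_[p]).symm (L b) := by
    intro b
    induction b using TensorProduct.induction_on with
    | zero => rw [map_zero, map_zero, map_zero]
    | tmul c x =>
      have hLt : L (c ⊗ₜ[ℤ] x) = c ⊗ₜ[ℤ] (x : Matrix (Fin D.r) (Fin D.r) ℤ) := rfl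
      rw [phi_tmul, hLt, matrixEquivTensor_apply_symm]
      ext i j
      show c * (((x : Matrix (Fin D.r) (Fin D.r) ℤ) i j : ℤ) : ℤ_[p]) =
        c * algebraMap ℤ ℤ_[p] ((x : Matrix (Fin D.r) (Fin D.r) ℤ) i j)
      rw [eq_intCast]
    | add x y hx hy => rw [map_add, map_add, map_add, hx, hy]
  intro a b hab
  rw [hcomp, hcomp] at hab
  exact hL ((matrixEquivTensor (Fin D.r) ℤ ℤ_[p]).symm.injective hab)

lemma phi_comm (a : AA D S) (g : GQ) : phi D S a * D.ρ g = D.ρ g * phi D S a := by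
  induction a using TensorProduct.induction_on with
  | zero => rw [map_zero, zero_mul, mul_zero]
  | tmul c x =>
    rw [phi_tmul, Matrix.smul_mul, Matrix.mul_smul, HData.rho_comm_mem g x.2]
  | add x y hx hy => rw [map_add, add_mul, mul_add, hx, hy]

instance finite_AA : Module.Finite ℤ_[p] (AA D S) := inferInstance

/-- Artin–Rees -/
lemma exists_artinRees_AA : ∃ c : ℕ, ∀ m, ∀ a : AA D S,
    (∀ i j, PadicInt.toZModPow (m + c) (phi D S a i j) = 0) →
      ∃ b : AA D S, a = ((p : ℤ_[p]) ^ m) • b := by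
  obtain ⟨c, hc⟩ := Ideal.exists_pow_inf_eq_pow_smul (Ideal.span {(p : ℤ_[p])})
    (LinearMap.range (phi D S).toLinearMap)
  refine ⟨c, fun m a ha => ?_⟩
  have h1 : phi D S a ∈ (Ideal.span {(p : ℤ_[p])}) ^ (m + c) •
      (⊤ : Submodule ℤ_[p] (Matrix (Fin D.r) (Fin D.r) ℤ_[p])) ⊓
        LinearMap.range (phi D S).toLinearMap := by
    refine ⟨?_, ⟨a, rfl⟩⟩
    refine HData.mem_pow_smul_top_of_entries _ _ fun i j => ?_
    have h2 : phi D S a i j ∈ RingHom.ker (PadicInt.toZModPow (p := p) (m + c)) := ha i j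
    rwa [PadicInt.ker_toZModPow, ← Ideal.span_singleton_pow] at h2
  rw [hc (m + c) (Nat.le_add_left _ _), Nat.add_sub_cancel, Ideal.span_singleton_pow,
    Submodule.ideal_span_singleton_smul] at h1
  obtain ⟨y, hy, hxy⟩ := h1
  obtain ⟨b, hb⟩ := hy.2
  refine ⟨b, phi_injective ?_⟩
  rw [map_smul, ← hxy]
  show _ = ((p : ℤ_[p]) ^ m) • (phi D S).toLinearMap b
  rw [hb]
  rfl

lemma exists_phi_eq_th (hS : S.Finite) (hN : N ≠ 0) (g : GQ) :
    ∃ a : AA D S, phi D S a = D.th g := by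
  have hle : Submodule.span ℤ_[p] ((castHom D.r ℤ_[p]) ''
      (D.TT S : Set (Matrix (Fin D.r) (Fin D.r) ℤ))) ≤ LinearMap.range (phi D S).toLinearMap := by
    rw [Submodule.span_le]
    rintro _ ⟨x, hx, rfl⟩
    refine ⟨(1 : ℤ_[p]) ⊗ₜ (⟨x, hx⟩ : D.TT S), ?_⟩
    have h1 := phi_tmul (D := D) (S := S) 1 ⟨x, hx⟩
    rw [one_smul] at h1
    exact h1
  exact hle (HData.th_mem_span (D := D) (S := S) hS hN g)

variable (D S) in
/-- the pseudo-representation data -/
noncomputable def pdata (hS : S.Finite) (hN : N ≠ 0) (hp2 : p ≠ 2) :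
    PData GQ (AA D S) (Matrix (Fin D.r) (Fin D.r) ℤ_[p]) where
  φ := (phi D S : AA D S →+* Matrix (Fin D.r) (Fin D.r) ℤ_[p])
  inj := phi_injective
  ρ := D.ρ
  comm := phi_comm
  χ := ((algebraMap ℤ_[p] (AA D S) : ℤ_[p] →+* AA D S) : ℤ_[p] →* AA D S).comp (cycP p)
  t := fun g => Classical.choose (exists_phi_eq_th hS hN g)
  ht := fun g => by
    have h1 := Classical.choose_spec (exists_phi_eq_th (D := D) (S := S) hS hN g)
    have h2 : (phi D S : AA D S →+* Matrix (Fin D.r) (Fin D.r) ℤ_[p])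
        ((((algebraMap ℤ_[p] (AA D S) : ℤ_[p] →+* AA D S) : ℤ_[p] →* AA D S).comp (cycP p)) g) =
        algebraMap ℤ_[p] _ (cycP p g) := (phi D S).commutes (cycP p g)
    refine h1.trans ?_
    rw [h2, HData.th, Algebra.smul_def]
  c := complexConjugation
  hc := complexConjugation_mul_self
  hχ := by
    show algebraMap ℤ_[p] (AA D S) (cycP p complexConjugation) = -1
    rw [cycP_conj, map_neg, map_one]
  i2 := algebraMap ℤ_[p] (AA D S) (Ring.inverse 2)
  hi2 := by
    have h2 : IsUnit (2 : ℤ_[p]) := by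
      have h3 : ((2 : ℤ) : ℤ_[p]) = 2 := by norm_num
      by_contra h4
      rw [← h3, PadicInt.not_isUnit_iff, PadicInt.norm_int_lt_one_iff_dvd] at h4
      have h5 : p ∣ 2 := by exact_mod_cast h4
      exact hp2 ((Nat.prime_dvd_prime_iff_eq (Fact.out : p.Prime) Nat.prime_two).mp h5)
    rw [← map_ofNat (algebraMap ℤ_[p] (AA D S)) 2, ← map_mul, Ring.inverse_mul_cancel _ h2,
      map_one]

section Main

variable (hS : S.Finite) (hN : N ≠ 0) (hp2 : p ≠ 2)
  {R : Type} [CommRing R] [IsLocalRing R] [IsAdicComplete (maximalIdeal R) R]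
  (hp : (p : R) ∈ maximalIdeal R) (π : D.TT S →+* R)

/-- extension of scalars -/
noncomputable def piA : AA D S →+* R :=
  (Algebra.TensorProduct.lift (padicTo p (maximalIdeal R) hp).toIntAlgHom π.toIntAlgHom
    (fun _ _ => Commute.all _ _) : AA D S →ₐ[ℤ] R)

lemma piA_tmul (c : ℤ_[p]) (x : D.TT S) :
    piA hp π (c ⊗ₜ x) = padicTo p (maximalIdeal R) hp c * π x :=
  Algebra.TensorProduct.lift_tmul (padicTo p (maximalIdeal R) hp).toIntAlgHom π.toIntAlgHom
    (fun _ _ => Commute.all _ _) _ _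

lemma piA_algebraMap (c : ℤ_[p]) :
    piA hp π (algebraMap ℤ_[p] (AA D S) c) = padicTo p (maximalIdeal R) hp c := by
  have h := piA_tmul (D := D) (S := S) hp π c 1
  rw [map_one, mul_one] at h
  exact h

lemma piA_one_tmul (x : D.TT S) : piA hp π ((1 : ℤ_[p]) ⊗ₜ x) = π x := by
  rw [piA_tmul, map_one, one_mul]

lemma piA_smul (c : ℤ_[p]) (a : AA D S) :
    piA hp π (c • a) = padicTo p (maximalIdeal R) hp c * piA hp π a := by
  have h : c • a = algebraMap ℤ_[p] (AA D S) c * a := Algebra.smul_def c a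
  rw [h, map_mul, piA_algebraMap]

lemma padicTo_p_pow (m : ℕ) :
    padicTo p (maximalIdeal R) hp ((p : ℤ_[p]) ^ m) ∈ maximalIdeal R ^ m := by
  rw [map_pow, map_natCast]
  exact Ideal.pow_mem_pow hp m

/-- continuity -/
lemma piA_mem : ∃ c : ℕ, ∀ m, ∀ a b : AA D S,
    (∀ i j, PadicInt.toZModPow (m + c) (phi D S a i j) =
      PadicInt.toZModPow (m + c) (phi D S b i j)) →
      piA hp π a - piA hp π b ∈ maximalIdeal R ^ m := by
  obtain ⟨c, hc⟩ := exists_artinRees_AA (D := D) (S := S)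
  refine ⟨c, fun m a b hab => ?_⟩
  obtain ⟨z, hz⟩ := hc m (a - b) (fun i j => by
    rw [map_sub, Matrix.sub_apply, map_sub, hab, sub_self])
  rw [← map_sub, hz, piA_smul]
  exact Ideal.mul_mem_right _ _ (padicTo_p_pow hp m)

/-- the trace function -/
noncomputable def tR (g : GQ) : R := piA hp π ((pdata D S hS hN hp2).t g)

lemma phi_t (g : GQ) : phi D S ((pdata D S hS hN hp2).t g) = D.th g :=
  Classical.choose_spec (exists_phi_eq_th (D := D) (S := S) hS hN g)

lemma piA_chi (g : GQ) :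
    piA hp π ((pdata D S hS hN hp2).χ g) = cyc p (maximalIdeal R) hp g :=
  piA_algebraMap hp π (cycP p g)

lemma pdata_t_frob {ℓ : ℕ} (hℓ : ℓ.Prime) (hℓN : ¬ ℓ ∣ N * p) (hℓS : ℓ ∉ S)
    {A : ValuationSubring Qbar} (hA : A.LiesOverPrime ℓ) {τ : GQ} (hτ : A.IsFrobeniusAt τ ℓ) :
    (pdata D S hS hN hp2).t τ = (1 : ℤ_[p]) ⊗ₜ (⟨D.T ℓ, HData.T_mem hℓ hℓN hℓS⟩ : D.TT S) := by
  apply phi_injective
  rw [phi_t, phi_tmul, one_smul, HData.th_frob hℓ hℓN hA hτ]

lemma pdata_t_inertia {q : ℕ} (hq : q.Prime) (hqN : ¬ q ∣ N * p) {A : ValuationSubring Qbar}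
    (hA : A.LiesOverPrime q) {σ : GQ} (hσ : σ ∈ A.inertiaSubgroupIn ℚ) (g : GQ) :
    (pdata D S hS hN hp2).t (g * σ) = (pdata D S hS hN hp2).t g := by
  apply phi_injective
  rw [phi_t, phi_t, HData.th_inertia hq hqN hA hσ]

/-- continuity of the trace -/
lemma tR_cont (m : ℕ) : ∃ L : IntermediateField ℚ Qbar, FiniteDimensional ℚ L ∧
    ∀ σ : GQ, (∀ x ∈ L, σ x = x) → ∀ g,
      tR hS hN hp2 hp π (σ * g) - tR hS hN hp2 hp π g ∈ maximalIdeal R ^ m := by
  obtain ⟨c, hc⟩ := piA_mem hp π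
  obtain ⟨L₁, hL₁, h₁⟩ := D.cont (m + c)
  obtain ⟨L₂, hL₂, h₂⟩ := cycP_finite p (m + c)
  refine ⟨L₁ ⊔ L₂, inferInstance, fun σ hσ g => hc m _ _ fun i j => ?_⟩
  rw [phi_t, phi_t]
  have hσ' : ∀ x ∈ L₁ ⊔ L₂, σ⁻¹ x = x := fun x hx => by
    rw [← AlgEquiv.smul_def, inv_smul_eq_iff]
    exact (hσ x hx).symm
  have e1 : (PadicInt.toZModPow (m + c)).mapMatrix (D.ρ σ) = 1 := by
    ext i j
    exact h₁ σ (fun x hx => hσ x (le_sup_left (a := L₁) hx)) i j
  have e2 : (PadicInt.toZModPow (m + c)).mapMatrix (D.ρ σ⁻¹) = 1 := by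
    ext i j
    exact h₁ σ⁻¹ (fun x hx => hσ' x (le_sup_left (a := L₁) hx)) i j
  have e3 : PadicInt.toZModPow (m + c) (cycP p σ) = 1 :=
    h₂ σ (fun x hx => hσ x (le_sup_right (a := L₁) hx))
  have hs : ∀ (c' : ℤ_[p]) (M : Matrix (Fin D.r) (Fin D.r) ℤ_[p]),
      (PadicInt.toZModPow (m + c)).mapMatrix (c' • M) =
        PadicInt.toZModPow (m + c) c' • (PadicInt.toZModPow (m + c)).mapMatrix M := by
    intro c' M
    ext i j
    simp
  have e4 : (PadicInt.toZModPow (m + c)).mapMatrix (D.th (σ * g)) =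
      (PadicInt.toZModPow (m + c)).mapMatrix (D.th g) := by
    rw [HData.th, HData.th, map_add, map_add, hs, hs, map_mul D.ρ, map_mul, e1, one_mul,
      map_mul (cycP p), map_mul, e3, one_mul, _root_.mul_inv_rev, map_mul D.ρ, map_mul, e2, mul_one]
  exact congrFun (congrFun e4 i) j

/-- approximation of the trace by Frobenius elements -/
lemma tR_approx (g : GQ) (L : IntermediateField ℚ Qbar) [FiniteDimensional ℚ L] (m : ℕ) :
    ∃ (ℓ k : ℕ) (hℓ : ℓ.Prime) (hℓN : ¬ ℓ ∣ N * p) (hℓS : ℓ ∉ S), ∃ A : ValuationSubring Qbar,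
      A.LiesOverPrime ℓ ∧ ∃ τ : GQ, A.IsFrobeniusAt τ ℓ ∧ (∀ x ∈ L, (τ ^ k) x = g x) ∧
      tR hS hN hp2 hp π g - dk (π ⟨D.T ℓ, HData.T_mem hℓ hℓN hℓS⟩) (ℓ : R) k ∈
        maximalIdeal R ^ m := by
  obtain ⟨c, hc⟩ := piA_mem hp π
  obtain ⟨ℓ, k, hℓ, hℓN, hℓS, A, hA, τ, hτ, hk, happ⟩ :=
    HData.exists_approx (D := D) S hS hN g (m + c) L
  refine ⟨ℓ, k, hℓ, hℓN, hℓS, A, hA, τ, hτ, hk, ?_⟩
  let t : D.TT S := ⟨D.T ℓ, HData.T_mem hℓ hℓN hℓS⟩
  have h1 : dk (π t) (ℓ : R) k = piA hp π ((1 : ℤ_[p]) ⊗ₜ (dk t (ℓ : D.TT S) k)) := by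
    rw [piA_one_tmul, map_dk, map_natCast]
  show tR hS hN hp2 hp π g - dk (π t) (ℓ : R) k ∈ _
  rw [h1]
  refine hc m _ _ fun i j => ?_
  rw [phi_t, phi_tmul, one_smul]
  have h2 := congrFun (congrFun happ i) j
  rw [RingHom.mapMatrix_apply, Matrix.map_apply] at h2
  rw [h2, castHom_apply, castHom_apply, map_intCast]
  have := map_dk ((D.TT S).val : D.TT S →+* Matrix (Fin D.r) (Fin D.r) ℤ) t (ℓ : D.TT S) k
  rw [map_natCast] at this
  have h3 : ((dk t (ℓ : D.TT S) k : D.TT S) : Matrix (Fin D.r) (Fin D.r) ℤ) =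
    dk (D.T ℓ) (ℓ : Matrix (Fin D.r) (Fin D.r) ℤ) k := this
  rw [h3]

variable {ρb : GQ →* Matrix (Fin 2) (Fin 2) (ResidueField R)}
  (hcont : ∃ L : IntermediateField ℚ Qbar, FiniteDimensional ℚ L ∧
    ∀ σ : GQ, (∀ x ∈ L, σ x = x) → ρb σ = 1)
  (hfrob : ∀ (ℓ : ℕ) (hℓ : ℓ.Prime) (hℓN : ¬ ℓ ∣ N * p) (hℓS : ℓ ∉ S),
    ∀ A : ValuationSubring Qbar, A.LiesOverPrime ℓ → ∀ τ : GQ, A.IsFrobeniusAt τ ℓ →
      (ρb τ).trace = residue R (π ⟨D.T ℓ, HData.T_mem hℓ hℓN hℓS⟩) ∧
        (ρb τ).det = (ℓ : ResidueField R))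

include hcont hfrob in
/-- comparison of residual traces -/
lemma residue_tR (g : GQ) : residue R (tR hS hN hp2 hp π g) = (ρb g).trace := by
  obtain ⟨L, hL, h⟩ := hcont
  obtain ⟨ℓ, k, hℓ, hℓN, hℓS, A, hA, τ, hτ, hk, happ⟩ := tR_approx hS hN hp2 hp π g L 1
  obtain ⟨h1, h2⟩ := hfrob ℓ hℓ hℓN hℓS A hA τ hτ
  have h3 : ρb (τ ^ k) = ρb g := by
    have h4 : ρb (g⁻¹ * τ ^ k) = 1 := h _ fun x hx => by
      rw [AlgEquiv.mul_apply, hk x hx]
      exact inv_smul_smul g x
    have h5 : τ ^ k = g * (g⁻¹ * τ ^ k) := by group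
    rw [h5, map_mul, h4, mul_one]
  rw [← h3, map_pow, trace_pow_two, h1, h2, ← map_natCast (residue R), ← map_dk, ← sub_eq_zero,
    ← map_sub, residue_eq_zero_iff]
  rwa [pow_one] at happ

lemma residue_piA_a (g : GQ) (htr : ∀ g, residue R (tR hS hN hp2 hp π g) = (ρb g).trace) :
    residue R (piA hp π ((pdata D S hS hN hp2).a g)) =
      (((residue R (piA hp π (pdata D S hS hN hp2).i2)) •
        (1 + ρb complexConjugation)) * ρb g).trace := by
  rw [PData.a, map_mul, map_mul, map_add, map_add]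
  have h1 : residue R (piA hp π ((pdata D S hS hN hp2).t g)) = (ρb g).trace := htr g
  have h2 : residue R (piA hp π ((pdata D S hS hN hp2).t (g * (pdata D S hS hN hp2).c))) =
      (ρb (g * complexConjugation)).trace := htr _
  rw [h1, h2, Matrix.smul_mul, Matrix.trace_smul, smul_eq_mul, add_mul, one_mul, Matrix.trace_add,
    map_mul, Matrix.trace_mul_comm (ρb g)]

/-- nondegeneracy -/
lemma exists_isUnit (htr : ∀ g, residue R (tR hS hN hp2 hp π g) = (ρb g).trace)
    (hspan : Submodule.span (ResidueField R) (Set.range ρb) = ⊤) :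
    ∃ g₁ g₂, IsUnit (piA hp π ((pdata D S hS hN hp2).x g₁ g₂)) := by
  by_contra hcon
  push Not at hcon
  set P := pdata D S hS hN hp2 with hP
  let E : Matrix (Fin 2) (Fin 2) (ResidueField R) :=
    (residue R (piA hp π P.i2)) • (1 + ρb complexConjugation)
  have ha : ∀ g, residue R (piA hp π (P.a g)) = (E * ρb g).trace := fun g =>
    residue_piA_a hS hN hp2 hp π g htr
  clear_value E
  have hmul : ∀ g h, (E * (ρb g * ρb h)).trace = (E * ρb g).trace * (E * ρb h).trace := by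
    intro g h
    rw [← map_mul, ← ha, ← ha, ← ha, ← map_mul, ← map_mul, ← sub_eq_zero, ← map_sub, ← map_sub,
      residue_eq_zero_iff]
    exact hcon g h
  have hmul2 : ∀ X Y : Matrix (Fin 2) (Fin 2) (ResidueField R),
      (E * (X * Y)).trace = (E * X).trace * (E * Y).trace := by
    intro X Y
    have hX : X ∈ Submodule.span (ResidueField R) (Set.range ρb) := by rw [hspan]; trivial
    have hY : Y ∈ Submodule.span (ResidueField R) (Set.range ρb) := by rw [hspan]; trivial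
    induction hX using Submodule.span_induction with
    | mem x hx =>
      obtain ⟨g, rfl⟩ := hx
      induction hY using Submodule.span_induction with
      | mem y hy => obtain ⟨h, rfl⟩ := hy; exact hmul g h
      | zero => rw [mul_zero, mul_zero, Matrix.trace_zero, mul_zero]
      | add y z _ _ hy hz =>
        rw [mul_add, mul_add, Matrix.trace_add, hy, hz, mul_add, Matrix.trace_add, mul_add]
      | smul r y _ hy =>
        rw [Matrix.mul_smul, Matrix.mul_smul, Matrix.trace_smul, hy, Matrix.mul_smul,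
          Matrix.trace_smul, smul_eq_mul, smul_eq_mul]
        ring
    | zero => rw [zero_mul, mul_zero, Matrix.trace_zero, zero_mul]
    | add y z _ _ hy hz =>
      rw [add_mul, mul_add, Matrix.trace_add, hy, hz, mul_add, Matrix.trace_add, add_mul]
    | smul r y _ hy =>
      rw [Matrix.smul_mul, Matrix.mul_smul, Matrix.trace_smul, hy, Matrix.mul_smul,
        Matrix.trace_smul, smul_eq_mul, smul_eq_mul]
      ring
  have hone : (E * 1).trace = 1 := by
    have h1 := ha 1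
    rw [P.a_one, map_one, map_one, map_one] at h1
    exact h1.symm
  have h01 : (E * Matrix.single 0 1 1).trace = 0 := by
    have h1 := hmul2 (Matrix.single 0 1 1) (Matrix.single 0 1 1)
    rw [Matrix.single_mul_single_of_ne _ _ _ _ (by decide), mul_zero, Matrix.trace_zero] at h1
    exact mul_self_eq_zero.mp h1.symm
  have h00 : (E * Matrix.single 0 0 1).trace = 0 := by
    have h1 := hmul2 (Matrix.single 0 1 1) (Matrix.single 1 0 1)
    rw [Matrix.single_mul_single_same, mul_one, h01, zero_mul] at h1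
    exact h1
  have h11 : (E * Matrix.single 1 1 1).trace = 0 := by
    have h1 := hmul2 (Matrix.single 1 0 1) (Matrix.single 0 1 1)
    rw [Matrix.single_mul_single_same, mul_one, h01, mul_zero] at h1
    exact h1
  have hsum : (1 : Matrix (Fin 2) (Fin 2) (ResidueField R)) =
      Matrix.single 0 0 1 + Matrix.single 1 1 1 := by
    ext i j
    fin_cases i <;> fin_cases j <;> simp [Matrix.single]
  rw [hsum, mul_add, Matrix.trace_add, h00, h11, add_zero] at hone
  exact zero_ne_one hone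

/-- any continuous representation with the right Frobenius traces has the right traces -/
lemma trace_eq_tR {T : GQ →* Matrix (Fin 2) (Fin 2) R} (hT : MatCont T)
    (hπ : HData.FrobCond π T) (g : GQ) : (T g).trace = tR hS hN hp2 hp π g := by
  rw [← sub_eq_zero]
  refine IsHausdorff.haus (inferInstance : IsHausdorff (maximalIdeal R) R) _ fun m => ?_
  rw [SModEq.zero, smul_eq_mul, Ideal.mul_top]
  obtain ⟨L, hL, h⟩ := hT m
  obtain ⟨ℓ, k, hℓ, hℓN, hℓS, A, hA, τ, hτ, hk, happ⟩ := tR_approx hS hN hp2 hp π g L m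
  obtain ⟨h1, h2⟩ := hπ ℓ hℓ hℓN hℓS A hA τ hτ
  have h3 := HData.trace_congr h hk
  rw [map_pow, trace_pow_two, h1, h2] at h3
  have h4 : (T g).trace - tR hS hN hp2 hp π g =
      -((dk (π ⟨D.T ℓ, HData.T_mem hℓ hℓN hℓS⟩) (ℓ : R) k - (T g).trace) +
        (tR hS hN hp2 hp π g - dk (π ⟨D.T ℓ, HData.T_mem hℓ hℓN hℓS⟩) (ℓ : R) k)) := by ring
  rw [h4]
  exact (Ideal.neg_mem_iff _).mpr (Ideal.add_mem _ h3 happ)

include hS hN hcont hfrob in
/-- **The representation over a complete local quotient of the Hecke algebra** (odd case). -/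
theorem exists_rep (hp2 : p ≠ 2) (hspan : Submodule.span (ResidueField R) (Set.range ρb) = ⊤) :
    ∃ T : GQ →* Matrix (Fin 2) (Fin 2) R, MatCont T ∧ HData.FrobCond π T ∧
      (∀ g, (T g).det = cyc p (maximalIdeal R) hp g) ∧
      (∀ g, (residue R).mapMatrix (T g) = ρb g) ∧
      Submodule.span R (Set.range T) = ⊤ ∧
      (∀ g, (T g).trace = tR hS hN hp2 hp π g) ∧
      (∀ q : ℕ, q.Prime → ¬ q ∣ N * p → ∀ A : ValuationSubring Qbar, A.LiesOverPrime q →
        ∀ σ ∈ A.inertiaSubgroupIn ℚ, T σ = 1) := by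
  have htrb : ∀ g, residue R (tR hS hN hp2 hp π g) = (ρb g).trace :=
    residue_tR hS hN hp2 hp π hcont hfrob
  obtain ⟨g₁, g₂, hu⟩ := exists_isUnit hS hN hp2 hp π htrb hspan
  set P := pdata D S hS hN hp2 with hP
  obtain ⟨u, hu⟩ := hu
  have huu : piA hp π (P.x g₁ g₂) * ((u⁻¹ : Rˣ) : R) = 1 := by rw [← hu, Units.mul_inv]
  obtain ⟨T₀, hT₀, htr₀, hdet₀⟩ := P.exists_rep (piA hp π) huu
  have htr₀' : ∀ g, (T₀ g).trace = tR hS hN hp2 hp π g := htr₀
  have hdet₀' : ∀ g, (T₀ g).det = cyc p (maximalIdeal R) hp g := fun g => by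
    rw [hdet₀, hP, piA_chi]
  -- continuity
  have hT₀c : MatCont T₀ := by
    intro m
    obtain ⟨L, hL, h⟩ := tR_cont hS hN hp2 hp π m
    refine ⟨L, hL, fun σ hσ => ?_⟩
    have ht : ∀ g, piA hp π (P.t (σ * g)) - piA hp π (P.t g) ∈ maximalIdeal R ^ m := h σ hσ
    have ht1 : piA hp π (P.t σ) - piA hp π (P.t 1) ∈ maximalIdeal R ^ m := by
      have := ht 1
      rwa [mul_one] at this
    have hda : piA hp π (P.a σ) - 1 ∈ maximalIdeal R ^ m := by
      have e : piA hp π (P.a σ) - 1 = piA hp π P.i2 * ((piA hp π (P.t σ) - piA hp π (P.t 1)) +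
          (piA hp π (P.t (σ * P.c)) - piA hp π (P.t P.c))) := by
        rw [← map_one (piA hp π), ← P.a_one, PData.a, PData.a, one_mul]
        simp only [map_mul, map_add]
        ring
      rw [e]
      exact Ideal.mul_mem_left _ _ (Ideal.add_mem _ ht1 (ht _))
    have hdd : piA hp π (P.d σ) - 1 ∈ maximalIdeal R ^ m := by
      have e : piA hp π (P.d σ) - 1 = piA hp π P.i2 * ((piA hp π (P.t σ) - piA hp π (P.t 1)) -
          (piA hp π (P.t (σ * P.c)) - piA hp π (P.t P.c))) := by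
        rw [← map_one (piA hp π), ← P.d_one, PData.d, PData.d, one_mul]
        simp only [map_mul, map_sub]
        ring
      rw [e]
      exact Ideal.mul_mem_left _ _ (Ideal.sub_mem _ ht1 (ht _))
    have hx1 : ∀ g, piA hp π (P.x σ g) ∈ maximalIdeal R ^ m := by
      intro g
      have e : piA hp π (P.x σ g) = piA hp π P.i2 *
          ((piA hp π (P.t (σ * g)) - piA hp π (P.t g)) +
            (piA hp π (P.t (σ * (g * P.c))) - piA hp π (P.t (g * P.c)))) -
          (piA hp π (P.a σ) - 1) * piA hp π (P.a g) := by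
        rw [PData.x, map_sub, map_mul, PData.a, PData.a, PData.a, mul_assoc]
        simp only [map_mul, map_add]
        ring
      rw [e]
      exact Ideal.sub_mem _ (Ideal.mul_mem_left _ _ (Ideal.add_mem _ (ht _) (ht _)))
        (Ideal.mul_mem_right _ _ hda)
    have hx2 : ∀ g, piA hp π (P.x g σ) ∈ maximalIdeal R ^ m := by
      intro g
      have e1 : P.t (g * σ) = P.t (σ * g) := P.t_comm _ _
      have e2 : P.t (g * σ * P.c) = P.t (σ * (P.c * g)) := by
        rw [mul_assoc, P.t_comm, mul_assoc]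
      have e3 : P.t (g * P.c) = P.t (P.c * g) := P.t_comm _ _
      have e : piA hp π (P.x g σ) = piA hp π P.i2 *
          ((piA hp π (P.t (σ * g)) - piA hp π (P.t g)) +
            (piA hp π (P.t (σ * (P.c * g))) - piA hp π (P.t (P.c * g)))) -
          (piA hp π (P.a σ) - 1) * piA hp π (P.a g) := by
        rw [PData.x, map_sub, map_mul, PData.a, PData.a, PData.a, e1, e2, e3]
        simp only [map_mul, map_add]
        ring
      rw [e]
      exact Ideal.sub_mem _ (Ideal.mul_mem_left _ _ (Ideal.add_mem _ (ht _) (ht _)))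
        (Ideal.mul_mem_right _ _ hda)
    intro i j
    rw [hT₀]
    fin_cases i <;> fin_cases j
    · simpa using hda
    · simpa using hx1 g₂
    · simpa using hx2 g₁
    · simpa using hdd
  -- residual representation
  let Tb : GQ →* Matrix (Fin 2) (Fin 2) (ResidueField R) := mapT (residue R) T₀
  have hTbtr : ∀ g, (Tb g).trace = (ρb g).trace := by
    intro g
    rw [← htrb, ← htr₀', Matrix.trace_fin_two, Matrix.trace_fin_two, map_add]
    rfl
  have hTbspan := span_of_trace_eq hTbtr hspan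
  obtain ⟨Qb, Qb', hQQ', hQ'Q, hconj⟩ := exists_conj hTbtr hTbspan hspan
  let Q : Matrix (Fin 2) (Fin 2) R :=
    Matrix.of fun i j => Function.surjInv residue_surjective (Qb i j)
  have hQ : (residue R).mapMatrix Q = Qb := by
    ext i j
    exact Function.surjInv_eq residue_surjective (Qb i j)
  have hQdet : IsUnit Q.det := by
    by_contra hcon
    have h1 : ((residue R).mapMatrix Q).det = 0 := by
      rw [← RingHom.map_det, residue_eq_zero_iff]
      exact hcon
    rw [hQ] at h1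
    have h2 := congrArg Matrix.det hQQ'
    rw [Matrix.det_mul, h1, zero_mul, Matrix.det_one] at h2
    exact zero_ne_one h2
  have hQ1 : Q * Q⁻¹ = 1 := Matrix.mul_nonsing_inv _ hQdet
  have hQ2 : Q⁻¹ * Q = 1 := Matrix.nonsing_inv_mul _ hQdet
  let T : GQ →* Matrix (Fin 2) (Fin 2) R :=
    { toFun := fun g => Q * T₀ g * Q⁻¹
      map_one' := by rw [map_one, mul_one, hQ1]
      map_mul' := fun g h => by
        rw [map_mul]
        calc Q * (T₀ g * T₀ h) * Q⁻¹ = Q * T₀ g * (Q⁻¹ * Q) * T₀ h * Q⁻¹ := by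
              rw [hQ2, mul_one]; simp only [mul_assoc]
          _ = _ := by simp only [mul_assoc] }
  have hTdef : ∀ g, T g = Q * T₀ g * Q⁻¹ := fun _ => rfl
  have hTtr : ∀ g, (T g).trace = (T₀ g).trace := fun g => by
    rw [hTdef, Matrix.trace_mul_comm, ← mul_assoc, hQ2, one_mul]
  have hTdet : ∀ g, (T g).det = (T₀ g).det := fun g => by
    rw [hTdef, Matrix.det_mul, Matrix.det_mul, mul_comm (Q.det), mul_assoc, ← Matrix.det_mul, hQ1,
      Matrix.det_one, mul_one]
  have hTc : MatCont T := hT₀c.conj Q⁻¹ Q hQ1 hTdef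
  have hTres : ∀ g, (residue R).mapMatrix (T g) = ρb g := by
    intro g
    have h1 : (residue R).mapMatrix Q⁻¹ = Qb' := by
      have h2 := congrArg (residue R).mapMatrix hQ1
      rw [map_mul, map_one, hQ] at h2
      calc (residue R).mapMatrix Q⁻¹ = (Qb' * Qb) * (residue R).mapMatrix Q⁻¹ := by
            rw [hQ'Q, one_mul]
        _ = Qb' := by rw [mul_assoc, h2, mul_one]
    rw [hTdef, map_mul, map_mul, h1, hQ]
    have h3 : Qb * (residue R).mapMatrix (T₀ g) = ρb g * Qb := hconj g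
    rw [h3, mul_assoc, hQQ', mul_one]
  have hfc : HData.FrobCond π T := by
    intro ℓ hℓ hℓN hℓS A hA τ hτ
    refine ⟨?_, ?_⟩
    · rw [hTtr, htr₀, hP, pdata_t_frob hS hN hp2 hℓ hℓN hℓS hA hτ, piA_one_tmul]
    · rw [hTdet, hdet₀', cyc_frob p _ hp hℓ hA (HData.ne_p hℓN) hτ]
  have hsp : Submodule.span R (Set.range T) = ⊤ := by
    refine span_eq_top_of_residue _ ?_
    have : (fun g => (residue R).mapMatrix (T g)) = ρb := funext hTres
    rw [this]
    exact hspan
  exact ⟨T, hTc, hfc, fun g => (hTdet g).trans (hdet₀' g), hTres, hsp,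
    fun g => (hTtr g).trans (htr₀' g), fun q hq hqN A hA σ hσ =>
      HData.eq_one_of_mem_inertia hS hN hp hTc hfc hsp hq hqN hA hσ⟩

end Main

end

end Fermat.Agent.TWGal
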