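import Fermat.Agent.TWGal.Closed
import Fermat.Agent.TWGal.Rep

/-!
# Representations over Hecke algebras as subquotients of the lattice
-/

set_option autoImplicit false
set_option maxHeartbeats 400000

namespace Fermat.Agent.TWGal

open Fermat.Agent.DefRing Fermat.Agent.GalRep Matrix IsLocalRing TensorProduct
open Fermat.Agent.FlatLoc

local notation "Qbar" => AlgebraicClosure ℚ

section

variable {N p : ℕ} [Fact p.Prime] (D : HData N p) (S : Set ℕ)

/-- the lattice modulo `p ^ K` -/
def LK (K : ℕ) : Type := Fin D.r → ZMod (p ^ K)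

noncomputable instance (K : ℕ) : AddCommGroup (LK D K) :=
  inferInstanceAs (AddCommGroup (Fin D.r → ZMod (p ^ K)))

instance (K : ℕ) : Finite (LK D K) := by
  haveI : NeZero (p ^ K) := ⟨pow_ne_zero _ (Fact.out : p.Prime).ne_zero⟩
  exact inferInstanceAs (Finite (Fin D.r → ZMod (p ^ K)))

noncomputable instance (K : ℕ) : Module (Matrix (Fin D.r) (Fin D.r) ℤ_[p]) (LK D K) where
  smul M v := ((PadicInt.toZModPow K).mapMatrix M).mulVec v
  one_smul v := by
    change ((PadicInt.toZModPow K).mapMatrix 1).mulVec v = v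
    rw [map_one]
    exact Matrix.one_mulVec v
  mul_smul M M' v := by
    change ((PadicInt.toZModPow K).mapMatrix (M * M')).mulVec v =
      ((PadicInt.toZModPow K).mapMatrix M).mulVec (((PadicInt.toZModPow K).mapMatrix M').mulVec v)
    rw [map_mul, Matrix.mulVec_mulVec]
  smul_zero M := Matrix.mulVec_zero _
  smul_add M v w := Matrix.mulVec_add _ _ _
  add_smul M M' v := by
    change ((PadicInt.toZModPow K).mapMatrix (M + M')).mulVec v =
      ((PadicInt.toZModPow K).mapMatrix M).mulVec v + ((PadicInt.toZModPow K).mapMatrix M').mulVec v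
    rw [map_add]
    exact Matrix.add_mulVec _ _ _
  zero_smul v := by
    change ((PadicInt.toZModPow K).mapMatrix 0).mulVec v = 0
    rw [map_zero]
    exact Matrix.zero_mulVec _

variable {D S}

theorem LK_smul (K : ℕ) (M : Matrix (Fin D.r) (Fin D.r) ℤ_[p]) (v : LK D K) :
    M • v = ((PadicInt.toZModPow K).mapMatrix M).mulVec v := rfl

theorem entry_eq_zero_of_smul {K : ℕ} {M : Matrix (Fin D.r) (Fin D.r) ℤ_[p]}
    (h : ∀ v : LK D K, M • v = 0) (i j : Fin D.r) : PadicInt.toZModPow K (M i j) = 0 := by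
  have h1 := h (Pi.single j (1 : ZMod (p ^ K)) : Fin D.r → ZMod (p ^ K))
  rw [LK_smul] at h1
  have h2 := congrFun h1 i
  rw [Matrix.mulVec_single_one] at h2
  exact h2

/-- Artin–Rees with a projector -/
lemma exists_artinRees_E (E : Matrix (Fin D.r) (Fin D.r) ℤ_[p]) : ∃ c : ℕ, ∀ m, ∀ a : AA D S,
    (∀ i j, PadicInt.toZModPow (m + c) ((phi D S a * E) i j) = 0) →
      ∃ b : AA D S, phi D S a * E = phi D S (((p : ℤ_[p]) ^ m) • b) * E := by
  let F : AA D S →ₗ[ℤ_[p]] Matrix (Fin D.r) (Fin D.r) ℤ_[p] :=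
    (LinearMap.mulRight ℤ_[p] E).comp (phi D S).toLinearMap
  have hF : ∀ a, F a = phi D S a * E := fun a => rfl
  obtain ⟨c, hc⟩ := Ideal.exists_pow_inf_eq_pow_smul (Ideal.span {(p : ℤ_[p])})
    (LinearMap.range F)
  refine ⟨c, fun m a ha => ?_⟩
  have h1 : F a ∈ (Ideal.span {(p : ℤ_[p])}) ^ (m + c) •
      (⊤ : Submodule ℤ_[p] (Matrix (Fin D.r) (Fin D.r) ℤ_[p])) ⊓ LinearMap.range F := by
    refine ⟨?_, ⟨a, rfl⟩⟩
    refine HData.mem_pow_smul_top_of_entries _ _ fun i j => ?_
    have h2 : F a i j ∈ RingHom.ker (PadicInt.toZModPow (p := p) (m + c)) := ha i j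
    rwa [PadicInt.ker_toZModPow, ← Ideal.span_singleton_pow] at h2
  rw [hc (m + c) (Nat.le_add_left _ _), Nat.add_sub_cancel, Ideal.span_singleton_pow,
    Submodule.ideal_span_singleton_smul] at h1
  obtain ⟨y, hy, hxy⟩ := h1
  obtain ⟨b, hb⟩ := hy.2
  refine ⟨b, ?_⟩
  rw [← hF, ← hF, map_smul, hb, ← hxy]
  rfl

variable {𝓟 : ∀ (V : Type) [AddCommGroup V], (GQ →* AddMonoid.End V) → Prop}

theorem span_map_eq_top {R M : Type} [CommRing R] [CommRing M] (ψ : R →+* M)
    {T : GQ →* Matrix (Fin 2) (Fin 2) R} (h : Submodule.span R (Set.range T) = ⊤) :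
    Submodule.span M (Set.range (mapT ψ T)) = ⊤ := by
  have key : ∀ X : Matrix (Fin 2) (Fin 2) R, ψ.mapMatrix X ∈ Submodule.span M (Set.range (mapT ψ T)) := by
    intro X
    have hX : X ∈ Submodule.span R (Set.range T) := by rw [h]; trivial
    induction hX using Submodule.span_induction with
    | mem x hx =>
      obtain ⟨g, rfl⟩ := hx
      exact Submodule.subset_span ⟨g, rfl⟩
    | zero => rw [map_zero]; exact Submodule.zero_mem _
    | add x y _ _ hx hy => rw [map_add]; exact Submodule.add_mem _ hx hy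
    | smul c x _ hx =>
      have : ψ.mapMatrix (c • x) = ψ c • ψ.mapMatrix x := by
        ext i j
        simp
      rw [this]
      exact Submodule.smul_mem _ _ hx
  rw [eq_top_iff]
  intro X _
  rw [Matrix.matrix_eq_sum_single X]
  refine Submodule.sum_mem _ fun i _ => Submodule.sum_mem _ fun j _ => ?_
  have : Matrix.single i j (X i j) = X i j • ψ.mapMatrix (Matrix.single i j (1 : R)) := by
    ext k l
    simp only [RingHom.mapMatrix_apply, Matrix.smul_apply, Matrix.map_apply, Matrix.single_apply,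
      smul_eq_mul]
    split_ifs <;> simp
  rw [this]
  exact Submodule.smul_mem _ _ (key _)

/-- **The representation is a subquotient of powers of the lattice modulo `p^K`** -/
theorem blr (h𝓟 : Closed 𝓟) (hL : ∀ K, 𝓟 (LK D K) (modRep D.ρ (LK D K)))
    (hS : S.Finite) (hN : N ≠ 0) (hp2 : p ≠ 2)
    {R : Type} [CommRing R] [IsLocalRing R] [IsAdicComplete (maximalIdeal R) R]
    (hp : (p : R) ∈ maximalIdeal R) (π : D.TT S →+* R)
    {T : GQ →* Matrix (Fin 2) (Fin 2) R} (hT : MatCont T) (hfrob : HData.FrobCond π T)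
    (hspan : Submodule.span R (Set.range T) = ⊤)
    {M : Type} [CommRing M] [IsLocalRing M] [Finite M] (ψ : R →+* M)
    (hpM : IsNilpotent (p : M)) : 𝓟 (Fin 2 → M) (vecRep (mapT ψ T)) := by
  set P := pdata D S hS hN hp2 with hP
  have htr := trace_eq_tR hS hN hp2 hp π hT hfrob
  -- residual representation
  have hspan' : Submodule.span (ResidueField R) (Set.range (mapT (residue R) T)) = ⊤ :=
    span_map_eq_top _ hspan
  obtain ⟨g₁, g₂, hu⟩ := exists_isUnit hS hN hp2 hp π (ρb := mapT (residue R) T) (fun g => by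
    rw [← htr]
    change _ = ((residue R).mapMatrix (T g)).trace
    rw [Matrix.trace_fin_two, Matrix.trace_fin_two, map_add]
    rfl) hspan'
  rw [← hP] at hu
  obtain ⟨m, hm⟩ := hpM
  obtain ⟨c, hc⟩ := exists_artinRees_E (D := D) (S := S) P.E
  have hX : IsUnit ((ψ.comp (piA hp π)) (P.x g₁ g₂)) := hu.map ψ
  obtain ⟨u, T₀, hu₀, hT₀, htr₀, -, h𝓟₀⟩ := h𝓟.blr (P := P) (L := LK D (m + c))
    (ψ.comp (piA hp π)) hX (fun a ha => by
    have h1 : ∀ i j, PadicInt.toZModPow (m + c) ((phi D S a * P.E) i j) = 0 := by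
      intro i j
      refine entry_eq_zero_of_smul (D := D) (fun v => ?_) i j
      rw [mul_smul]
      exact ha v
    obtain ⟨b, hb⟩ := hc m a h1
    have h2 : (a - ((p : ℤ_[p]) ^ m) • b) * P.x g₁ g₂ = 0 := by
      have h3 : P.φ (a - ((p : ℤ_[p]) ^ m) • b) * P.E = 0 := by
        rw [map_sub, sub_mul, sub_eq_zero]
        exact hb
      apply P.ext_EF
      · rw [map_zero, zero_mul, mul_comm, map_mul, mul_assoc, h3, mul_zero]
      · rw [map_zero, zero_mul, map_mul, mul_assoc, ← P.FEF, ← mul_assoc, ← mul_assoc, ← mul_assoc,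
          ← mul_assoc, P.F_comm, mul_assoc P.F, P.comm, ← mul_assoc, mul_assoc _ _ P.E, h3,
          mul_zero, zero_mul, zero_mul]
    have h4 := congrArg (ψ.comp (piA hp π)) h2
    rw [map_mul, map_zero] at h4
    have h5 := hX.mul_left_eq_zero.mp h4
    rw [map_sub, sub_eq_zero] at h5
    rw [h5, RingHom.comp_apply, piA_smul, map_mul, map_pow, map_natCast, map_pow, map_natCast, hm,
      zero_mul]) (hL (m + c))
  -- compare the traces
  have htr₁ : ∀ g, (T₀ g).trace = (mapT ψ T g).trace := by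
    intro g
    rw [htr₀, RingHom.comp_apply]
    have h1 : piA hp π (P.t g) = (T g).trace := (htr g).symm
    rw [h1, Matrix.trace_fin_two, Matrix.trace_fin_two, map_add]
    rfl
  have hsp : Submodule.span M (Set.range (mapT ψ T)) = ⊤ := span_map_eq_top _ hspan
  have hsp' : Submodule.span (ResidueField M) (Set.range (mapT (residue M) (mapT ψ T))) = ⊤ :=
    span_map_eq_top _ hsp
  have hsp₀ : Submodule.span M (Set.range T₀) = ⊤ := by
    refine span_eq_top_of_residue _ ?_
    have h1 := span_of_trace_eq (T := mapT (residue M) T₀) (T' := mapT (residue M) (mapT ψ T))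
      (fun g => by
        change ((residue M).mapMatrix (T₀ g)).trace =
          ((residue M).mapMatrix (mapT ψ T g)).trace
        have h2 := congrArg (residue M) (htr₁ g)
        rw [Matrix.trace_fin_two, Matrix.trace_fin_two, map_add, map_add] at h2
        rw [Matrix.trace_fin_two, Matrix.trace_fin_two]
        exact h2) hsp'
    exact h1
  obtain ⟨Q, Q', hQ, hQ', hconj⟩ := exists_conj htr₁ hsp₀ hsp
  refine h𝓟.of_equiv (ρ := vecRep T₀) (ρ' := vecRep (mapT ψ T))
    { toFun := fun v => Q.mulVec v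
      invFun := fun v => Q'.mulVec v
      left_inv := fun v => by
        change Q'.mulVec (Q.mulVec v) = v
        rw [Matrix.mulVec_mulVec, hQ', Matrix.one_mulVec]
      right_inv := fun v => by
        change Q.mulVec (Q'.mulVec v) = v
        rw [Matrix.mulVec_mulVec, hQ, Matrix.one_mulVec]
      map_add' := fun v w => Matrix.mulVec_add _ _ _ } (fun σ v => ?_) h𝓟₀
  change Q.mulVec ((T₀ σ).mulVec v) = (mapT ψ T σ).mulVec (Q.mulVec v)
  rw [Matrix.mulVec_mulVec, Matrix.mulVec_mulVec, hconj]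

end

end Fermat.Agent.TWGal
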