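import Fermat.Agent.TWGal.Inertia

set_option autoImplicit false
set_option maxHeartbeats 400000

/-!
# Tame inertia
-/

namespace Fermat.Agent.TWGal

open Fermat.Agent.DefRing Fermat.Agent.GalRep Fermat.Agent.Frob NumberField IsLocalRing
open scoped Pointwise

local notation "Qbar" => AlgebraicClosure ℚ

/-- inertia elements at finite level -/
theorem exists_inertia_of_pow_eq (K : Type) [Field K] [CharZero K] [inst : Algebra ℚ K]
    [FiniteDimensional ℚ K] [IsGalois ℚ K] {p q : ℕ} (hp : p.Prime) (hq : q.Prime)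
    (π : K) (hπ : π ^ p = (q : K)) (P : Ideal (𝓞 K)) [P.IsPrime] (hP : (q : 𝓞 K) ∈ P) :
    ∃ τ : K ≃ₐ[ℚ] K, τ ≠ 1 ∧ ∀ x : 𝓞 K, τ • x - x ∈ P := by
  classical
  have hinst : inst = DivisionRing.toRatAlgebra := Subsingleton.elim _ _
  subst hinst
  haveI : NumberField K := ⟨⟩
  have hπi : IsIntegral ℤ π := by
    refine IsIntegral.of_pow hp.pos ?_
    rw [hπ]
    have h := isIntegral_algebraMap (R := ℤ) (A := K) (x := (q : ℤ))
    simpa using h
  let π' : 𝓞 K := ⟨π, hπi⟩
  have hπ' : π' ^ p = (q : 𝓞 K) := by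
    apply RingOfIntegers.ext
    show (π' : K) ^ p = _
    exact hπ
  have hunder : P.under ℤ = Ideal.span {(q : ℤ)} := by
    have hmax : (Ideal.span {(q : ℤ)}).IsMaximal :=
      PrincipalIdealRing.isMaximal_of_irreducible (Nat.prime_iff_prime_int.mp hq).irreducible
    refine (hmax.eq_of_le (Ideal.IsPrime.under ℤ P).ne_top ?_).symm
    rw [Ideal.span_singleton_le_iff_mem, Ideal.mem_comap]
    simpa using hP
  have hmap : (P.under ℤ).map (algebraMap ℤ (𝓞 K)) = Ideal.span {π'} ^ p := by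
    rw [hunder, Ideal.map_span, Set.image_singleton, Ideal.span_singleton_pow, hπ']
    simp
  have hp0 : (P.under ℤ).map (algebraMap ℤ (𝓞 K)) ≠ ⊥ := by
    rw [hmap, Ideal.span_singleton_pow, Ne, Ideal.span_singleton_eq_bot, hπ']
    exact_mod_cast hq.ne_zero
  have hram : p ∣ P.ramificationIdx ℤ := by
    rw [Ideal.IsDedekindDomain.ramificationIdx_eq_normalizedFactors_count (P.under ℤ) P hp0, hmap,
      UniqueFactorizationMonoid.normalizedFactors_pow, Multiset.count_nsmul]
    exact dvd_mul_right _ _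
  have h1 : P.ramificationIdx ℤ ≠ 1 := fun h => by
    rw [h] at hram
    exact hp.one_lt.ne' (Nat.dvd_one.mp hram)
  rw [← Ideal.ramificationIdxIn_eq_ramificationIdx (P.under ℤ) _ (K ≃ₐ[ℚ] K),
    ← Ideal.card_inertia_eq_ramificationIdxIn (G := K ≃ₐ[ℚ] K) (P.under ℤ) P] at h1
  have h2 : Ideal.inertia (K ≃ₐ[ℚ] K) P ≠ ⊥ := by
    intro h0
    apply h1
    rw [h0]
    simp
  obtain ⟨⟨τ, hτ⟩, hτ1⟩ := Subgroup.ne_bot_iff_exists_ne_one.mp h2
  exact ⟨τ, fun h => hτ1 (Subtype.ext h), hτ⟩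

variable {A : ValuationSubring Qbar} {p q : ℕ}

/-- `p`-th roots of `q` are moved by inertia -/
theorem exists_inertia_moving (hq : q.Prime) (hA : A.LiesOverPrime q) (hp : p.Prime)
    (hpq : p ≠ q) :
    ∃ σ ∈ A.inertiaSubgroupIn ℚ, ∀ π : Qbar, π ^ p = q → σ π ≠ π := by
  obtain ⟨π₀, hπ₀⟩ := IsAlgClosed.exists_pow_nat_eq (q : Qbar) hp.pos
  have hπ₀0 : π₀ ≠ 0 := by
    rintro rfl
    rw [zero_pow hp.ne_zero] at hπ₀
    exact hq.ne_zero (by exact_mod_cast hπ₀.symm)
  have hπ₀i : IsIntegral ℚ π₀ := Algebra.IsIntegral.isIntegral π₀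
  let K₀ := IntermediateField.adjoin ℚ {π₀}
  haveI : FiniteDimensional ℚ K₀ := IntermediateField.adjoin.finiteDimensional hπ₀i
  haveI : Normal ℚ Qbar := inferInstance
  let K := IntermediateField.normalClosure ℚ K₀ Qbar
  have h1 : Normal ℚ K := normalClosure.normal ℚ K₀ Qbar
  haveI : FiniteDimensional ℚ K := inferInstance
  haveI : IsGalois ℚ K := @IsGalois.mk _ _ _ _ _ inferInstance h1
  have hπ₀K : π₀ ∈ K := IntermediateField.le_normalClosure K₀
    (IntermediateField.mem_adjoin_simple_self ℚ π₀)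
  have hstab : ∀ g : GQ, ∀ x ∈ K, g x ∈ K := by
    intro g x hx
    have h2 := AlgEquiv.restrictNormal_commutes g K ⟨x, hx⟩
    have h3 : g x = algebraMap _ Qbar (AlgEquiv.restrictNormal g K ⟨x, hx⟩) := h2.symm
    rw [h3]
    exact (AlgEquiv.restrictNormal g K ⟨x, hx⟩).2
  haveI : NumberField K := ⟨⟩
  let P : Ideal (𝓞 K) := (center A).comap (Mink.incl K)
  haveI : P.IsPrime := inferInstance
  obtain ⟨τ, hτ1, hτ⟩ := exists_inertia_of_pow_eq K hp hq ⟨π₀, hπ₀K⟩ (Subtype.ext hπ₀) P (by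
    show _ ∈ (center A).comap (Mink.incl K)
    rw [Ideal.mem_comap, mem_center_iff, map_natCast]
    exact_mod_cast hA)
  obtain ⟨g, hg⟩ := AlgEquiv.restrictNormalHom_surjective (F := ℚ) (K₁ := K) Qbar τ
  have hgτ : ∀ x : K, g (x : Qbar) = (τ x : K) := by
    intro x
    rw [← hg]
    exact (AlgEquiv.restrictNormal_commutes g K x).symm
  obtain ⟨σ, hσ, hσg⟩ := exists_inertia_of_integral hq hA K hstab g (by
    intro b hbK hb
    have hbi : IsIntegral ℤ (⟨b, hbK⟩ : K) :=
      (isIntegral_algHom_iff (IsScalarTower.toAlgHom ℤ K Qbar) (algebraMap K Qbar).injective).mp hb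
    have h3 := hτ ⟨⟨b, hbK⟩, hbi⟩
    change _ ∈ (center A).comap (Mink.incl K) at h3
    rw [Ideal.mem_comap, mem_center_iff] at h3
    have h4 : g b - b = ((Mink.incl K (τ • (⟨⟨b, hbK⟩, hbi⟩ : 𝓞 K) - (⟨⟨b, hbK⟩, hbi⟩ : 𝓞 K)) :
        integralClosure ℤ Qbar) : Qbar) := by
      show g b - b = ((τ (⟨b, hbK⟩ : K) : K) : Qbar) - b
      rw [← hgτ]
    rw [h4]
    exact h3)
  refine ⟨σ, hσ, fun π hπ hfix => hτ1 ?_⟩
  -- all roots are fixed
  have hroots : ∀ x : Qbar, x ^ p = q → σ x = x := by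
    intro x hx
    have hπ0 : π ≠ 0 := by
      rintro rfl
      rw [zero_pow hp.ne_zero] at hπ
      exact hq.ne_zero (by exact_mod_cast hπ.symm)
    have h5 : (x / π) ^ p = 1 := by
      rw [div_pow, hx, hπ, div_self (by exact_mod_cast hq.ne_zero)]
    have h6 := inertia_rootOfUnity hq hA hσ (m := p) (fun h =>
      hpq ((Nat.prime_dvd_prime_iff_eq hq hp).mp h).symm) h5
    rw [map_div₀, hfix, div_left_inj' hπ0] at h6
    exact h6
  have hfixK : ∀ x ∈ K, σ x = x := by
    intro x hx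
    have hle : K ≤ IntermediateField.fixedField (Subgroup.zpowers σ) := by
      show IntermediateField.normalClosure ℚ K₀ Qbar ≤ _
      rw [normalClosure_le_iff]
      intro f
      rintro _ ⟨y, rfl⟩
      rw [IntermediateField.mem_fixedField_iff]
      have h7 : ∀ y, σ (f y) = f y := by
        intro y
        have h8 : ((σ : Qbar →ₐ[ℚ] Qbar).comp f) = f := by
          apply IntermediateField.adjoin_algHom_ext
          rintro z hz
          rw [Set.mem_singleton_iff] at hz
          subst hz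
          show σ (f _) = f _
          refine hroots _ ?_
          rw [← map_pow, ← map_natCast f]
          congr 1
          exact Subtype.ext hπ₀
        exact DFunLike.congr_fun h8 y
      rintro k ⟨n, rfl⟩
      have h9 : ∀ k ∈ Subgroup.zpowers σ, k (f y) = f y := by
        intro k hk
        have : Subgroup.zpowers σ ≤ MulAction.stabilizer GQ (f y) := by
          rw [Subgroup.zpowers_le]
          exact h7 y
        exact this hk
      exact h9 _ ⟨n, rfl⟩
    have h10 := hle hx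
    rw [IntermediateField.mem_fixedField_iff] at h10
    exact h10 σ (Subgroup.mem_zpowers σ)
  ext x
  rw [AlgEquiv.one_apply, ← hgτ, ← hσg _ x.2]
  exact hfixK _ x.2

end Fermat.Agent.TWGal
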