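import Fermat.Agent.TWGal.Gens
import Fermat.Agent.TWGal.Tame

/-!
# Decomposition groups acting through matrices over complete local rings
-/

set_option autoImplicit false
set_option maxHeartbeats 400000

namespace Fermat.Agent.TWGal

open IsLocalRing Matrix Fermat.Agent.DefRing Fermat.Agent.GalRep

local notation "Qbar" => AlgebraicClosure ℚ

section MatPow

variable {R : Type*} [CommRing R]

theorem mat_mul_mem {d : ℕ} {I J : Ideal R} {M N : Matrix (Fin d) (Fin d) R} (hM : ∀ i j, M i j ∈ I)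
    (hN : ∀ i j, N i j ∈ J) (i j : Fin d) : (M * N) i j ∈ I * J := by
  rw [Matrix.mul_apply]
  exact Ideal.sum_mem _ fun l _ => Ideal.mul_mem_mul (hM i l) (hN l j)

theorem mat_mul_left_mem {d : ℕ} {J : Ideal R} (M : Matrix (Fin d) (Fin d) R)
    {N : Matrix (Fin d) (Fin d) R}
    (hN : ∀ i j, N i j ∈ J) (i j : Fin d) : (M * N) i j ∈ J := by
  rw [Matrix.mul_apply]
  exact Ideal.sum_mem _ fun l _ => Ideal.mul_mem_left _ _ (hN l j)

theorem mat_mul_right_mem {d : ℕ} {J : Ideal R} {N : Matrix (Fin d) (Fin d) R}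
    (hN : ∀ i j, N i j ∈ J) (M : Matrix (Fin d) (Fin d) R) (i j : Fin d) : (N * M) i j ∈ J := by
  rw [Matrix.mul_apply]
  exact Ideal.sum_mem _ fun l _ => Ideal.mul_mem_right _ _ (hN i l)

theorem mat_pow_sub_one_mem {d : ℕ} {I : Ideal R} {M : Matrix (Fin d) (Fin d) R}
    (hM : ∀ i j, (M - 1) i j ∈ I) (n : ℕ) (i j : Fin d) : (M ^ n - 1) i j ∈ I := by
  rw [← geom_sum_mul]
  exact mat_mul_left_mem _ hM i j

theorem mat_pow_prime_pow_sub_one_mem {d : ℕ} {I : Ideal R} {p : ℕ} (hp : (p : R) ∈ I)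
    {M : Matrix (Fin d) (Fin d) R}
    (hM : ∀ i j, (M - 1) i j ∈ I) (n : ℕ) (i j : Fin d) : (M ^ p ^ n - 1) i j ∈ I ^ (n + 1) := by
  induction n generalizing i j with
  | zero => simpa using hM i j
  | succ n ih =>
    have e : M ^ p ^ (n + 1) - 1 = (∑ l ∈ Finset.range p, (M ^ p ^ n) ^ l) * (M ^ p ^ n - 1) := by
      rw [geom_sum_mul, ← pow_mul, ← pow_succ]
    rw [e, pow_succ' I]
    refine mat_mul_mem (fun i j => ?_) ih i j
    have h1 : ∑ l ∈ Finset.range p, (M ^ p ^ n) ^ l =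
        (p : Matrix (Fin d) (Fin d) R) + ∑ l ∈ Finset.range p, ((M ^ p ^ n) ^ l - 1) := by
      rw [Finset.sum_sub_distrib, Finset.sum_const, Finset.card_range, nsmul_eq_mul, mul_one]
      abel
    rw [h1, Matrix.add_apply, Matrix.sum_apply]
    refine Ideal.add_mem _ ?_ (Ideal.sum_mem _ fun l _ => ?_)
    · rw [← Matrix.diagonal_natCast, Matrix.diagonal_apply]
      split_ifs
      · exact hp
      · exact I.zero_mem
    · rw [← pow_mul]
      exact mat_pow_sub_one_mem hM _ i j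

end MatPow

section Quo

variable {R : Type} [CommRing R] [IsLocalRing R]

/-- reduction modulo a power of the maximal ideal -/
noncomputable def quoRep (T : GQ →* Matrix (Fin 2) (Fin 2) R) (n : ℕ) :
    GQ →* (Matrix (Fin 2) (Fin 2) (R ⧸ maximalIdeal R ^ n))ˣ :=
  (mapT (Ideal.Quotient.mk (maximalIdeal R ^ n)) T).toHomUnits

variable {T : GQ →* Matrix (Fin 2) (Fin 2) R}

theorem quoRep_val (n : ℕ) (g : GQ) :
    (quoRep T n g : Matrix (Fin 2) (Fin 2) (R ⧸ maximalIdeal R ^ n)) =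
      (Ideal.Quotient.mk (maximalIdeal R ^ n)).mapMatrix (T g) := rfl

theorem mapMatrix_eq_iff {I : Ideal R} (M N : Matrix (Fin 2) (Fin 2) R) :
    (Ideal.Quotient.mk I).mapMatrix M = (Ideal.Quotient.mk I).mapMatrix N ↔
      ∀ i j, (M - N) i j ∈ I := by
  constructor
  · intro h i j
    have := congrFun (congrFun h i) j
    simp only [RingHom.mapMatrix_apply, Matrix.map_apply] at this
    exact Ideal.Quotient.eq.mp this
  · intro h
    ext i j
    simp only [RingHom.mapMatrix_apply, Matrix.map_apply]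
    exact Ideal.Quotient.eq.mpr (h i j)

theorem quoRep_kernel (hT : MatCont T) (n : ℕ) : ∃ K : IntermediateField ℚ Qbar,
    FiniteDimensional ℚ K ∧ ∀ σ : GQ, (∀ x ∈ K, σ x = x) → quoRep T n σ = 1 := by
  obtain ⟨L, hL, h⟩ := hT n
  refine ⟨L, hL, fun σ hσ => ?_⟩
  apply Units.ext
  rw [quoRep_val, Units.val_one, ← map_one (Ideal.Quotient.mk (maximalIdeal R ^ n)).mapMatrix,
    mapMatrix_eq_iff]
  intro i j
  rw [Matrix.sub_apply]
  exact h σ hσ i j

theorem quoRep_p_power {p : ℕ} (hp : (p : R) ∈ maximalIdeal R) {σ : GQ}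
    (hσ : ∀ i j, (T σ - 1) i j ∈ maximalIdeal R) (n : ℕ) :
    ∃ k : ℕ, quoRep T n σ ^ (p ^ k) = 1 := by
  refine ⟨n, ?_⟩
  apply Units.ext
  rw [Units.val_pow_eq_pow_val, quoRep_val, ← map_pow, Units.val_one,
    ← map_one (Ideal.Quotient.mk (maximalIdeal R ^ n)).mapMatrix, mapMatrix_eq_iff]
  intro i j
  exact Ideal.pow_le_pow_right (Nat.le_succ n) (mat_pow_prime_pow_sub_one_mem hp hσ n i j)

variable {A : ValuationSubring Qbar} {p q : ℕ}

/-- approximate generation of the decomposition group -/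
theorem exists_decomp_approx (hT : MatCont T) (hq : q.Prime) (hA : A.LiesOverPrime q)
    (hp : p.Prime) (hpq : p ≠ q) (hpR : (p : R) ∈ maximalIdeal R)
    (hI : ∀ σ ∈ A.inertiaSubgroupIn ℚ, ∀ i j, (T σ - 1) i j ∈ maximalIdeal R)
    {φ σ₀ : GQ} (hφ : A.IsFrobeniusAt φ q) (hσI : σ₀ ∈ A.inertiaSubgroupIn ℚ)
    (hσ₀ : ∀ π : Qbar, π ^ p = q → σ₀ π ≠ π) {g : GQ} (hg : g ∈ A.decompositionSubgroup ℚ)
    (n : ℕ) :
    ∃ h ∈ Subgroup.closure {φ, σ₀}, ∀ i j, (T g - T h) i j ∈ maximalIdeal R ^ n := by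
  obtain ⟨K, hK, hK2⟩ := quoRep_kernel hT n
  obtain ⟨k, j, h⟩ := exists_decomp_eq hq hA hp hpq (quoRep T n) K hK2
    (fun σ hσ => quoRep_p_power hpR (hI σ hσ) n) hφ hσI hσ₀ hg
  refine ⟨φ ^ k * σ₀ ^ j, mul_mem (pow_mem (Subgroup.subset_closure (by simp)) k)
    (zpow_mem (Subgroup.subset_closure (by simp)) j), ?_⟩
  rw [← map_pow, ← map_zpow, ← map_mul] at h
  have := congrArg Units.val h
  rwa [quoRep_val, quoRep_val, mapMatrix_eq_iff] at this

/-- the tame relation -/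
theorem tame_rel [IsHausdorff (maximalIdeal R) R] (hT : MatCont T) (hq : q.Prime)
    (hA : A.LiesOverPrime q)
    (hp : p.Prime) (hpq : p ≠ q) (hpR : (p : R) ∈ maximalIdeal R)
    (hI : ∀ σ ∈ A.inertiaSubgroupIn ℚ, ∀ i j, (T σ - 1) i j ∈ maximalIdeal R)
    {φ σ₀ : GQ} (hφ : A.IsFrobeniusAt φ q) (hσI : σ₀ ∈ A.inertiaSubgroupIn ℚ)
    (hσ₀ : ∀ π : Qbar, π ^ p = q → σ₀ π ≠ π) :
    T φ * T σ₀ = T σ₀ ^ q * T φ := by
  have h1 : T (φ * σ₀ * φ⁻¹) = T σ₀ ^ q := by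
    ext i j
    rw [← sub_eq_zero]
    refine IsHausdorff.haus (inferInstance : IsHausdorff (maximalIdeal R) R) _ fun n => ?_
    rw [SModEq.zero, smul_eq_mul, Ideal.mul_top]
    obtain ⟨K, hK, hK2⟩ := quoRep_kernel hT n
    have h := conj_frob hq hA hp hpq (quoRep T n) K hK2
      (fun σ hσ => quoRep_p_power hpR (hI σ hσ) n) hφ hσI hσ₀
    rw [← map_pow] at h
    have := congrArg Units.val h
    rw [quoRep_val, quoRep_val, mapMatrix_eq_iff] at this
    have := this i j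
    rwa [map_pow, Matrix.sub_apply] at this
  rw [← h1, ← map_mul, ← map_mul, inv_mul_cancel_right]

end Quo

section Coc

variable {O : Type} [CommRing O] [IsLocalRing O] {R : Type} [CommRing R] [IsLocalRing R]
  [Algebra O R] {κ : R →ₐ[O] ResidueField O} {J : Set R} {ℓ : R → ResidueField O}
  {T : GQ →* Matrix (Fin 2) (Fin 2) R} {ρb : GQ →* Matrix (Fin 2) (Fin 2) (ResidueField O)}
  {A : ValuationSubring Qbar} {p q : ℕ}

/-- vanishing of the cocycle on decomposition groups -/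
theorem coc_decomp (hρ : ∀ g, (T g).map κ = ρb g) (h : ℓ ∈ Der κ J)
    (hT : MatCont T) (hq : q.Prime) (hA : A.LiesOverPrime q)
    (hp : p.Prime) (hpq : p ≠ q) (hpR : (p : R) ∈ maximalIdeal R)
    (hI : ∀ σ ∈ A.inertiaSubgroupIn ℚ, ρb σ = 1)
    {φ σ₀ : GQ} (hφ : A.IsFrobeniusAt φ q) (hσI : σ₀ ∈ A.inertiaSubgroupIn ℚ)
    (hσ₀ : ∀ π : Qbar, π ^ p = q → σ₀ π ≠ π)
    (hJφ : ∀ i j, ∃ a : O, T φ i j - algebraMap O R a ∈ J)
    (hJσ : ∀ i j, ∃ a : O, T σ₀ i j - algebraMap O R a ∈ J)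
    {g : GQ} (hg : g ∈ A.decompositionSubgroup ℚ) : coc T ρb ℓ g = 0 := by
  have hI' : ∀ σ ∈ A.inertiaSubgroupIn ℚ, ∀ i j, (T σ - 1) i j ∈ maximalIdeal R := by
    intro σ hσ i j
    have h1 := hρ σ
    rw [hI σ hσ] at h1
    rw [← ker_kappa κ, RingHom.mem_ker, Matrix.sub_apply, map_sub, sub_eq_zero]
    have h2 := congrFun (congrFun h1 i) j
    rw [Matrix.map_apply] at h2
    rw [h2, Matrix.one_apply, Matrix.one_apply]
    split_ifs
    · exact (map_one κ).symm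
    · exact (map_zero κ).symm
  have key : ∀ x : GQ, (∀ i j, ∃ a : O, T x i j - algebraMap O R a ∈ J) → x ∈ cocKer hρ h := by
    intro x hx
    rw [mem_cocKer, coc_eq_zero_iff hρ]
    intro i j
    obtain ⟨a, ha⟩ := hx i j
    have h1 := Der.kill h ha
    rwa [Der.sub h, Der.alg h, sub_zero] at h1
  obtain ⟨x, hx, hgx⟩ := exists_decomp_approx hT hq hA hp hpq hpR hI' hφ hσI hσ₀ hg 2
  have h1 : x ∈ cocKer hρ h := by
    have h2 : Subgroup.closure {φ, σ₀} ≤ cocKer hρ h := by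
      rw [Subgroup.closure_le]
      rintro y (rfl | hy)
      · exact key _ hJφ
      · rw [Set.mem_singleton_iff] at hy
        rw [hy]
        exact key _ hJσ
    exact h2 hx
  rw [mem_cocKer, coc_eq_zero_iff hρ] at h1
  rw [coc_eq_zero_iff hρ]
  intro i j
  have h2 := Der.sq h (a := T g i j - T x i j) (by rw [ker_kappa κ]; exact hgx i j)
  rw [Der.sub h, h1 i j, sub_zero] at h2
  exact h2

/-- the cocycle vanishes on an open subgroup -/
theorem coc_continuous (hρ : ∀ g, (T g).map κ = ρb g) (h : ℓ ∈ Der κ J)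
    (hT : MatCont T) : ∃ L : IntermediateField ℚ Qbar, FiniteDimensional ℚ L ∧
      ∀ σ : GQ, (∀ x ∈ L, σ x = x) → coc T ρb ℓ σ = 0 := by
  obtain ⟨L, hL, h1⟩ := hT 2
  refine ⟨L, hL, fun σ hσ => ?_⟩
  rw [coc_eq_zero_iff hρ]
  intro i j
  have h2 := Der.sq h (a := T σ i j - (1 : Matrix (Fin 2) (Fin 2) R) i j)
    (by rw [ker_kappa κ]; exact h1 σ hσ i j)
  have h3 : ℓ ((1 : Matrix (Fin 2) (Fin 2) R) i j) = 0 := by
    rw [Matrix.one_apply]
    split_ifs
    · exact Der.one h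
    · exact Der.zero h
  rw [Der.sub h, h3, sub_zero] at h2
  exact h2

end Coc

end Fermat.Agent.TWGal
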