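import Fermat.Agent.DefRing.Tangent
import Fermat.Agent.TWPatch.Surj
import Fermat.Agent.TWGal.Rep

/-!
# Generators from the tangent space
-/

set_option autoImplicit false
set_option maxHeartbeats 400000

namespace Fermat.Agent.TWGal

open IsLocalRing Matrix Fermat.Agent.DefRing Fermat.Agent.GalRep

section Sep

/-- a finite dimensional space of functions is separated by few points -/
theorem exists_separating {k X : Type*} [Field k] (P : X → Prop) (L : Submodule k (X → k))
    (hP : ∀ ℓ ∈ L, (∀ x, P x → ℓ x = 0) → ℓ = 0) (g : ℕ) (hfin : FiniteDimensional k L)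
    (hg : Module.finrank k L ≤ g) (hne : ∃ x, P x) :
    ∃ x : Fin g → X, (∀ i, P (x i)) ∧ ∀ ℓ ∈ L, (∀ i, ℓ (x i) = 0) → ℓ = 0 := by
  induction g generalizing L with
  | zero =>
    refine ⟨fun i => i.elim0, fun i => i.elim0, fun ℓ hℓ _ => ?_⟩
    have h1 : L = ⊥ := by
      rw [← Submodule.finrank_eq_zero (R := k)]
      omega
    rw [h1] at hℓ
    exact (Submodule.mem_bot k).mp hℓ
  | succ g ih =>
    by_cases hL : L = ⊥
    · obtain ⟨x₀, hx₀⟩ := hne
      refine ⟨fun _ => x₀, fun _ => hx₀, fun ℓ hℓ _ => ?_⟩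
      rw [hL] at hℓ
      exact (Submodule.mem_bot k).mp hℓ
    · obtain ⟨ℓ₀, hℓ₀, hne0⟩ := (Submodule.ne_bot_iff L).mp hL
      have : ∃ x, P x ∧ ℓ₀ x ≠ 0 := by
        by_contra h
        push Not at h
        exact hne0 (hP ℓ₀ hℓ₀ h)
      obtain ⟨x₀, hx₀, hx₀'⟩ := this
      let L' : Submodule k (X → k) := L ⊓ LinearMap.ker (LinearMap.proj x₀ : (X → k) →ₗ[k] k)
      have hlt : L' < L := by
        refine lt_of_le_of_ne inf_le_left fun h => hx₀' ?_
        have : ℓ₀ ∈ L' := by rw [h]; exact hℓ₀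
        exact this.2
      haveI : FiniteDimensional k L' := Submodule.finiteDimensional_of_le inf_le_left
      have hlt2 : Module.finrank k L' < Module.finrank k L := Submodule.finrank_lt_finrank_of_lt hlt
      obtain ⟨x, hx, hx2⟩ := ih L' (fun ℓ hℓ => hP ℓ hℓ.1) inferInstance (by omega)
      refine ⟨Fin.cons x₀ x, fun i => ?_, fun ℓ hℓ h => ?_⟩
      · refine Fin.cases ?_ (fun i => ?_) i
        · exact hx₀
        · exact hx i
      · refine hx2 ℓ ⟨hℓ, h 0⟩ fun i => ?_
        exact h i.succ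

end Sep

section Gens

variable {O : Type} [CommRing O] [IsLocalRing O] {R : Type} [CommRing R] [Algebra O R]
  (κ : R →ₐ[O] ResidueField O)

/-- `O`-derivations `R → k` killing `J` -/
def Der (J : Set R) : Submodule (ResidueField O) (R → ResidueField O) where
  carrier := {ℓ | (∀ a b, ℓ (a + b) = ℓ a + ℓ b) ∧
    (∀ a b, ℓ (a * b) = κ a * ℓ b + ℓ a * κ b) ∧ (∀ a : O, ℓ (algebraMap O R a) = 0) ∧
    ∀ z ∈ J, ℓ z = 0}
  zero_mem' := ⟨fun a b => by simp, fun a b => by simp, fun a => rfl, fun z _ => rfl⟩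
  add_mem' := by
    rintro ℓ ℓ' ⟨h1, h2, h3, h4⟩ ⟨h1', h2', h3', h4'⟩
    refine ⟨fun a b => ?_, fun a b => ?_, fun a => ?_, fun z hz => ?_⟩
    · simp only [Pi.add_apply, h1, h1']; ring
    · simp only [Pi.add_apply, h2, h2']; ring
    · simp only [Pi.add_apply, h3, h3', add_zero]
    · simp only [Pi.add_apply, h4 z hz, h4' z hz, add_zero]
  smul_mem' := by
    rintro c ℓ ⟨h1, h2, h3, h4⟩
    refine ⟨fun a b => ?_, fun a b => ?_, fun a => ?_, fun z hz => ?_⟩
    · simp only [Pi.smul_apply, h1, smul_eq_mul]; ring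
    · simp only [Pi.smul_apply, h2, smul_eq_mul]; ring
    · simp only [Pi.smul_apply, h3, smul_zero]
    · simp only [Pi.smul_apply, h4 z hz, smul_zero]

variable {κ} {J : Set R} {ℓ : R → ResidueField O}

theorem Der.add (h : ℓ ∈ Der κ J) (a b : R) : ℓ (a + b) = ℓ a + ℓ b := h.1 a b
theorem Der.mul (h : ℓ ∈ Der κ J) (a b : R) : ℓ (a * b) = κ a * ℓ b + ℓ a * κ b := h.2.1 a b
theorem Der.alg (h : ℓ ∈ Der κ J) (a : O) : ℓ (algebraMap O R a) = 0 := h.2.2.1 a
theorem Der.kill (h : ℓ ∈ Der κ J) {z : R} (hz : z ∈ J) : ℓ z = 0 := h.2.2.2 z hz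
theorem Der.zero (h : ℓ ∈ Der κ J) : ℓ 0 = 0 := by
  have := Der.alg h 0
  rwa [map_zero] at this
theorem Der.one (h : ℓ ∈ Der κ J) : ℓ 1 = 0 := by
  have := Der.alg h 1
  rwa [map_one] at this
theorem Der.natCast (h : ℓ ∈ Der κ J) (n : ℕ) : ℓ (n : R) = 0 := by
  have := Der.alg h n
  rwa [map_natCast] at this
theorem Der.neg (h : ℓ ∈ Der κ J) (a : R) : ℓ (-a) = - ℓ a := by
  have := Der.add h a (-a)
  rw [add_neg_cancel, Der.zero h] at this
  exact (neg_eq_of_add_eq_zero_right this.symm).symm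
theorem Der.sub (h : ℓ ∈ Der κ J) (a b : R) : ℓ (a - b) = ℓ a - ℓ b := by
  rw [sub_eq_add_neg, Der.add h, Der.neg h, ← sub_eq_add_neg]

/-- derivations kill the square of the kernel -/
theorem Der.sq (h : ℓ ∈ Der κ J) {a : R} (ha : a ∈ RingHom.ker κ ^ 2) : ℓ a = 0 := by
  rw [pow_two] at ha
  refine Submodule.mul_induction_on ha (fun x hx y hy => ?_) fun x y hx hy => ?_
  · rw [Der.mul h, RingHom.mem_ker.mp hx, RingHom.mem_ker.mp hy, zero_mul, mul_zero, add_zero]
  · rw [Der.add h, hx, hy, add_zero]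

/-- derivations killing generators are zero -/
theorem Der.eq_zero_of_adjoin (h : ℓ ∈ Der κ J) {s : Set R} (hs : ∀ x ∈ s, ℓ x = 0) {a : R}
    (ha : a ∈ Algebra.adjoin O s) : ℓ a = 0 := by
  induction ha using Algebra.adjoin_induction with
  | mem x hx => exact hs x hx
  | algebraMap r => exact Der.alg h r
  | add x y _ _ hx hy => rw [Der.add h, hx, hy, add_zero]
  | mul x y _ _ hx hy => rw [Der.mul h, hx, hy, zero_mul, mul_zero, add_zero]

/-- the homomorphism to the dual numbers -/
noncomputable def dualHom (h : ℓ ∈ Der κ J) : R →ₐ[O] Dk O where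
  toFun a := ((κ a, ℓ a) : ResidueField O × ResidueField O)
  map_one' := by
    apply TrivSqZeroExt.ext (R := ResidueField O) (M := ResidueField O)
    · exact map_one κ
    · exact Der.one h
  map_zero' := by
    apply TrivSqZeroExt.ext (R := ResidueField O) (M := ResidueField O)
    · exact map_zero κ
    · exact Der.zero h
  map_add' p q := by
    apply TrivSqZeroExt.ext (R := ResidueField O) (M := ResidueField O)
    · exact map_add κ p q
    · exact Der.add h p q
  map_mul' p q := by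
    apply TrivSqZeroExt.ext (R := ResidueField O) (M := ResidueField O)
    · exact map_mul κ p q
    · exact Der.mul h p q
  commutes' a := by
    apply TrivSqZeroExt.ext (R := ResidueField O) (M := ResidueField O)
    · exact AlgHom.commutes κ a
    · exact Der.alg h a

theorem dualHom_fst (h : ℓ ∈ Der κ J) (a : R) :
    TrivSqZeroExt.fst (R := ResidueField O) (M := ResidueField O) (dualHom h a) = κ a := rfl

theorem dualHom_snd (h : ℓ ∈ Der κ J) (a : R) :
    TrivSqZeroExt.snd (R := ResidueField O) (M := ResidueField O) (dualHom h a) = ℓ a := rfl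

theorem kappa_surjective (κ : R →ₐ[O] ResidueField O) : Function.Surjective κ := fun c => by
  obtain ⟨a, rfl⟩ := residue_surjective c
  exact ⟨algebraMap O R a, AlgHom.commutes κ a⟩

theorem ker_kappa [IsLocalRing R] (κ : R →ₐ[O] ResidueField O) :
    RingHom.ker κ = maximalIdeal R :=
  IsLocalRing.eq_maximalIdeal (RingHom.ker_isMaximal_of_surjective κ (kappa_surjective κ))

theorem hom_fst [IsLocalRing R] (κ : R →ₐ[O] ResidueField O) (v : R →ₐ[O] Dk O) (a : R) :
    TrivSqZeroExt.fst (R := ResidueField O) (M := ResidueField O) (v a) = κ a := by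
  let f : R →+* ResidueField O :=
    (TrivSqZeroExt.fstHom (ResidueField O) (ResidueField O) (ResidueField O) :
      DualNumber (ResidueField O) →+* ResidueField O).comp (v : R →+* Dk O)
  have hf : ∀ a, f a = TrivSqZeroExt.fst (R := ResidueField O) (M := ResidueField O) (v a) :=
    fun a => rfl
  have hfO : ∀ a : O, f (algebraMap O R a) = residue O a := fun a => by
    rw [hf, AlgHom.commutes]
    rfl
  rw [← hf]
  obtain ⟨c, hc⟩ := residue_surjective (κ a)
  have h1 : a - algebraMap O R c ∈ maximalIdeal R := by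
    rw [← ker_kappa κ, RingHom.mem_ker, map_sub, AlgHom.commutes, ← hc]
    exact sub_self _
  have h2 : RingHom.ker f = maximalIdeal R := by
    refine IsLocalRing.eq_maximalIdeal (RingHom.ker_isMaximal_of_surjective f fun c => ?_)
    obtain ⟨a, rfl⟩ := residue_surjective c
    exact ⟨algebraMap O R a, hfO a⟩
  rw [← h2, RingHom.mem_ker, map_sub, hfO, sub_eq_zero] at h1
  rw [h1, hc]

/-- a homomorphism to the dual numbers gives a derivation -/
theorem der_of_hom [IsLocalRing R] (v : R →ₐ[O] Dk O) (hJ : ∀ z ∈ J, v z = 0) :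
    (fun a => TrivSqZeroExt.snd (R := ResidueField O) (M := ResidueField O) (v a)) ∈ Der κ J := by
  refine ⟨fun a b => ?_, fun a b => ?_, fun a => ?_, fun z hz => ?_⟩
  · change TrivSqZeroExt.snd (R := ResidueField O) (M := ResidueField O) (v (a + b)) = _
    rw [map_add]
    rfl
  · change TrivSqZeroExt.snd (R := ResidueField O) (M := ResidueField O) (v (a * b)) = _
    rw [map_mul]
    change TrivSqZeroExt.fst (R := ResidueField O) (M := ResidueField O) (v a) *
      TrivSqZeroExt.snd (R := ResidueField O) (M := ResidueField O) (v b) +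
      TrivSqZeroExt.snd (R := ResidueField O) (M := ResidueField O) (v a) *
      TrivSqZeroExt.fst (R := ResidueField O) (M := ResidueField O) (v b) = _
    rw [hom_fst κ, hom_fst κ]
  · change TrivSqZeroExt.snd (R := ResidueField O) (M := ResidueField O)
      (v (algebraMap O R a)) = _
    rw [AlgHom.commutes]
    rfl
  · change TrivSqZeroExt.snd (R := ResidueField O) (M := ResidueField O) (v z) = _
    rw [hJ z hz]
    rfl

theorem Der.eq_zero_of_ker (hℓ : ℓ ∈ Der κ J) (h : ∀ x, κ x = 0 → ℓ x = 0) : ℓ = 0 := by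
  funext x
  obtain ⟨c, hc⟩ := residue_surjective (κ x)
  have h1 : ℓ (x - algebraMap O R c) = 0 := h _ (by
    rw [map_sub, AlgHom.commutes, ← hc]; exact sub_self _)
  rw [Der.sub hℓ, Der.alg hℓ, sub_zero] at h1
  exact h1

/-- elements separating derivations generate the maximal ideal -/
theorem gens_of_separating [IsLocalRing R] {g : ℕ} (J : Set R) (hJ : ∀ z ∈ J, κ z = 0)
    (x : Fin g → R) (hx : ∀ i, x i ∈ maximalIdeal R)
    (hx2 : ∀ ℓ ∈ Der κ J, (∀ i, ℓ (x i) = 0) → ℓ = 0) :
    maximalIdeal R ≤ Ideal.span (Set.range x) ⊔ Ideal.span J ⊔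
        (maximalIdeal O).map (algebraMap O R) ⊔ maximalIdeal R ^ 2 := by
  have hker : RingHom.ker κ = maximalIdeal R := ker_kappa κ
  set W := Ideal.span (Set.range x) ⊔ Ideal.span J ⊔
        (maximalIdeal O).map (algebraMap O R) ⊔ maximalIdeal R ^ 2 with hW
  intro y hy
  by_contra hyW
  have hWle : W ≤ RingHom.ker κ := by
    rw [hW]
    refine sup_le (sup_le (sup_le ?_ ?_) ?_) ?_
    · rw [Ideal.span_le, hker]
      rintro _ ⟨i, rfl⟩
      exact hx i
    · rw [Ideal.span_le]
      intro z hz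
      exact hJ z hz
    · rw [Ideal.map_le_iff_le_comap]
      intro a ha
      rw [Ideal.mem_comap, RingHom.mem_ker, AlgHom.commutes]
      exact (IsLocalRing.residue_eq_zero_iff a).mpr ha
    · rw [hker]
      exact Ideal.pow_le_self two_ne_zero
  obtain ⟨v, hv, hvy⟩ := exists_dual κ W hWle (by rw [hker]; exact le_sup_right)
    (le_sup_right.trans le_sup_left) y (by rw [hker]; exact hy) hyW
  have h1 := der_of_hom (κ := κ) (J := J) v (fun z hz => hv
    (Ideal.mem_sup_left (Ideal.mem_sup_left (Ideal.mem_sup_right (Ideal.subset_span hz)))))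
  have h2 := hx2 _ h1 (fun i => by
    change TrivSqZeroExt.snd (R := ResidueField O) (M := ResidueField O) (v (x i)) = 0
    have : v (x i) = 0 := hv (Ideal.mem_sup_left (Ideal.mem_sup_left (Ideal.mem_sup_left
      (Ideal.subset_span ⟨i, rfl⟩))))
    rw [this]
    rfl)
  apply hvy
  apply TrivSqZeroExt.ext (R := ResidueField O) (M := ResidueField O)
  · rw [hom_fst κ]
    rw [← hker, RingHom.mem_ker] at hy
    exact hy
  · exact congrFun h2 y

/-- generators of the maximal ideal from a bound on derivations -/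
theorem exists_gens [IsLocalRing R] (J : Set R) (hJ : ∀ z ∈ J, κ z = 0) (g : ℕ)
    (hfin : FiniteDimensional (ResidueField O) (Der κ J))
    (hg : Module.finrank (ResidueField O) (Der κ J) ≤ g) :
    ∃ x : Fin g → R, (∀ i, x i ∈ maximalIdeal R) ∧
      maximalIdeal R ≤ Ideal.span (Set.range x) ⊔ Ideal.span J ⊔
        (maximalIdeal O).map (algebraMap O R) ⊔ maximalIdeal R ^ 2 := by
  have hker : RingHom.ker κ = maximalIdeal R := ker_kappa κ
  obtain ⟨x, hx, hx2⟩ := exists_separating (fun x => κ x = 0) (Der κ J)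
    (fun ℓ hℓ h => Der.eq_zero_of_ker hℓ h) g hfin hg ⟨0, map_zero κ⟩
  have hx' : ∀ i, x i ∈ maximalIdeal R := fun i => by rw [← hker]; exact hx i
  exact ⟨x, hx', gens_of_separating J hJ x hx' hx2⟩

/-! ### Cocycles -/

section Coc

variable {G : Type*} [Group G] (T : G →* Matrix (Fin 2) (Fin 2) R)
  (ρb : G →* Matrix (Fin 2) (Fin 2) (ResidueField O))

/-- the cocycle attached to a derivation -/
noncomputable def coc (ℓ : R → ResidueField O) (g : G) : Matrix (Fin 2) (Fin 2) (ResidueField O) :=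
  (T g).map ℓ * ρb g⁻¹

variable {T ρb}

theorem map_der_mul (h : ℓ ∈ Der κ J) (M N : Matrix (Fin 2) (Fin 2) R) :
    (M * N).map ℓ = M.map κ * N.map ℓ + M.map ℓ * N.map κ := by
  ext i j
  simp only [Matrix.map_apply, Matrix.mul_apply, Fin.sum_univ_two, Matrix.add_apply, Der.add h,
    Der.mul h]
  ring

theorem map_der_one (h : ℓ ∈ Der κ J) : (1 : Matrix (Fin 2) (Fin 2) R).map ℓ = 0 := by
  ext i j
  rw [Matrix.map_apply, Matrix.zero_apply, Matrix.one_apply]
  split_ifs
  · exact Der.one h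
  · exact Der.zero h

theorem coc_mul_rho (hρ : ∀ g, (T g).map κ = ρb g) (ℓ : R → ResidueField O) (g : G) :
    coc T ρb ℓ g * ρb g = (T g).map ℓ := by
  rw [coc, mul_assoc, ← map_mul, inv_mul_cancel, map_one, mul_one]

theorem coc_mul (hρ : ∀ g, (T g).map κ = ρb g) (h : ℓ ∈ Der κ J) (g g' : G) :
    coc T ρb ℓ (g * g') = coc T ρb ℓ g + ρb g * coc T ρb ℓ g' * ρb g⁻¹ := by
  rw [coc, coc, coc, map_mul, map_der_mul h, hρ, hρ, _root_.mul_inv_rev, map_mul, add_mul,
    add_comm]
  congr 1
  · rw [mul_assoc, ← mul_assoc (ρb g'), ← map_mul, mul_inv_cancel, map_one, one_mul]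
  · simp only [mul_assoc]

theorem trace_coc (hρ : ∀ g, (T g).map κ = ρb g) (h : ℓ ∈ Der κ J) {g : G} {d : O}
    (hd : (T g).det = algebraMap O R d) : (coc T ρb ℓ g).trace = 0 := by
  have h1 : ℓ (T g).det = 0 := by rw [hd, Der.alg h]
  have h2 : (ρb g).det * (coc T ρb ℓ g).trace = ℓ (T g).det := by
    have h3 := coc_mul_rho hρ ℓ g
    have h5 : ∀ i j, ℓ (T g i j) = coc T ρb ℓ g i 0 * ρb g 0 j + coc T ρb ℓ g i 1 * ρb g 1 j := by
      intro i j
      have := congrFun (congrFun h3 i) j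
      rw [Matrix.mul_apply, Fin.sum_univ_two, Matrix.map_apply] at this
      exact this.symm
    have h6 : ∀ i j, κ (T g i j) = ρb g i j := fun i j => by rw [← hρ, Matrix.map_apply]
    rw [Matrix.det_fin_two (T g), Der.sub h, Der.mul h, Der.mul h, Matrix.trace_fin_two,
      Matrix.det_fin_two]
    simp only [h5, h6]
    ring
  have h3 : (ρb g).det ≠ 0 := by
    intro h0
    have h4 : (ρb g * ρb g⁻¹).det = 1 := by rw [← map_mul, mul_inv_cancel, map_one, Matrix.det_one]
    rw [Matrix.det_mul, h0, zero_mul] at h4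
    exact zero_ne_one h4
  rw [h1] at h2
  exact (mul_eq_zero.mp h2).resolve_left h3

/-- the trace of the cocycle times `ρb` -/
theorem trace_coc_mul (hρ : ∀ g, (T g).map κ = ρb g) (h : ℓ ∈ Der κ J) (g : G) :
    (coc T ρb ℓ g * ρb g).trace = ℓ (T g).trace := by
  rw [coc_mul_rho hρ, Matrix.trace_fin_two, Matrix.trace_fin_two, Der.add h]
  rfl

theorem coc_eq_zero_iff (hρ : ∀ g, (T g).map κ = ρb g) (g : G) :
    coc T ρb ℓ g = 0 ↔ ∀ i j, ℓ (T g i j) = 0 := by
  constructor
  · intro h0 i j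
    have h3 := coc_mul_rho hρ ℓ g
    rw [h0, zero_mul] at h3
    exact (congrFun (congrFun h3 i) j).symm
  · intro h0
    rw [coc]
    have : (T g).map ℓ = 0 := by
      ext i j
      exact h0 i j
    rw [this, zero_mul]

/-- the set of `g` with `ℓ (T g) = 0` is a subgroup -/
def cocKer (hρ : ∀ g, (T g).map κ = ρb g) (h : ℓ ∈ Der κ J) : Subgroup G where
  carrier := {g | coc T ρb ℓ g = 0}
  mul_mem' := by
    intro a b ha hb
    rw [Set.mem_setOf_eq] at *
    rw [coc_mul hρ h, ha, hb, mul_zero, zero_mul, add_zero]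
  one_mem' := by
    rw [Set.mem_setOf_eq, coc, map_one, map_der_one h, zero_mul]
  inv_mem' := by
    intro a ha
    rw [Set.mem_setOf_eq] at *
    have h1 := coc_mul hρ h a a⁻¹
    rw [mul_inv_cancel, ha, zero_add] at h1
    have h2 : coc T ρb ℓ 1 = 0 := by rw [coc, map_one, map_der_one h, zero_mul]
    rw [h2] at h1
    have h3 : ρb a⁻¹ * (ρb a * coc T ρb ℓ a⁻¹ * ρb a⁻¹) * ρb a = 0 := by
      rw [← h1, mul_zero, zero_mul]
    have h4 : ρb a⁻¹ * ρb a = 1 := by rw [← map_mul, inv_mul_cancel, map_one]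
    rw [← mul_assoc, ← mul_assoc, h4, one_mul, mul_assoc, h4, mul_one] at h3
    exact h3

theorem mem_cocKer (hρ : ∀ g, (T g).map κ = ρb g) (h : ℓ ∈ Der κ J) (g : G) :
    g ∈ cocKer hρ h ↔ coc T ρb ℓ g = 0 := Iff.rfl

/-- **tangent space bound**, general form -/
theorem finrank_der_le' (hρ : ∀ g, (T g).map κ = ρb g)
    (hspan : Submodule.span (ResidueField O) (Set.range ρb) = ⊤)
    (h2 : (2 : ResidueField O) ≠ 0)
    (hinj : ∀ ℓ ∈ Der κ J, ∀ X : Matrix (Fin 2) (Fin 2) (ResidueField O),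
      (∀ g, (T g).map ℓ + (X * ρb g - ρb g * X) = 0) → ℓ = 0)
    (Z : Submodule (ResidueField O) (G → Matrix (Fin 2) (Fin 2) (ResidueField O)))
    [FiniteDimensional (ResidueField O) Z] {g : ℕ}
    (hZ : Module.finrank (ResidueField O) Z ≤ g + 3)
    (hcob : ∀ X : Matrix (Fin 2) (Fin 2) (ResidueField O), X.trace = 0 →
      ∀ c ∈ Z, (fun g => c g + (X - ρb g * X * ρb g⁻¹)) ∈ Z)
    (hc : ∀ ℓ ∈ Der κ J, coc T ρb ℓ ∈ Z) :
    FiniteDimensional (ResidueField O) (Der κ J) ∧
      Module.finrank (ResidueField O) (Der κ J) ≤ g := by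
  let k := ResidueField O
  -- the map
  let F : (Der κ J) × (Fin 3 → k) →ₗ[k] Z :=
    { toFun := fun x => ⟨fun g => coc T ρb x.1.1 g + (!![x.2 0, x.2 1; x.2 2, -x.2 0] -
          ρb g * !![x.2 0, x.2 1; x.2 2, -x.2 0] * ρb g⁻¹), hcob _ (by
            rw [Matrix.trace_fin_two_of, add_neg_cancel]) _ (hc _ x.1.2)⟩
      map_add' := by
        rintro ⟨⟨ℓ, hℓ⟩, u⟩ ⟨⟨ℓ', hℓ'⟩, u'⟩
        apply Subtype.ext
        funext g
        change coc T ρb (ℓ + ℓ') g + (!![u 0 + u' 0, u 1 + u' 1; u 2 + u' 2, -(u 0 + u' 0)] -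
          ρb g * !![u 0 + u' 0, u 1 + u' 1; u 2 + u' 2, -(u 0 + u' 0)] * ρb g⁻¹) =
          (coc T ρb ℓ g + (!![u 0, u 1; u 2, -u 0] - ρb g * !![u 0, u 1; u 2, -u 0] * ρb g⁻¹)) +
          (coc T ρb ℓ' g + (!![u' 0, u' 1; u' 2, -u' 0] -
            ρb g * !![u' 0, u' 1; u' 2, -u' 0] * ρb g⁻¹))
        have e1 : coc T ρb (ℓ + ℓ') g = coc T ρb ℓ g + coc T ρb ℓ' g := by
          rw [coc, coc, coc, ← add_mul]
          rfl
        have e2 : (!![u 0 + u' 0, u 1 + u' 1; u 2 + u' 2, -(u 0 + u' 0)] :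
            Matrix (Fin 2) (Fin 2) k) = !![u 0, u 1; u 2, -u 0] +
            !![u' 0, u' 1; u' 2, -u' 0] := by
          ext i j
          fin_cases i <;> fin_cases j <;> simp <;> ring
        rw [e1, e2]
        noncomm_ring
      map_smul' := by
        rintro a ⟨⟨ℓ, hℓ⟩, u⟩
        apply Subtype.ext
        funext g
        change coc T ρb (a • ℓ) g + (!![a * u 0, a * u 1; a * u 2, -(a * u 0)] -
          ρb g * !![a * u 0, a * u 1; a * u 2, -(a * u 0)] * ρb g⁻¹) =
          a • (coc T ρb ℓ g + (!![u 0, u 1; u 2, -u 0] -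
            ρb g * !![u 0, u 1; u 2, -u 0] * ρb g⁻¹))
        have e1 : coc T ρb (a • ℓ) g = a • coc T ρb ℓ g := by
          rw [coc, coc, ← Matrix.smul_mul]
          rfl
        have e2 : (!![a * u 0, a * u 1; a * u 2, -(a * u 0)] :
            Matrix (Fin 2) (Fin 2) k) = a • !![u 0, u 1; u 2, -u 0] := by
          ext i j
          fin_cases i <;> fin_cases j <;> simp
          exact (mul_neg a (u 0)).symm
        rw [e1, e2, smul_add, smul_sub, Matrix.mul_smul, Matrix.smul_mul] }
  have hF : Function.Injective F := by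
    rw [← LinearMap.ker_eq_bot, LinearMap.ker_eq_bot']
    rintro ⟨⟨ℓ, hℓ⟩, u⟩ h0
    set X : Matrix (Fin 2) (Fin 2) k := !![u 0, u 1; u 2, -u 0] with hX
    have h1 : ∀ g, coc T ρb ℓ g + (X - ρb g * X * ρb g⁻¹) = 0 := fun g =>
      congrFun (congrArg Subtype.val h0) g
    have h3 : ∀ g, (T g).map ℓ + (X * ρb g - ρb g * X) = 0 := by
      intro g
      have h4 := congrArg (fun M => M * ρb g) (h1 g)
      simp only [zero_mul, add_mul, sub_mul] at h4
      rw [coc_mul_rho hρ, mul_assoc (ρb g * X), ← map_mul, inv_mul_cancel, map_one, mul_one] at h4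
      exact h4
    have h6 : ℓ = 0 := hinj ℓ hℓ X h3
    have h7 : ∀ g, X * ρb g = ρb g * X := by
      intro g
      have h8 := h3 g
      have h9 : (T g).map ℓ = 0 := by
        rw [h6]
        ext i j
        rfl
      rw [h9, zero_add, sub_eq_zero] at h8
      exact h8
    have h8 : ∀ Y : Matrix (Fin 2) (Fin 2) k, X * Y = Y * X := by
      intro Y
      have hY : Y ∈ Submodule.span k (Set.range ρb) := by rw [hspan]; trivial
      induction hY using Submodule.span_induction with
      | mem y hy => obtain ⟨g, rfl⟩ := hy; exact h7 g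
      | zero => rw [mul_zero, zero_mul]
      | add y z _ _ hy hz => rw [mul_add, add_mul, hy, hz]
      | smul a y _ hy => rw [Matrix.mul_smul, Matrix.smul_mul, hy]
    have h9 := h8 !![0, 1; 0, 0]
    have h10 := h8 !![0, 0; 1, 0]
    rw [hX, Matrix.mul_fin_two, Matrix.mul_fin_two] at h9 h10
    have e0 := congrFun (congrFun h9 0) 0
    have e1 := congrFun (congrFun h9 0) 1
    have e2 := congrFun (congrFun h10 0) 0
    simp at e0 e1 e2
    have hu0 : u 0 = 0 := by
      have : (2 : k) * u 0 = 0 := by linear_combination e1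
      exact (mul_eq_zero.mp this).resolve_left h2
    have hu : u = 0 := by
      funext i
      fin_cases i
      · exact hu0
      · exact e2
      · exact e0.symm
    refine Prod.ext ?_ ?_
    · exact Subtype.ext h6
    · exact hu
  haveI h11 : FiniteDimensional k ((Der κ J) × (Fin 3 → k)) := FiniteDimensional.of_injective F hF
  have h12 : FiniteDimensional k (Der κ J) :=
    FiniteDimensional.of_surjective (LinearMap.fst k (Der κ J) (Fin 3 → k)) (fun x => ⟨(x, 0), rfl⟩)
  refine ⟨h12, ?_⟩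
  have h13 := LinearMap.finrank_le_finrank_of_injective hF
  rw [Module.finrank_prod, Module.finrank_fin_fun] at h13
  have h14 : Module.finrank k (Der κ J) + 3 ≤ g + 3 := h13.trans hZ
  exact Nat.le_of_add_le_add_right h14

/-- **tangent space bound** -/
theorem finrank_der_le [IsLocalRing R] (hρ : ∀ g, (T g).map κ = ρb g)
    (hspan : Submodule.span (ResidueField O) (Set.range ρb) = ⊤)
    (h2 : (2 : ResidueField O) ≠ 0)
    (hgen : ∀ a : R, ∃ b ∈ Algebra.adjoin O (Set.range fun g => (T g).trace),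
      a - b ∈ maximalIdeal R ^ 2)
    (Z : Submodule (ResidueField O) (G → Matrix (Fin 2) (Fin 2) (ResidueField O)))
    [FiniteDimensional (ResidueField O) Z] {g : ℕ}
    (hZ : Module.finrank (ResidueField O) Z ≤ g + 3)
    (hcob : ∀ X : Matrix (Fin 2) (Fin 2) (ResidueField O), X.trace = 0 →
      ∀ c ∈ Z, (fun g => c g + (X - ρb g * X * ρb g⁻¹)) ∈ Z)
    (hc : ∀ ℓ ∈ Der κ J, coc T ρb ℓ ∈ Z) :
    FiniteDimensional (ResidueField O) (Der κ J) ∧
      Module.finrank (ResidueField O) (Der κ J) ≤ g := by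
  refine finrank_der_le' hρ hspan h2 (fun ℓ hℓ X h3 => ?_) Z hZ hcob hc
  have h5 : ∀ g, ℓ (T g).trace = 0 := by
    intro g
    have h6 := congrArg Matrix.trace (h3 g)
    rw [Matrix.trace_add, Matrix.trace_sub, Matrix.trace_mul_comm X, sub_self, add_zero,
      Matrix.trace_zero] at h6
    rw [← h6, Matrix.trace_fin_two, Matrix.trace_fin_two, Der.add hℓ]
    rfl
  funext a
  obtain ⟨b, hb, hab⟩ := hgen a
  have h7 : ℓ b = 0 := Der.eq_zero_of_adjoin hℓ (by
    rintro _ ⟨g, rfl⟩
    exact h5 g) hb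
  have h8 : ℓ (a - b) = 0 := Der.sq hℓ (by rw [ker_kappa κ]; exact hab)
  rw [Der.sub hℓ, h7, sub_zero] at h8
  exact h8

end Coc

end Gens

section Surj

open Fermat.Agent.TWPatch

/-- **surjectivity** -/
theorem surjective_of_gens {O : Type} [CommRing O] [IsLocalRing O] {R : Type} [CommRing R]
    [Algebra O R] [CNL R] {𝓡 : Type*} [CommRing 𝓡] [CNL 𝓡] (κ : R →ₐ[O] ResidueField O)
    (J : Set R) {g : ℕ} {x : Fin g → R}
    (hx : maximalIdeal R ≤ Ideal.span (Set.range x) ⊔ Ideal.span J ⊔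
        (maximalIdeal O).map (algebraMap O R) ⊔ maximalIdeal R ^ 2)
    (Φ : 𝓡 →+* R) [IsLocalHom Φ] (C : O →+* 𝓡) (hC : ∀ a, Φ (C a) = algebraMap O R a)
    (hJ : ∀ z ∈ J, z ∈ (maximalIdeal 𝓡).map Φ) (hxi : ∀ i, x i ∈ (maximalIdeal 𝓡).map Φ) :
    Function.Surjective Φ := by
  refine surjective_of_cotangent Φ (fun b => ?_) (hx.trans ?_)
  · obtain ⟨c, hc⟩ := residue_surjective (κ b)
    refine ⟨C c, ?_⟩
    rw [hC, ← ker_kappa κ, RingHom.mem_ker, map_sub, AlgHom.commutes, ← hc]
    exact sub_self _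
  · refine sup_le (sup_le (sup_le ?_ ?_) ?_) le_sup_right
    · refine le_trans ?_ le_sup_left
      rw [Ideal.span_le]
      rintro _ ⟨i, rfl⟩
      exact hxi i
    · refine le_trans ?_ le_sup_left
      rw [Ideal.span_le]
      intro z hz
      exact hJ z hz
    · refine le_trans ?_ le_sup_left
      rw [Ideal.map_le_iff_le_comap]
      intro a ha
      rw [Ideal.mem_comap, ← hC]
      refine Ideal.mem_map_of_mem Φ ?_
      by_contra h
      have h1 : IsUnit (C a) := by
        by_contra h2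
        exact h h2
      have h2 := h1.map Φ
      rw [hC] at h2
      have h3 := h2.map (κ : R →+* ResidueField O)
      have h4 : (κ : R →+* ResidueField O) (algebraMap O R a) = 0 := by
        change κ (algebraMap O R a) = 0
        rw [AlgHom.commutes]
        exact (IsLocalRing.residue_eq_zero_iff a).mpr ha
      rw [h4] at h3
      exact not_isUnit_zero h3

end Surj

end Fermat.Agent.TWGal
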