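import Fermat.Agent.TWGal.GensLift
import Fermat.Agent.TWGal.Local
import Fermat.Agent.TWLoc.Package
import Fermat.Agent.TWPatch.Main
import Fermat.Agent.TWPatch.Group

/-!
# The core of the Taylor-Wiles-Kisin-Taylor argument
-/

set_option autoImplicit false
set_option maxHeartbeats 400000

namespace Fermat.Agent.TWGal

open IsLocalRing Matrix Fermat.Agent.DefRing Fermat.Agent.GalRep Fermat.Agent.TWPatch
  Fermat.Agent.TWLoc

local notation "Qbar" => AlgebraicClosure ℚ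

/-- local data at the auxiliary bad primes -/
structure LocD (p : ℕ) (ι : Type) where
  q : ι → ℕ
  hq : ∀ i, (q i).Prime
  hpq : ∀ i, p ≠ q i
  A : ι → ValuationSubring Qbar
  hA : ∀ i, (A i).LiesOverPrime (q i)
  φ : ι → GQ
  hφ : ∀ i, (A i).IsFrobeniusAt (φ i) (q i)
  σ : ι → GQ
  hσ : ∀ i, σ i ∈ (A i).inertiaSubgroupIn ℚ
  hσ' : ∀ i, ∀ π : Qbar, π ^ p = q i → σ i π ≠ π

section

variable {p : ℕ} {ι : Type} (L : LocD p ι) {O : Type} [CommRing O]

/-- the entries killed by framed derivations -/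
def jset (ε : ι → O) {R : Type} [CommRing R] [Algebra O R]
    (T : GQ →* Matrix (Fin 2) (Fin 2) R) : Set R :=
  {z | ∃ i a b, z = (T (L.φ i) - algebraMap O R (ε i) • (1 : Matrix (Fin 2) (Fin 2) R)) a b} ∪
    {z | ∃ i a b, z = (T (L.σ i) - 1) a b}

variable {L}

theorem jset_map {ε : ι → O} {R R₀ : Type} [CommRing R] [CommRing R₀] [Algebra O R] [Algebra O R₀]
    {T : GQ →* Matrix (Fin 2) (Fin 2) R} {T₀ : GQ →* Matrix (Fin 2) (Fin 2) R₀} (β : R →ₐ[O] R₀)
    (hβT : ∀ g, (T g).map β = T₀ g) : β '' jset L ε T = jset L ε T₀ := by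
  have h1 : ∀ g (c : O) (a b : Fin 2), β ((T g - algebraMap O R c •
      (1 : Matrix (Fin 2) (Fin 2) R)) a b) = (T₀ g - algebraMap O R₀ c •
      (1 : Matrix (Fin 2) (Fin 2) R₀)) a b := by
    intro g c a b
    rw [← hβT, Matrix.sub_apply, Matrix.sub_apply, map_sub, Matrix.smul_apply, Matrix.smul_apply,
      smul_eq_mul, smul_eq_mul, map_mul, AlgHom.commutes, Matrix.map_apply, Matrix.one_apply,
      Matrix.one_apply]
    split_ifs
    · rw [map_one]
    · rw [map_zero]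
  have h2 : ∀ g (a b : Fin 2), β ((T g - 1) a b) = (T₀ g - 1) a b := by
    intro g a b
    have := h1 g 1 a b
    rwa [map_one, map_one, one_smul, one_smul] at this
  ext z
  constructor
  · rintro ⟨_, ⟨i, a, b, rfl⟩ | ⟨i, a, b, rfl⟩, rfl⟩
    · exact Or.inl ⟨i, a, b, h1 _ _ _ _⟩
    · exact Or.inr ⟨i, a, b, h2 _ _ _⟩
  · rintro (⟨i, a, b, rfl⟩ | ⟨i, a, b, rfl⟩)
    · exact ⟨_, Or.inl ⟨i, a, b, rfl⟩, h1 _ _ _ _⟩
    · exact ⟨_, Or.inr ⟨i, a, b, rfl⟩, h2 _ _ _⟩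

variable [CNL O] {κ' : Type}

/-- the residual condition -/
def ResCond (L : LocD p ι) (ε : ι → O) (ρb : GQ →* Matrix (Fin 2) (Fin 2) (ResidueField O)) :
    Prop :=
  (∀ i, ρb (L.φ i) = residue O (ε i) • (1 : Matrix (Fin 2) (Fin 2) (ResidueField O))) ∧
    ∀ i, ∀ σ ∈ (L.A i).inertiaSubgroupIn ℚ, ρb σ = 1

variable {ε : ι → O} {ρb : GQ →* Matrix (Fin 2) (Fin 2) (ResidueField O)}
  {R : Type} [CommRing R] [CNL R] [Algebra O R] {κ : R →ₐ[O] ResidueField O}
  {T : GQ →* Matrix (Fin 2) (Fin 2) R}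

theorem mem_of_kappa (κ : R →ₐ[O] ResidueField O) {x : R} (h : κ x = 0) : x ∈ maximalIdeal R := by
  rw [← ker_kappa κ]; exact h

theorem phi_sub_mem (hres : ResCond L ε ρb) (hρ : ∀ g, (T g).map κ = ρb g) (i : ι) (a b : Fin 2) :
    (T (L.φ i) - algebraMap O R (ε i) • (1 : Matrix (Fin 2) (Fin 2) R)) a b ∈ maximalIdeal R := by
  apply mem_of_kappa κ
  have h1 := congrFun (congrFun (hρ (L.φ i)) a) b
  rw [hres.1 i, Matrix.map_apply, Matrix.smul_apply, smul_eq_mul] at h1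
  rw [Matrix.sub_apply, map_sub, Matrix.smul_apply, smul_eq_mul, map_mul, AlgHom.commutes, h1,
    sub_eq_zero, Matrix.one_apply, Matrix.one_apply]
  split_ifs
  · rw [map_one]; rfl
  · rw [map_zero]; rfl

theorem sigma_sub_mem (hres : ResCond L ε ρb) (hρ : ∀ g, (T g).map κ = ρb g) (i : ι)
    {σ : GQ} (hσ : σ ∈ (L.A i).inertiaSubgroupIn ℚ) (a b : Fin 2) :
    (T σ - 1) a b ∈ maximalIdeal R := by
  apply mem_of_kappa κ
  have h1 := congrFun (congrFun (hρ σ) a) b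
  rw [hres.2 i σ hσ, Matrix.map_apply] at h1
  rw [Matrix.sub_apply, map_sub, h1, sub_eq_zero, Matrix.one_apply, Matrix.one_apply]
  split_ifs
  · rw [map_one]
  · rw [map_zero]

theorem jset_kappa (hres : ResCond L ε ρb) (hρ : ∀ g, (T g).map κ = ρb g) :
    ∀ z ∈ jset L ε T, κ z = 0 := by
  have h0 : ∀ x ∈ maximalIdeal R, κ x = 0 := fun x hx => by
    rw [← ker_kappa κ] at hx; exact hx
  rintro z (⟨i, a, b, rfl⟩ | ⟨i, a, b, rfl⟩)
  · exact h0 _ (phi_sub_mem hres hρ i a b)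
  · exact h0 _ (sigma_sub_mem hres hρ i (L.hσ i) a b)

theorem isLocalHom_algebraMap (κ : R →ₐ[O] ResidueField O) : IsLocalHom (algebraMap O R) := by
  constructor
  intro a ha
  have h1 := ha.map κ
  rw [AlgHom.commutes] at h1
  exact isUnit_of_map_unit (residue O) a h1

variable {n g : ℕ} (e : (ι × Fin 6) ⊕ Fin g ≃ Fin n)

/-- **evaluation at level `n`** -/
theorem exists_ev (h2 : IsUnit (2 : O)) (hε : ∀ i, ε i ^ 2 = 1)
    (hqO : ∀ i, (L.q i : O) - 1 ∈ maximalIdeal O)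
    (hres : ResCond L ε ρb) (hρ : ∀ g, (T g).map κ = ρb g)
    (hdet : ∀ i, (T (L.φ i)).det = (L.q i : R)) (hdetσ : ∀ i, (T (L.σ i)).det = 1)
    (x : Fin g → R) (hx : ∀ i, x i ∈ maximalIdeal R)
    (hgen : maximalIdeal R ≤ Ideal.span (Set.range x) ⊔ Ideal.span (jset L ε T) ⊔
        (maximalIdeal O).map (algebraMap O R) ⊔ maximalIdeal R ^ 2) :
    ∃ ev : MvPowerSeries (Fin n) O →+* R, IsLocalHom ev ∧ Function.Surjective ev ∧
      (∀ a, ev (MvPowerSeries.C a) = algebraMap O R a) ∧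
      (∀ i, (FU e (fun i => (L.q i : O)) ε i).map ev = T (L.φ i)) ∧
      (∀ i, (SU e i).map ev = T (L.σ i)) ∧
      ∀ k, ev (MvPowerSeries.X (e (Sum.inr k))) = x k := by
  haveI := isLocalHom_algebraMap κ
  obtain ⟨ev, hloc, hC, hF, hS, hX⟩ := exists_lift e h2 hε hqO (algebraMap O R)
    (fun i => T (L.φ i)) (fun i => T (L.σ i)) (phi_sub_mem hres hρ)
    (fun i a b => sigma_sub_mem hres hρ i (L.hσ i) a b)
    (fun i => by rw [hdet, map_natCast]) hdetσ x hx
  refine ⟨ev, hloc, ?_, hC, hF, hS, hX⟩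
  refine surjective_of_gens κ (jset L ε T) hgen ev MvPowerSeries.C hC ?_ ?_
  · rintro z (⟨i, a, b, rfl⟩ | ⟨i, a, b, rfl⟩)
    · have h3 := FU_sub_mem (O := O) (q := fun i => (L.q i : O)) e h2 hε i le_rfl
        (fun j => xv_mem e i j) (Cq_mem (q := fun i => (L.q i : O)) hqO i) a b
      have h4 := Ideal.mem_map_of_mem ev h3
      convert h4 using 1
      rw [← hF i, Matrix.sub_apply, Matrix.sub_apply, map_sub, Matrix.smul_apply, Matrix.smul_apply,
        smul_eq_mul, smul_eq_mul, map_mul, hC, Matrix.map_apply, Matrix.one_apply,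
        Matrix.one_apply]
      split_ifs
      · rw [map_one]
      · rw [map_zero]
    · have h3 := SU_sub_mem (O := O) e h2 i le_rfl (fun j => xv_mem e i j) a b
      have h4 := Ideal.mem_map_of_mem ev h3
      convert h4 using 1
      rw [← hS i, Matrix.sub_apply, Matrix.sub_apply, map_sub, Matrix.map_apply, Matrix.one_apply,
        Matrix.one_apply]
      split_ifs
      · rw [map_one]
      · rw [map_zero]
  · intro k
    rw [← hX k]
    exact Ideal.mem_map_of_mem ev (X_mem _)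

/-- compatible evaluations -/
theorem exists_ev_lift {R₀ : Type} [CommRing R₀] [CNL R₀] [Algebra O R₀]
    {κ₀ : R₀ →ₐ[O] ResidueField O} {T₀ : GQ →* Matrix (Fin 2) (Fin 2) R₀}
    (h2 : IsUnit (2 : O)) (hε : ∀ i, ε i ^ 2 = 1)
    (hqO : ∀ i, (L.q i : O) - 1 ∈ maximalIdeal O)
    (hres : ResCond L ε ρb) (hρ : ∀ g, (T g).map κ = ρb g)
    (hdet : ∀ i, (T (L.φ i)).det = (L.q i : R)) (hdetσ : ∀ i, (T (L.σ i)).det = 1)
    (β : R →ₐ[O] R₀) (hβ : Function.Surjective β) (hβT : ∀ g, (T g).map β = T₀ g)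
    (hfin : FiniteDimensional (ResidueField O) (Der κ (jset L ε T)))
    (hg : Module.finrank (ResidueField O) (Der κ (jset L ε T)) ≤ g)
    {ev₀ : MvPowerSeries (Fin n) O →+* R₀} [IsLocalHom ev₀]
    (hC₀ : ∀ a, ev₀ (MvPowerSeries.C a) = algebraMap O R₀ a)
    (hF₀ : ∀ i, (FU e (fun i => (L.q i : O)) ε i).map ev₀ = T₀ (L.φ i))
    (hS₀ : ∀ i, (SU e i).map ev₀ = T₀ (L.σ i))
    (hgen₀ : maximalIdeal R₀ ≤
        Ideal.span (Set.range fun k => ev₀ (MvPowerSeries.X (e (Sum.inr k)))) ⊔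
        Ideal.span (jset L ε T₀) ⊔
        (maximalIdeal O).map (algebraMap O R₀) ⊔ maximalIdeal R₀ ^ 2) :
    ∃ ev : MvPowerSeries (Fin n) O →+* R, IsLocalHom ev ∧ Function.Surjective ev ∧
      (∀ a, ev (MvPowerSeries.C a) = algebraMap O R a) ∧
      (∀ i, (FU e (fun i => (L.q i : O)) ε i).map ev = T (L.φ i)) ∧
      (∀ i, (SU e i).map ev = T (L.σ i)) ∧ ∀ f, β (ev f) = ev₀ f := by
  haveI := isLocalHom_algebraMap κ
  have hmem : ∀ {f : MvPowerSeries (Fin n) O}, f ∈ maximalIdeal _ → ev₀ f ∈ maximalIdeal R₀ := by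
    intro f hf
    have := map_pow_mem ev₀ (k := 1) (a := f) (by rwa [pow_one])
    rwa [pow_one] at this
  obtain ⟨x, hx, hβx, hgen⟩ := exists_gens_lift κ₀ β hβ (jset_kappa hres hρ) g hfin hg
    (fun k => ev₀ (MvPowerSeries.X (e (Sum.inr k)))) (fun k => hmem (X_mem _))
    (by rw [jset_map β hβT]; exact hgen₀)
  obtain ⟨ev, hloc, hsurj, hC, hF, hS, hX⟩ := exists_ev e h2 hε hqO hres hρ hdet hdetσ x hx hgen
  refine ⟨ev, hloc, hsurj, hC, hF, hS, ?_⟩
  haveI : IsLocalHom (β : R →+* R₀) := IsLocalHom.of_surjective _ hβ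
  haveI : IsLocalHom ((β : R →+* R₀).comp ev) := RingHom.isLocalHom_comp _ _
  have hmap : ∀ M : Matrix (Fin 2) (Fin 2) (MvPowerSeries (Fin n) O),
      M.map ((β : R →+* R₀).comp ev) = (M.map ev).map β := fun M => by
    rw [Matrix.map_map]; rfl
  have key : (β : R →+* R₀).comp ev = ev₀ := by
    refine lift_unique (q := fun i => (L.q i : O)) (ε := ε) e h2 _ _ (fun a => ?_) (fun i => ?_)
      (fun i => ?_) (fun k => ?_)
    · rw [RingHom.comp_apply, hC, hC₀]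
      exact β.commutes a
    · rw [hmap, hF, hβT, hF₀]
    · rw [hmap, hS, hβT, hS₀]
    · rw [RingHom.comp_apply, hX]
      exact hβx k
  intro f
  rw [← key]
  rfl

end

end Fermat.Agent.TWGal
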