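import Fermat.Agent.TWGal.Gens

/-!
# Generators lifting given generators
-/

set_option autoImplicit false
set_option maxHeartbeats 400000

namespace Fermat.Agent.TWGal

open IsLocalRing Matrix Fermat.Agent.DefRing Fermat.Agent.GalRep

section Lin

variable {k E F : Type*} [Field k] [AddCommGroup E] [Module k E] [AddCommGroup F] [Module k F]
  [FiniteDimensional k E] [FiniteDimensional k F]

/-- lifting spanning families -/
theorem exists_spanning_lift (f : E →ₗ[k] F) (hf : Function.Surjective f) {g : ℕ}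
    (hg : Module.finrank k E ≤ g) (v : Fin g → F) (hv : Submodule.span k (Set.range v) = ⊤) :
    ∃ w : Fin g → E, Submodule.span k (Set.range w) = ⊤ ∧ ∀ i, f (w i) = v i := by
  classical
  choose u hu using fun i => hf (v i)
  let U : (Fin g → k) →ₗ[k] E := Fintype.linearCombination k u
  let V : (Fin g → k) →ₗ[k] F := Fintype.linearCombination k v
  have hV : Function.Surjective V := by
    rw [← LinearMap.range_eq_top, Fintype.range_linearCombination, hv]
  have hfU : ∀ x, f (U x) = V x := by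
    intro x
    simp only [U, V, Fintype.linearCombination_apply, map_sum, map_smul, hu]
  let N := LinearMap.ker V
  let K := LinearMap.ker f
  have h1 := LinearMap.finrank_range_add_finrank_ker V
  have h2 := LinearMap.finrank_range_add_finrank_ker f
  rw [LinearMap.range_eq_top.mpr hV, finrank_top, Module.finrank_fin_fun] at h1
  rw [LinearMap.range_eq_top.mpr hf, finrank_top] at h2
  have hKN : Module.finrank k K ≤ Module.finrank k N := by
    change Module.finrank k (LinearMap.ker f) ≤ Module.finrank k (LinearMap.ker V)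
    omega
  -- a surjection `N → K`
  obtain ⟨s, hs⟩ : ∃ s : N →ₗ[k] K, Function.Surjective s := by
    let eN := (Module.finBasis k N).equivFun
    let eK := (Module.finBasis k K).equivFun
    let r : (Fin (Module.finrank k N) → k) →ₗ[k] (Fin (Module.finrank k K) → k) :=
      LinearMap.funLeft k k (Fin.castLE hKN)
    have hr : Function.Surjective r :=
      LinearMap.funLeft_surjective_of_injective k k _ (Fin.castLE_injective hKN)
    exact ⟨(eK.symm : _ →ₗ[k] K) ∘ₗ r ∘ₗ (eN : N →ₗ[k] _),
      eK.symm.surjective.comp (hr.comp eN.surjective)⟩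
  let UN : N →ₗ[k] K := (U.domRestrict N).codRestrict K (fun x => by
    rw [LinearMap.mem_ker]
    change f (U x) = 0
    rw [hfU]
    exact x.2)
  obtain ⟨P, hP⟩ := (s - UN).exists_extend
  let W : (Fin g → k) →ₗ[k] E := U + K.subtype.comp P
  have hW : Function.Surjective W := by
    intro e
    obtain ⟨x, hx⟩ := hV (f e)
    have h3 : f (W x) = f e := by
      change f (U x + (P x : E)) = f e
      rw [map_add, hfU, hx, LinearMap.mem_ker.mp (P x).2, add_zero]
    obtain ⟨n, hn⟩ := hs ⟨e - W x, by rw [LinearMap.mem_ker, map_sub, h3, sub_self]⟩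
    refine ⟨x + n, ?_⟩
    have h4 : W (n : Fin g → k) = e - W x := by
      change U n + (P n : E) = e - W x
      have h5 : P n = (s - UN) n := LinearMap.congr_fun hP n
      rw [h5, LinearMap.sub_apply, hn]
      change U n + ((e - W x) - U n) = e - W x
      abel
    rw [map_add, h4]
    abel
  refine ⟨fun i => W (Pi.single i 1), ?_, fun i => ?_⟩
  · rw [eq_top_iff]
    intro e _
    obtain ⟨x, rfl⟩ := hW e
    rw [← Finset.univ_sum_single x, map_sum]
    refine Submodule.sum_mem _ fun i _ => ?_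
    have : W (Pi.single i (x i)) = x i • W (Pi.single i 1) := by
      rw [← map_smul, ← Pi.single_smul, smul_eq_mul, mul_one]
    rw [this]
    exact Submodule.smul_mem _ _ (Submodule.subset_span ⟨i, rfl⟩)
  · change f (U (Pi.single i 1) + (P (Pi.single i 1) : E)) = v i
    rw [map_add, hfU, LinearMap.mem_ker.mp (P _).2, add_zero]
    simp only [V, Fintype.linearCombination_apply_single, one_smul]

end Lin

section Ev

variable {O : Type} [CommRing O] [IsLocalRing O] {R : Type} [CommRing R] [Algebra O R]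
  {κ : R →ₐ[O] ResidueField O} {J : Set R}

/-- evaluation of derivations -/
def evD (κ : R →ₐ[O] ResidueField O) (J : Set R) (x : R) :
    Module.Dual (ResidueField O) (Der κ J) where
  toFun ℓ := ℓ.1 x
  map_add' _ _ := rfl
  map_smul' _ _ := rfl

theorem evD_apply (x : R) (ℓ : Der κ J) : evD κ J x ℓ = ℓ.1 x := rfl

theorem evD_add (x y : R) : evD κ J (x + y) = evD κ J x + evD κ J y := by
  ext ℓ
  exact Der.add ℓ.2 x y

theorem evD_smul (a : O) (x : R) : evD κ J (algebraMap O R a * x) = residue O a • evD κ J x := by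
  ext ℓ
  rw [evD_apply, Der.mul ℓ.2, Der.alg ℓ.2, zero_mul, add_zero, AlgHom.commutes]
  rfl

/-- the image of an ideal under evaluation -/
def evSub (κ : R →ₐ[O] ResidueField O) (J : Set R) (I : Ideal R) :
    Submodule (ResidueField O) (Module.Dual (ResidueField O) (Der κ J)) where
  carrier := {w | ∃ x ∈ I, evD κ J x = w}
  zero_mem' := ⟨0, I.zero_mem, by ext ℓ; exact Der.zero ℓ.2⟩
  add_mem' := by
    rintro _ _ ⟨x, hx, rfl⟩ ⟨y, hy, rfl⟩
    exact ⟨x + y, I.add_mem hx hy, evD_add x y⟩
  smul_mem' := by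
    rintro c _ ⟨x, hx, rfl⟩
    obtain ⟨a, rfl⟩ := residue_surjective c
    exact ⟨algebraMap O R a * x, I.mul_mem_left _ hx, evD_smul a x⟩

variable [FiniteDimensional (ResidueField O) (Der κ J)]

/-- the image of an ideal is the annihilator of the derivations killing it -/
theorem mem_evSub (I : Ideal R) (w : Module.Dual (ResidueField O) (Der κ J))
    (hw : ∀ ℓ : Der κ J, (∀ x ∈ I, ℓ.1 x = 0) → w ℓ = 0) : w ∈ evSub κ J I := by
  rw [← Subspace.dualCoannihilator_dualAnnihilator_eq (W := evSub κ J I)]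
  rw [Submodule.mem_dualAnnihilator]
  intro ℓ hℓ
  apply hw
  intro x hx
  rw [Submodule.mem_dualCoannihilator] at hℓ
  exact hℓ _ ⟨x, hx, rfl⟩

end Ev

section Lift

variable {O : Type} [CommRing O] [IsLocalRing O] {R R₀ : Type} [CommRing R] [Algebra O R]
  [IsLocalRing R] [CommRing R₀] [Algebra O R₀] [IsLocalRing R₀]
  {κ : R →ₐ[O] ResidueField O} {κ₀ : R₀ →ₐ[O] ResidueField O} {J : Set R}

/-- derivations of a quotient -/
def derMap (β : R →ₐ[O] R₀) (hκ : ∀ x, κ₀ (β x) = κ x) :
    Der κ₀ (β '' J) →ₗ[ResidueField O] Der κ J where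
  toFun ℓ := ⟨fun x => ℓ.1 (β x), fun a b => by
      change ℓ.1 (β (a + b)) = ℓ.1 (β a) + ℓ.1 (β b)
      rw [map_add, Der.add ℓ.2],
    fun a b => by
      change ℓ.1 (β (a * b)) = κ a * ℓ.1 (β b) + ℓ.1 (β a) * κ b
      rw [map_mul, Der.mul ℓ.2, hκ, hκ], fun a => by
      change ℓ.1 (β (algebraMap O R a)) = 0
      rw [AlgHom.commutes, Der.alg ℓ.2], fun z hz => Der.kill ℓ.2 ⟨z, hz, rfl⟩⟩
  map_add' _ _ := rfl
  map_smul' _ _ := rfl

theorem derMap_injective (β : R →ₐ[O] R₀) (hβ : Function.Surjective β)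
    (hκ : ∀ x, κ₀ (β x) = κ x) : Function.Injective (derMap (J := J) β hκ) := by
  intro ℓ ℓ' h
  apply Subtype.ext
  funext y
  obtain ⟨x, rfl⟩ := hβ y
  exact congrFun (congrArg Subtype.val h) x

/-- **Lifting generators** -/
theorem exists_gens_lift (κ₀ : R₀ →ₐ[O] ResidueField O) (β : R →ₐ[O] R₀) (hβ : Function.Surjective β)
    (hJ : ∀ z ∈ J, κ z = 0) (g : ℕ)
    (hfin : FiniteDimensional (ResidueField O) (Der κ J))
    (hg : Module.finrank (ResidueField O) (Der κ J) ≤ g) (x₀ : Fin g → R₀)
    (hx₀ : ∀ i, x₀ i ∈ maximalIdeal R₀)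
    (hx₀' : maximalIdeal R₀ ≤ Ideal.span (Set.range x₀) ⊔ Ideal.span (β '' J) ⊔
        (maximalIdeal O).map (algebraMap O R₀) ⊔ maximalIdeal R₀ ^ 2) :
    ∃ x : Fin g → R, (∀ i, x i ∈ maximalIdeal R) ∧ (∀ i, β (x i) = x₀ i) ∧
      maximalIdeal R ≤ Ideal.span (Set.range x) ⊔ Ideal.span J ⊔
        (maximalIdeal O).map (algebraMap O R) ⊔ maximalIdeal R ^ 2 := by
  have hκ : ∀ x, κ₀ (β x) = κ x := by
    intro x
    have h1 : ∀ c : O, κ₀ (β (algebraMap O R c)) = κ (algebraMap O R c) := fun c => by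
      rw [AlgHom.commutes, AlgHom.commutes, AlgHom.commutes]
    obtain ⟨c, hc⟩ := residue_surjective (κ x)
    have h2 : x - algebraMap O R c ∈ maximalIdeal R := by
      rw [← ker_kappa κ, RingHom.mem_ker, map_sub, AlgHom.commutes, ← hc]
      exact sub_self _
    have h3 : κ₀.comp β (x - algebraMap O R c) = 0 := by
      rw [← ker_kappa (κ₀.comp β)] at h2
      exact h2
    rw [map_sub, AlgHom.comp_apply, AlgHom.comp_apply, h1, sub_eq_zero, AlgHom.commutes] at h3
    rw [h3]
    exact hc
  let D := derMap (J := J) β hκ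
  have hD : Function.Injective D := derMap_injective β hβ hκ
  haveI : FiniteDimensional (ResidueField O) (Der κ₀ (β '' J)) :=
    FiniteDimensional.of_injective D hD
  -- the spanning family in the dual of `Der κ₀`
  have hv : Submodule.span (ResidueField O) (Set.range fun i => evD κ₀ (β '' J) (x₀ i)) = ⊤ := by
    rw [← Subspace.dualCoannihilator_dualAnnihilator_eq
      (W := Submodule.span (ResidueField O) (Set.range fun i => evD κ₀ (β '' J) (x₀ i)))]
    rw [eq_top_iff]
    intro w _
    rw [Submodule.mem_dualAnnihilator]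
    intro ℓ hℓ
    have h1 : ℓ = 0 := by
      apply Subtype.ext
      refine Der.eq_zero_of_ker ℓ.2 fun y hy => ?_
      have hy' : y ∈ maximalIdeal R₀ := by rw [← ker_kappa κ₀]; exact hy
      have h2 := hx₀' hy'
      have hkill : ∀ I : Ideal R₀, I ≤ maximalIdeal R₀ → ∀ s : Set R₀, I = Ideal.span s →
          (∀ z ∈ s, ℓ.1 z = 0) → ∀ z ∈ I, ℓ.1 z = 0 := by
        rintro I hI s rfl hs z hz
        refine Submodule.span_induction (p := fun z _ => ℓ.1 z = 0) (fun z hz => hs z hz)
          (Der.zero ℓ.2) (fun a b _ _ ha hb => by rw [Der.add ℓ.2, ha, hb, add_zero])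
          (fun a b hb hb0 => ?_) hz
        have hbm : κ₀ b = 0 := by
          have : b ∈ maximalIdeal R₀ := hI hb
          rw [← ker_kappa κ₀] at this
          exact this
        rw [smul_eq_mul, Der.mul ℓ.2, hb0, hbm, mul_zero, mul_zero, add_zero]
      obtain ⟨y1, hy1, y2, hy2, rfl⟩ := Submodule.mem_sup.mp h2
      obtain ⟨y3, hy3, y4, hy4, rfl⟩ := Submodule.mem_sup.mp hy1
      obtain ⟨y5, hy5, y6, hy6, rfl⟩ := Submodule.mem_sup.mp hy3
      rw [Der.add ℓ.2, Der.add ℓ.2, Der.add ℓ.2]
      have k1 : ℓ.1 y2 = 0 := Der.sq ℓ.2 (by rw [ker_kappa κ₀]; exact hy2)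
      have k2 : ℓ.1 y4 = 0 := by
        refine hkill ((maximalIdeal O).map (algebraMap O R₀)) ?_ _ rfl ?_ y4 hy4
        · rw [Ideal.map_le_iff_le_comap]
          intro a ha
          rw [Ideal.mem_comap, ← ker_kappa κ₀, RingHom.mem_ker, AlgHom.commutes]
          exact (IsLocalRing.residue_eq_zero_iff a).mpr ha
        · rintro _ ⟨a, _, rfl⟩
          exact Der.alg ℓ.2 a
      have k3 : ℓ.1 y6 = 0 := by
        refine hkill (Ideal.span (β '' J)) ?_ _ rfl (fun z hz => Der.kill ℓ.2 hz) y6 hy6
        rw [Ideal.span_le]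
        rintro _ ⟨z, hz, rfl⟩
        rw [SetLike.mem_coe, ← ker_kappa κ₀, RingHom.mem_ker, hκ]
        exact hJ z hz
      have k4 : ℓ.1 y5 = 0 := by
        refine hkill (Ideal.span (Set.range x₀)) ?_ _ rfl ?_ y5 hy5
        · rw [Ideal.span_le]
          rintro _ ⟨i, rfl⟩
          exact hx₀ i
        · rintro _ ⟨i, rfl⟩
          rw [Submodule.mem_dualCoannihilator] at hℓ
          exact hℓ _ (Submodule.subset_span ⟨i, rfl⟩)
      rw [k1, k2, k3, k4, add_zero, add_zero, add_zero]
    rw [h1, map_zero]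
  -- lift the spanning family
  obtain ⟨w, hw, hwv⟩ := exists_spanning_lift (Module.Dual.transpose (R := ResidueField O) D)
    (LinearMap.dualMap_surjective_of_injective hD)
    (by rw [Subspace.dual_finrank_eq]; exact hg) _ hv
  -- lift the elements
  have hlift : ∀ i, ∃ x ∈ maximalIdeal R, β x = x₀ i ∧ evD κ J x = w i := by
    intro i
    obtain ⟨x, hx⟩ := hβ (x₀ i)
    have hxm : x ∈ maximalIdeal R := by
      rw [← ker_kappa κ, RingHom.mem_ker, ← hκ, hx]
      have := hx₀ i
      rw [← ker_kappa κ₀] at this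
      exact this
    have h1 : w i - evD κ J x ∈ evSub κ J (RingHom.ker β) := by
      refine mem_evSub _ _ fun ℓ hℓ => ?_
      -- `ℓ` factors through `β`
      choose s hs using hβ
      have key : ∀ a b, β a = β b → ℓ.1 a = ℓ.1 b := by
        intro a b hab
        have := hℓ (a - b) (by rw [RingHom.mem_ker, map_sub, hab, sub_self])
        rwa [Der.sub ℓ.2, sub_eq_zero] at this
      let ℓ₀ : Der κ₀ (β '' J) := ⟨fun y => ℓ.1 (s y), fun a b => by
          rw [← Der.add ℓ.2]; exact key _ _ (by rw [hs, map_add, hs, hs]),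
        fun a b => by
          have h2 : ℓ.1 (s (a * b)) = ℓ.1 (s a * s b) := key _ _ (by rw [hs, map_mul, hs, hs])
          refine h2.trans ?_
          rw [Der.mul ℓ.2, ← hκ, ← hκ, hs, hs],
        fun a => by
          have h2 : ℓ.1 (s (algebraMap O R₀ a)) = ℓ.1 (algebraMap O R a) :=
            key _ _ (by rw [hs, AlgHom.commutes])
          exact h2.trans (Der.alg ℓ.2 a),
        by
          rintro _ ⟨z, hz, rfl⟩
          have h2 : ℓ.1 (s (β z)) = ℓ.1 z := key _ _ (by rw [hs])
          exact h2.trans (Der.kill ℓ.2 hz)⟩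
      have hℓ₀ : D ℓ₀ = ℓ := by
        apply Subtype.ext
        funext a
        exact key _ _ (hs _)
      have h2 := LinearMap.congr_fun (hwv i) ℓ₀
      have h3 : (Module.Dual.transpose (R := ResidueField O) D (w i)) ℓ₀ = w i (D ℓ₀) := rfl
      rw [h3, hℓ₀, evD_apply] at h2
      rw [LinearMap.sub_apply, h2, evD_apply, sub_eq_zero, ← hx]
      exact (key _ _ (hs _))
    obtain ⟨y, hy, hy2⟩ := h1
    have hym : y ∈ maximalIdeal R := by
      rw [← ker_kappa κ, RingHom.mem_ker, ← hκ, RingHom.mem_ker.mp hy, map_zero]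
    refine ⟨x + y, Ideal.add_mem _ hxm hym, ?_, ?_⟩
    · rw [map_add, RingHom.mem_ker.mp hy, add_zero, hx]
    · rw [evD_add, hy2]
      abel
  choose x hx hx2 hx3 using hlift
  refine ⟨x, hx, hx2, ?_⟩
  refine gens_of_separating J hJ x hx fun ℓ hℓ h => ?_
  -- separation
  have h1 : ∀ f : Module.Dual (ResidueField O) (Der κ J), f ⟨ℓ, hℓ⟩ = 0 := by
    intro f
    have hf : f ∈ Submodule.span (ResidueField O) (Set.range w) := by rw [hw]; trivial
    induction hf using Submodule.span_induction with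
    | mem y hy =>
      obtain ⟨i, rfl⟩ := hy
      rw [← hx3 i]
      exact h i
    | zero => rfl
    | add a b _ _ ha hb => rw [LinearMap.add_apply, ha, hb, add_zero]
    | smul c a _ ha => rw [LinearMap.smul_apply, ha, smul_zero]
  have h2 := (Module.forall_dual_apply_eq_zero_iff (ResidueField O) _).mp h1
  exact congrArg Subtype.val h2

end Lift

end Fermat.Agent.TWGal
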