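import Fermat.Agent.TWGal.Core

/-!
# The patching argument for level lowering (Ihara avoidance)
-/

set_option autoImplicit false
set_option maxHeartbeats 400000

namespace Fermat.Agent.TWGal

open IsLocalRing Matrix Fermat.Agent.DefRing Fermat.Agent.GalRep Fermat.Agent.TWPatch
  Fermat.Agent.TWLoc

local notation "Qbar" => AlgebraicClosure ℚ

section

variable {p : ℕ} [Fact p.Prime] {ι : Type} {O : Type} [CommRing O] [CNL O]
  {R₀ : Type} [CommRing R₀] [CNL R₀] [Algebra O R₀]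

/-- the data of level `n` -/
structure Lvl {C : Type} [Field C] (φC : O →+* C) (L : LocD p ι) (ε : ι → O)
    (ρb : GQ →* Matrix (Fin 2) (Fin 2) (ResidueField O)) (lam : O) (g r d n : ℕ)
    (T₀ : GQ →* Matrix (Fin 2) (Fin 2) R₀) (a₀ : R₀ →+* Matrix (Fin d) (Fin d) O) where
  R : Type
  [cr : CommRing R]
  [cnl : CNL R]
  [alg : Algebra O R]
  fin : Module.Finite O R
  κ : R →ₐ[O] ResidueField O
  T : GQ →* Matrix (Fin 2) (Fin 2) R
  cont : MatCont T
  hρ : ∀ g, (T g).map κ = ρb g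
  det : ∀ i, (T (L.φ i)).det = (L.q i : R)
  detσ : ∀ i, (T (L.σ i)).det = 1
  β : R →ₐ[O] R₀
  hβ : Function.Surjective β
  hβT : ∀ g, (T g).map β = T₀ g
  hder : FiniteDimensional (ResidueField O) (Der κ (jset L ε T))
  hder' : Module.finrank (ResidueField O) (Der κ (jset L ε T)) ≤ g
  X₁ : R →+* Matrix (Fin d) (Fin d) (DRing O p n r)
  X₂ : R →+* Matrix (Fin d) (Fin d) (DRing O p n r)
  hX₁ : ∀ s, ∃ t, X₁ t = Matrix.scalar (Fin d) s
  hX₂ : ∀ s, ∃ t, X₂ t = Matrix.scalar (Fin d) s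
  hX₁O : ∀ a : O, X₁ (algebraMap O R a) = Matrix.scalar (Fin d) (algebraMap O _ a)
  hX₂O : ∀ a : O, X₂ (algebraMap O R a) = Matrix.scalar (Fin d) (algebraMap O _ a)
  haug : ∀ t, (aug O (DG p n r)).toRingHom.mapMatrix (X₁ t) = a₀ (β t)
  hcong : ∀ t i j, ∃ c, X₁ t i j - X₂ t i j = algebraMap O _ lam * c
  J₁ : Type
  y₁ : J₁ → R →+* C
  hy₁ : ∀ j, (y₁ j).comp (algebraMap O R) = φC
  sep₁ : ∀ t, (∀ j, y₁ j t = 0) → X₁ t = 0
  tr₁ : ∀ j i, y₁ j (T (L.σ i)).trace = 2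
  J₂ : Type
  y₂ : J₂ → R →+* C
  hy₂ : ∀ j, (y₂ j).comp (algebraMap O R) = φC
  sep₂ : ∀ t, (∀ j, y₂ j t = 0) → X₂ t = 0
  tr₂ : ∀ j i, y₂ j (T (L.σ i)).trace ≠ 2

attribute [instance] Lvl.cr Lvl.cnl Lvl.alg

end

section

variable {C : Type} [NontriviallyNormedField C] [IsUltrametricDist C] [CompleteSpace C]
  [CharZero C] [IsAlgClosed C]
variable {p : ℕ} [hpf : Fact p.Prime] {ι : Type} [Fintype ι] {O : Type} [CommRing O] [IsDomain O]
  [CNL O] {φC : O →+* C} (hφ : ∀ a, ‖φC a‖ ≤ 1)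
  {L : LocD p ι} {ε : ι → O} {ρb : GQ →* Matrix (Fin 2) (Fin 2) (ResidueField O)} {lam : O}
  {g r d : ℕ} {R₀ : Type} [CommRing R₀] [CNL R₀] [Algebra O R₀]
  {T₀ : GQ →* Matrix (Fin 2) (Fin 2) R₀} {a₀ : R₀ →+* Matrix (Fin d) (Fin d) O}

omit [Fintype ι] [CharZero C] [IsAlgClosed C] [CompleteSpace C] [IsUltrametricDist C] [IsDomain O]
  [NontriviallyNormedField C] in
theorem Lvl.rel {C : Type} [Field C] {φC : O →+* C} {n : ℕ} (lv : Lvl φC L ε ρb lam g r d n T₀ a₀)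
    (hpO : (p : O) ∈ maximalIdeal O) (hres : ResCond L ε ρb) (i : ι) :
    lv.T (L.φ i) * lv.T (L.σ i) = lv.T (L.σ i) ^ (L.q i) * lv.T (L.φ i) := by
  refine tame_rel lv.cont (L.hq i) (L.hA i) hpf.out (L.hpq i) ?_
    (fun σ hσ a b => sigma_sub_mem (κ := lv.κ) hres lv.hρ i hσ a b) (L.hφ i) (L.hσ i) (L.hσ' i)
  apply mem_of_kappa lv.κ
  have h1 := (residue_eq_zero_iff (p : O)).mpr hpO
  rw [map_natCast] at h1
  rw [map_natCast]
  exact h1

include hφ in
/-- **The core theorem (level lowering form).** -/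
theorem core [IsDiscreteValuationRing O]
    (hinj : Function.Injective φC) {c : ℝ} (hc1 : c < 1)
    (hc : ∀ a ∈ maximalIdeal O, ‖φC a‖ ≤ c) (hp2 : p ≠ 2) (hpC : ‖(p : C)‖ < 1)
    (hpO : (p : O) ∈ maximalIdeal O) (hε : ∀ i, ε i ^ 2 = 1)
    {a m : ι → ℕ} (hqm : ∀ i, L.q i = p ^ a i * m i + 1) (ha : ∀ i, a i ≠ 0)
    (hm : ∀ i, ¬ p ∣ m i) {ζ : ι → O} (hζ : ∀ i, IsPrimitiveRoot (ζ i) (p ^ a i))
    (hlam : maximalIdeal O = Ideal.span {lam}) (hgr : 3 * Fintype.card ι + g ≤ r) [NeZero d]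
    (hres : ResCond L ε ρb)
    (κ₀ : R₀ →ₐ[O] ResidueField O) (hρ₀ : ∀ g, (T₀ g).map κ₀ = ρb g)
    (hdet₀ : ∀ i, (T₀ (L.φ i)).det = (L.q i : R₀)) (hdetσ₀ : ∀ i, (T₀ (L.σ i)).det = 1)
    (ha₀ : Function.Injective a₀)
    (lv : ∀ n, Lvl φC L ε ρb lam g r d n T₀ a₀) :
    ∃ P : Ideal R₀, P.IsPrime ∧ algebraMap O R₀ lam ∉ P ∧
      ∀ i (u v : Fin 2), (T₀ (L.σ i) - 1) u v ∈ P := by
  classical
  have hp : p.Prime := hpf.out
  have hlam0 : lam ≠ 0 := by
    rintro rfl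
    rw [Ideal.span_singleton_eq_bot.mpr rfl] at hlam
    exact IsDiscreteValuationRing.not_a_field O hlam
  have h2 : IsUnit (2 : O) := isUnit_two_of hp hp2 hpO
  have h2C : ‖(2 : C)‖ = 1 := norm_two_eq hp hp2 hpC
  have hqO : ∀ i, (L.q i : O) - 1 ∈ maximalIdeal O := q_sub_one_mem hqm ha hpO
  have hm1 : ∀ a ∈ maximalIdeal O, ‖φC a‖ < 1 := fun a ha => (hc a ha).trans_lt hc1
  -- the sets of parameters
  obtain ⟨w2, hw2⟩ := h2.exists_right_inv
  let kk : ι → O := fun i => ε i * ((L.q i : O) - 1) * w2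
  have hkk : ∀ i, 2 * kk i = ε i * ((L.q i : O) - 1) := fun i => by
    linear_combination (ε i * ((L.q i : O) - 1)) * hw2
  have hkm : ∀ i, kk i ∈ maximalIdeal O := fun i =>
    Ideal.mul_mem_right _ _ (Ideal.mul_mem_left _ _ (hqO i))
  have hkk0 : ∀ i, φC (kk i) ≠ 0 := by
    intro i h
    have h3 := congrArg φC (hkk i)
    rw [map_mul, h, mul_zero, map_mul, map_sub, map_natCast, map_one] at h3
    have h4 : φC (ε i) ≠ 0 := by
      intro h5
      have h6 := congrArg φC (hε i)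
      rw [map_pow, h5, map_one] at h6
      norm_num at h6
    have h5 : ((L.q i : C) - 1) ≠ 0 := by
      rw [sub_ne_zero]
      intro h6
      have : L.q i = 1 := by exact_mod_cast h6
      exact (L.hq i).ne_one this
    exact mul_ne_zero h4 h5 h3.symm
  choose 𝓔 h𝓔1 h𝓔2 h𝓔3 using fun i => exists_𝓔 (C := C) (φ := φC) hp2 hpO hinj h2 (hζ i)
  -- level zero generators
  have hker₀ := jset_kappa hres hρ₀
  let lv₁ := lv 0
  have hfin₀ : FiniteDimensional (ResidueField O) (Der κ₀ (jset L ε T₀)) ∧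
      Module.finrank (ResidueField O) (Der κ₀ (jset L ε T₀)) ≤ g := by
    have hκ : ∀ x, κ₀ (lv₁.β x) = lv₁.κ x := by
      intro x
      obtain ⟨c, hc⟩ := residue_surjective (lv₁.κ x)
      have h1 : x - algebraMap O lv₁.R c ∈ maximalIdeal lv₁.R := by
        apply mem_of_kappa lv₁.κ
        rw [map_sub, AlgHom.commutes, ← hc]
        exact sub_self _
      have h3 : lv₁.β (x - algebraMap O lv₁.R c) ∈ maximalIdeal R₀ := by
        haveI : IsLocalHom (lv₁.β : lv₁.R →+* R₀) := IsLocalHom.of_surjective _ lv₁.hβ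
        have := map_pow_mem (lv₁.β : lv₁.R →+* R₀) (k := 1)
          (a := x - algebraMap O lv₁.R c) (by rwa [pow_one])
        rwa [pow_one] at this
      rw [← ker_kappa κ₀, RingHom.mem_ker, map_sub, map_sub, AlgHom.commutes, AlgHom.commutes,
        sub_eq_zero] at h3
      rw [h3, ← hc]
      rfl
    have h1 := derMap_injective (J := jset L ε lv₁.T) lv₁.β lv₁.hβ hκ
    rw [← jset_map lv₁.β lv₁.hβT]
    haveI := lv₁.hder
    exact ⟨FiniteDimensional.of_injective _ h1,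
      (LinearMap.finrank_le_finrank_of_injective h1).trans lv₁.hder'⟩
  obtain ⟨x₀, hx₀, hgen₀⟩ := exists_gens (κ := κ₀) (jset L ε T₀) hker₀ g hfin₀.1 hfin₀.2
  -- the index type
  obtain ⟨n, hn⟩ : ∃ n, n = 6 * Fintype.card ι + g := ⟨_, rfl⟩
  let e : (ι × Fin 6) ⊕ Fin g ≃ Fin n := Fintype.equivFinOfCardEq (by
    rw [Fintype.card_sum, Fintype.card_prod, Fintype.card_fin, Fintype.card_fin, hn]
    ring)
  obtain ⟨ev₀, hloc₀, hsurj₀, hC₀, hF₀, hS₀, hX₀⟩ := exists_ev e h2 hε hqO hres hρ₀ hdet₀ hdetσ₀ x₀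
    hx₀ hgen₀
  haveI := hloc₀
  have hgen₀' : maximalIdeal R₀ ≤
        Ideal.span (Set.range fun k => ev₀ (MvPowerSeries.X (e (Sum.inr k)))) ⊔
        Ideal.span (jset L ε T₀) ⊔
        (maximalIdeal O).map (algebraMap O R₀) ⊔ maximalIdeal R₀ ^ 2 := by
    have : (fun k => ev₀ (MvPowerSeries.X (e (Sum.inr k)))) = x₀ := funext hX₀
    rw [this]
    exact hgen₀
  choose ev hloc hsurj hC hF hS hβev using fun n => exists_ev_lift (κ₀ := κ₀) e h2 hε hqO hres
    (lv n).hρ (lv n).det (lv n).detσ (lv n).β (lv n).hβ (lv n).hβT (lv n).hder (lv n).hder'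
    hC₀ hF₀ hS₀ hgen₀'
  -- diamonds
  choose π hπl hπC hπX hπs using fun n => exists_diamond O p hpO n r
  have hker : ∀ k : ℕ, ∃ n₀, ∀ n ≥ n₀, RingHom.ker (π n) ≤
      maximalIdeal (MvPowerSeries (Fin r) O) ^ k := by
    intro k
    exact ⟨k, fun n hn => ker_diamond_le (hπl n) (hπC n) (hπX n) hpO (by omega)⟩
  let ε' : MvPowerSeries (Fin r) O →+* O := MvPowerSeries.constantCoeff
  have hε's : Function.Surjective ε' := fun a => ⟨MvPowerSeries.C a, MvPowerSeries.constantCoeff_C a⟩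
  haveI : IsLocalHom ε' := IsLocalHom.of_surjective _ hε's
  have hεB : ∀ n, ((aug O (DG p n r)).toRingHom).comp (π n) = ε' := by
    intro n
    haveI := hπl n
    haveI : CNL (DRing O p n r) := cnl_DRing O p hpO n r
    haveI : IsLocalHom (aug O (DG p n r)).toRingHom := IsLocalHom.of_surjective _ (fun a =>
      ⟨algebraMap O _ a, (aug O (DG p n r)).commutes a⟩)
    haveI : IsLocalHom (((aug O (DG p n r)).toRingHom).comp (π n)) := RingHom.isLocalHom_comp _ _
    refine mv_hom_ext _ _ (fun a => ?_) (fun j => ?_)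
    · rw [RingHom.comp_apply, hπC]
      exact ((aug O (DG p n r)).commutes a).trans (MvPowerSeries.constantCoeff_C a).symm
    · rw [RingHom.comp_apply, hπX]
      have h3 : (aug O (DG p n r)).toRingHom (MonoidAlgebra.of O _ (dgen j) - 1) = 0 := by
        rw [map_sub, map_one]
        exact sub_eq_zero.mpr (aug_of O (DG p n r) (dgen j))
      rw [h3]
      exact (MvPowerSeries.constantCoeff_X j).symm
  haveI : CNL (MvPowerSeries (Fin r) O) := inferInstance
  haveI : CNL (MvPowerSeries (Fin n) O) := inferInstance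
  have hdim : ringKrullDim (MvPowerSeries (Fin r) O) = ((r + 1 : ℕ) : WithBot ℕ∞) := by
    rw [ringKrullDim_mvPowerSeries, IsDiscreteValuationRing.ringKrullDim_eq_one O]
    push_cast
    rw [add_comm]
  -- relation
  have hrel : ∀ n i, (FU e (fun i => (L.q i : O)) ε i).map (ev n) * (SU e i).map (ev n) =
      ((SU e i).map (ev n)) ^ (L.q i) * (FU e (fun i => (L.q i : O)) ε i).map (ev n) := by
    intro n i
    rw [hF, hS]
    exact (lv n).rel hpO hres i
  have hcontr : ∀ n (y : (lv n).R →+* C), y.comp (algebraMap O (lv n).R) = φC →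
      Contr φC (y.comp (ev n)) := by
    intro n y hy
    haveI := hloc n
    haveI := isLocalHom_algebraMap (lv n).κ
    refine contr_comp (algebraMap O (lv n).R) hφ ?_ hc1 hc (ev n) (hC n) hy
    rw [RingHom.finite_algebraMap]
    exact (lv n).fin
  have key := ihara_avoidance' (𝓡 := MvPowerSeries (Fin n) O) (S := MvPowerSeries (Fin r) O)
    π hπs hker ε' hε's (fun n => (aug O (DG p n r)).toRingHom) hεB hdim
    (fun n => (lv n).X₁.comp (ev n)) (fun n => (lv n).X₂.comp (ev n))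
    (fun n s => by
      obtain ⟨t, ht⟩ := (lv n).hX₁ (π n s)
      obtain ⟨f, rfl⟩ := hsurj n t
      exact ⟨f, ht⟩)
    (fun n s => by
      obtain ⟨t, ht⟩ := (lv n).hX₂ (π n s)
      obtain ⟨f, rfl⟩ := hsurj n t
      exact ⟨f, ht⟩)
    (a₀.comp ev₀)
    (fun n f => by
      rw [RingHom.comp_apply, (lv n).haug, hβev]
      rfl)
    (MvPowerSeries.C lam) (MvPowerSeries.C lam)
    (fun n => by rw [RingHom.comp_apply, hC, (lv n).hX₁O, hπC])
    (fun n => by rw [RingHom.comp_apply, hC, (lv n).hX₂O, hπC])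
    (by
      change MvPowerSeries.constantCoeff (MvPowerSeries.C lam) ≠ 0
      rw [MvPowerSeries.constantCoeff_C]
      exact hlam0)
    (fun n f i j => by
      obtain ⟨c, hc⟩ := (lv n).hcong (ev n f) i j
      exact ⟨c, by rw [hπC]; exact hc⟩)
    (I1 e hφ kk) (I2 e hφ 𝓔)
    (fun n f hf => by
      rw [RingHom.comp_apply]
      apply (lv n).sep₁
      intro j
      have h3 := kill_I1 e hφ hp hp2 hpC hε hqO (fun i => (L.hq i).one_lt) hkk hm1
        (hcontr n _ ((lv n).hy₁ j)) (rel_comp e (ev n) (hrel n) ((lv n).y₁ j)) (fun i => by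
          rw [trace_comp, hS]
          exact (lv n).tr₁ j i) hf h2
      exact h3)
    (fun n f hf => by
      rw [RingHom.comp_apply]
      apply (lv n).sep₂
      intro j
      have h3 := kill_I2 e hφ hp hp2 hpC hε hqO hqm ha hm h𝓔3
        (hcontr n _ ((lv n).hy₂ j)) (rel_comp e (ev n) (hrel n) ((lv n).y₂ j)) (fun i => by
          rw [trace_comp, hS]
          exact (lv n).tr₂ j i) hf h2
      exact h3)
    (fun 𝔭' h𝔭' => (dim_I1 e hφ h2C hm1 hkm hkk0 hlam 𝔭' h𝔭').trans (by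
      rw [Fintype.card_fin]
      exact_mod_cast (by omega : 1 + 3 * Fintype.card ι + g ≤ r + 1)))
    (fun 𝔭' h𝔭' => (dim_I2 e hφ h2C hm1 h𝓔1 h𝓔2 hlam 𝔭' h𝔭').trans (by
      rw [Fintype.card_fin]
      exact_mod_cast (by omega : 1 + 3 * Fintype.card ι + g ≤ r + 1)))
    (𝔭T e hφ kk fun _ => false) (QT e O fun _ => false)
    (C_mem_QT e O _ (by rw [hlam]; exact Ideal.mem_span_singleton_self lam))
    (I2_le_QT e hφ h2C hm1 h𝓔1 h𝓔2 hc1 hc _)
    (unique_I1 e hφ h2C hm1 hkm hkk0 _)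
  obtain ⟨P, hPp, hP1, hP2, hP3, -⟩ := key
  have hkerP : RingHom.ker ev₀ ≤ P := by
    intro f hf
    apply hP2
    rw [RingHom.mem_ker, RingHom.comp_apply, RingHom.mem_ker.mp hf, map_zero]
  refine ⟨P.map ev₀, Ideal.map_isPrime_of_surjective hsurj₀ hkerP, ?_, ?_⟩
  · intro h
    apply hP3
    rw [← hC₀] at h
    have h3 := (Ideal.mem_map_iff_of_surjective ev₀ hsurj₀).mp h
    obtain ⟨f, hf, hf2⟩ := h3
    have h4 : f - MvPowerSeries.C lam ∈ P := hkerP (by
      rw [RingHom.mem_ker, map_sub, hf2, sub_self])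
    have := P.sub_mem hf h4
    rwa [sub_sub_cancel] at this
  · intro i u v
    obtain ⟨h3, h4, h5⟩ := xv_mem_𝔭T e hφ kk (T := fun _ => false) (i := i) rfl
    have h6 := mkM_sub_mem (A := MvPowerSeries (Fin n) O) (two_unit h2) (q := 1) (ε := 1)
      (one_pow 2) (J := P) (IsLocalRing.le_maximalIdeal hPp.ne_top) (one_sub_one_mem _) (hP1 h3)
      (hP1 h4) (hP1 h5) u v
    rw [one_smul] at h6
    have h7 := Ideal.mem_map_of_mem ev₀ h6
    convert h7 using 1
    rw [← hS₀ i, Matrix.sub_apply, Matrix.sub_apply, map_sub, Matrix.map_apply, Matrix.one_apply,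
      Matrix.one_apply]
    split_ifs
    · rw [map_one]; rfl
    · rw [map_zero]; rfl

end

end Fermat.Agent.TWGal
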